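import Fermat.Agent.S22.HeckeStable

set_option autoImplicit false

open UpperHalfPlane ModularForm CongruenceSubgroup Matrix.SpecialLinearGroup
open scoped MatrixGroups Manifold
open P2MW.S_ModularForm_heckeT_slash_eq_self_of_mem_Gamma0.ModularForm.HeckeSlashInvariance

noncomputable section

namespace Fermat.Agent.S22

variable {N : ℕ} [NeZero N] (n : ℕ)

theorem stable_heckeT (hn : 1 ≤ n) {p : ℕ} (hp : p.Prime) (hpN : ¬ p ∣ N) :
    ∀ φ ∈ periodLattice N n,
      φ ∘ₗ (CuspForm.heckeTLin ((n : ℤ) + 1) hp hpN) ∈ periodLattice N n := by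
  haveI : Fact p.Prime := ⟨hp⟩
  haveI : NeZero p := ⟨hp.ne_zero⟩
  refine stable_of_cosets n (X := OnePoint (ZMod p)) (heckeRep p)
    (fun x => x.elim (p : ℤ) (fun _ => 1)) (fun x => x.elim 0 (fun j => (j.val : ℤ)))
    (fun _ => 0) (fun x => x.elim 1 (fun _ => (p : ℤ))) ?_ ?_ ?_ ?_ p hp.pos ?_ _ ?_ ?_
  · intro x
    induction x using OnePoint.rec with
    | infty => simp [heckeRep, hp.ne_zero]
    | coe j => simp [heckeRep, hp.ne_zero]
  · intro x
    induction x using OnePoint.rec with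
    | infty => simp [heckeRep, hp.ne_zero]
    | coe j => simp [heckeRep, hp.ne_zero]
  · intro x
    induction x using OnePoint.rec with
    | infty => simp [heckeRep, hp.ne_zero]
    | coe j => simp [heckeRep, hp.ne_zero]
  · intro x
    induction x using OnePoint.rec with
    | infty => simp [heckeRep, hp.ne_zero]
    | coe j => simp [heckeRep, hp.ne_zero]
  · intro x
    induction x using OnePoint.rec with
    | infty =>
      rw [← Matrix.GeneralLinearGroup.val_det_apply]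
      exact det_heckeDiagMatrix hp.ne_zero
    | coe j =>
      rw [← Matrix.GeneralLinearGroup.val_det_apply]
      exact det_heckeMatrix hp.ne_zero _
  · intro f
    rw [CuspForm.coe_heckeTLin_apply, eichler_heckeT n hn f hp.ne_zero, heckeT_eq_sum_onePoint]
  · intro g hg
    have hN : (N : ℤ) ∣ g 1 0 :=
      (ZMod.intCast_zmod_eq_zero_iff_dvd _ _).mp (Gamma0_mem.mp hg)
    refine ⟨MulAction.toPerm (redMatrix p g), fun x => ?_⟩
    obtain ⟨g', hg', hmul⟩ := heckeRep_mul hpN g hN x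
    exact ⟨g', Gamma0_mem.mpr ((ZMod.intCast_zmod_eq_zero_iff_dvd _ _).mpr hg'), hmul⟩

theorem stable_heckeU (hn : 1 ≤ n) {q : ℕ} (hq : q.Prime) (hqN : q ∣ N) :
    ∀ φ ∈ periodLattice N n,
      φ ∘ₗ (CuspForm.heckeULin ((n : ℤ) + 1) hqN) ∈ periodLattice N n := by
  haveI : NeZero q := ⟨hq.ne_zero⟩
  refine stable_of_cosets n (X := ZMod q) (fun x => heckeMatrix q x.val)
    (fun _ => 1) (fun x => (x.val : ℤ)) (fun _ => 0) (fun _ => (q : ℤ))
    ?_ ?_ ?_ ?_ q hq.pos ?_ _ ?_ ?_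
  · intro x; simp [hq.ne_zero]
  · intro x; simp [hq.ne_zero]
  · intro x; simp [hq.ne_zero]
  · intro x; simp [hq.ne_zero]
  · intro x
    rw [← Matrix.GeneralLinearGroup.val_det_apply]
    exact det_heckeMatrix hq.ne_zero _
  · intro f
    rw [CuspForm.coe_heckeULin_apply, eichler_heckeU n hn f hq.ne_zero, heckeU_eq_sum_zmod]
  · intro g hg
    have hN : (N : ℤ) ∣ g 1 0 :=
      (ZMod.intCast_zmod_eq_zero_iff_dvd _ _).mp (Gamma0_mem.mp hg)
    have hc : (q : ℤ) ∣ g 1 0 := (Int.natCast_dvd_natCast.mpr hqN).trans hN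
    refine ⟨affinePerm g ((ZMod.intCast_zmod_eq_zero_iff_dvd _ _).mpr hc), fun x => ?_⟩
    obtain ⟨g', hg', hmul⟩ := heckeMatrix_mul_of_dvd g hc x
    refine ⟨g', Gamma0_mem.mpr ((ZMod.intCast_zmod_eq_zero_iff_dvd _ _).mpr ?_), hmul⟩
    rw [hg']
    exact dvd_mul_of_dvd_right hN _

theorem finite_heckeAlgebra (N : ℕ) [NeZero N] (k : ℤ) (S : Set ℕ) :
    Module.Finite ℤ (CuspForm.heckeAlgebra N k S) := by
  by_cases hk : k ≤ 1
  · haveI : Subsingleton (CuspForm (Gamma0 N) k) :=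
      ⟨fun a b => by
        rw [cuspForm_eq_zero_of_le_one N hk a, cuspForm_eq_zero_of_le_one N hk b]⟩
    haveI : Subsingleton (Module.End ℂ (CuspForm (Gamma0 N) k)) :=
      ⟨fun a b => LinearMap.ext fun v => Subsingleton.elim _ _⟩
    haveI : Subsingleton (CuspForm.heckeAlgebra N k S) :=
      ⟨fun a b => Subtype.ext (Subsingleton.elim _ _)⟩
    infer_instance
  · obtain ⟨n, rfl, hn⟩ : ∃ n : ℕ, k = (n : ℤ) + 1 ∧ 1 ≤ n :=
      ⟨(k - 1).toNat, by omega, by omega⟩
    refine finite_adjoin_of_separating_lattice _ (periodLattice N n) (periodLattice_fg n) ?_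
      (periodLattice_separates n hn)
    rintro t (⟨ℓ, hℓ, hℓN, -, rfl⟩ | ⟨q, hqN, hq, -, rfl⟩)
    · exact stable_heckeT n hn hℓ hℓN
    · exact stable_heckeU n hn hq hqN

end Fermat.Agent.S22
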