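import Mathlib

set_option autoImplicit false

open scoped MatrixGroups

namespace Fermat.Agent.S22.H82

/-- `SL(2, ℤ)` is a finitely generated group (generated by `S` and `T`). -/
theorem groupFG_SL2Z : Group.FG SL(2, ℤ) := by
  rw [Group.fg_iff]
  exact ⟨{ModularGroup.S, ModularGroup.T}, SpecialLinearGroup.SL2Z_generators,
    Set.toFinite _⟩

/-- Any finite index subgroup of `SL(2, ℤ)` is finitely generated. -/
theorem groupFG_of_finiteIndex (Γ : Subgroup SL(2, ℤ)) [Γ.FiniteIndex] : Group.FG Γ :=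
  haveI := groupFG_SL2Z
  Subgroup.fg_of_index_ne_zero Γ

/-- `Γ₀(N)` is a finitely generated group for `N ≠ 0`. -/
theorem groupFG_Gamma0 (N : ℕ) [NeZero N] : Group.FG (CongruenceSubgroup.Gamma0 N) :=
  groupFG_of_finiteIndex _

/-- `Γ₀(N)` is finitely generated as a subgroup: there is a finite set of elements of `Γ₀(N)`
whose closure in `SL(2, ℤ)` is `Γ₀(N)`. -/
theorem exists_finset_closure_eq_Gamma0 (N : ℕ) [NeZero N] :
    ∃ S : Finset SL(2, ℤ), Subgroup.closure (S : Set SL(2, ℤ)) = CongruenceSubgroup.Gamma0 N := by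
  have h := (Group.fg_iff_subgroup_fg (CongruenceSubgroup.Gamma0 N)).mp (groupFG_Gamma0 N)
  exact h

end Fermat.Agent.S22.H82
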