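import Mathlib

set_option autoImplicit false

namespace Fermat.Agent.S22.H39

open UpperHalfPlane ModularForm Matrix.SpecialLinearGroup OnePoint CongruenceSubgroup
open scoped MatrixGroups Manifold

/-- `s T^N s⁻¹ ∈ Γ₀(N)` for every `s ∈ SL(2, ℤ)`. -/
theorem conj_T_pow_mem_Gamma0 (N : ℕ) (s : SL(2, ℤ)) :
    s * ModularGroup.T ^ (N : ℤ) * s⁻¹ ∈ Gamma0 N := by
  have h1 : ModularGroup.T ^ (N : ℤ) ∈ Gamma N := by
    have := ModularGroup_T_pow_mem_Gamma (N : ℤ) (N : ℤ) dvd_rfl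
    simpa using this
  have h2 : s * ModularGroup.T ^ (N : ℤ) * s⁻¹ ∈ Gamma N :=
    (Gamma_normal N).conj_mem _ h1 s
  rw [Gamma_mem] at h2
  exact h2.2.2.1

/-- If `E` is slash-invariant of weight `w` under `Γ₀(N)`, then every `SL(2, ℤ)`-translate
`E ∣[w] s` is invariant under `T^N`. -/
theorem slash_slash_T_pow_of_invariant {N : ℕ} {w : ℤ} {E : ℍ → ℂ}
    (hinv : ∀ g : SL(2, ℤ), g ∈ Gamma0 N → E ∣[w] g = E) (s : SL(2, ℤ)) :
    (E ∣[w] s) ∣[w] (ModularGroup.T ^ (N : ℤ)) = E ∣[w] s := by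
  rw [← SlashAction.slash_mul]
  have h : s * ModularGroup.T ^ (N : ℤ) = (s * ModularGroup.T ^ (N : ℤ) * s⁻¹) * s := by group
  rw [h, SlashAction.slash_mul, hinv _ (conj_T_pow_mem_Gamma0 N s)]

/-- A function on `ℍ` which is slash-invariant (any weight) under `T^N` is `N`-periodic. -/
theorem periodic_of_slash_T_pow {N : ℕ} {w : ℤ} {F : ℍ → ℂ}
    (hF : F ∣[w] (ModularGroup.T ^ (N : ℤ)) = F) :
    Function.Periodic (F ∘ ofComplex) (N : ℂ) := by
  intro z
  simp only [Function.comp_apply]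
  by_cases hz : 0 < z.im
  · have hz' : 0 < (z + (N : ℂ)).im := by simpa using hz
    have hpt : ofComplex (z + (N : ℂ)) = ModularGroup.T ^ (N : ℤ) • ofComplex z := by
      apply UpperHalfPlane.ext
      rw [ModularGroup.coe_T_zpow_smul_eq]
      simp [ofComplex_apply_of_im_pos hz, ofComplex_apply_of_im_pos hz']
    rw [hpt]
    have h := congrFun hF (ofComplex z)
    rw [ModularForm.SL_slash_apply] at h
    have hden : denom (ModularGroup.T ^ (N : ℤ) : SL(2, ℤ)) (ofComplex z) = 1 := by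
      rw [ModularGroup.denom_apply]
      have h10 : (ModularGroup.T ^ (N : ℤ) : SL(2, ℤ)) 1 0 = 0 := by
        rw [ModularGroup.coe_T_zpow]; rfl
      have h11 : (ModularGroup.T ^ (N : ℤ) : SL(2, ℤ)) 1 1 = 1 := by
        rw [ModularGroup.coe_T_zpow]; rfl
      rw [h10, h11]
      simp
    rw [hden] at h
    simpa using h
  · have h1 : z.im ≤ 0 := not_lt.mp hz
    have h2 : (z + (N : ℂ)).im ≤ 0 := by simpa using h1
    rw [ofComplex_apply_eq_of_im_nonpos h2 h1]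

/-- (S2) If `E` is slash-invariant of weight `w` under `Γ₀(N)` then every translate `E ∣[w] s`,
`s ∈ SL(2, ℤ)`, is `N`-periodic. -/
theorem periodic_slash_of_invariant {N : ℕ} {w : ℤ} {E : ℍ → ℂ}
    (hinv : ∀ g : SL(2, ℤ), g ∈ Gamma0 N → E ∣[w] g = E) (s : SL(2, ℤ)) :
    Function.Periodic ((E ∣[w] s) ∘ ofComplex) (N : ℂ) :=
  periodic_of_slash_T_pow (slash_slash_T_pow_of_invariant hinv s)

/-- Same as `periodic_slash_of_invariant` with the period written as a real number. -/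
theorem periodic_slash_of_invariant' {N : ℕ} {w : ℤ} {E : ℍ → ℂ}
    (hinv : ∀ g : SL(2, ℤ), g ∈ Gamma0 N → E ∣[w] g = E) (s : SL(2, ℤ)) :
    Function.Periodic ((E ∣[w] s) ∘ ofComplex) (((N : ℝ)) : ℂ) := by
  have := periodic_slash_of_invariant hinv s
  simpa using this

section CuspForm

variable {N : ℕ} {k : ℤ}

theorem cuspForm_slash_invariant (f : CuspForm (Gamma0 N) k) (g : SL(2, ℤ)) (hg : g ∈ Gamma0 N) :
    (f : ℍ → ℂ) ∣[k] g = f :=
  SlashInvariantFormClass.slash_action_eq f _ ⟨g, hg, rfl⟩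

/-- (S1a) translates of a cusp form are holomorphic. -/
theorem cuspForm_slash_mdiff (f : CuspForm (Gamma0 N) k) (s : SL(2, ℤ)) :
    MDiff ((f : ℍ → ℂ) ∣[k] s) :=
  (CuspFormClass.holo f).slash k _

/-- (S1b) translates of a cusp form by `SL(2, ℤ)` vanish at `i∞`. -/
theorem cuspForm_slash_isZeroAtImInfty [NeZero N] (f : CuspForm (Gamma0 N) k) (s : SL(2, ℤ)) :
    IsZeroAtImInfty ((f : ℍ → ℂ) ∣[k] s) := by
  have hc : IsCusp (mapGL ℝ s • ∞) (Gamma0 N : Subgroup (GL (Fin 2) ℝ)) := by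
    rw [Subgroup.IsArithmetic.isCusp_iff_isCusp_SL2Z, isCusp_SL2Z_iff']
    exact ⟨s, rfl⟩
  exact CuspFormClass.zero_at_cusps f hc _ rfl

/-- (S1c) translates of a cusp form on `Γ₀(N)` by `SL(2, ℤ)` are `N`-periodic. -/
theorem cuspForm_slash_periodic (f : CuspForm (Gamma0 N) k) (s : SL(2, ℤ)) :
    Function.Periodic (((f : ℍ → ℂ) ∣[k] s) ∘ ofComplex) (N : ℂ) :=
  periodic_slash_of_invariant (fun g hg => cuspForm_slash_invariant f g hg) s

theorem cuspForm_slash_periodic' (f : CuspForm (Gamma0 N) k) (s : SL(2, ℤ)) :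
    Function.Periodic (((f : ℍ → ℂ) ∣[k] s) ∘ ofComplex) (((N : ℝ)) : ℂ) :=
  periodic_slash_of_invariant' (fun g hg => cuspForm_slash_invariant f g hg) s

end CuspForm

end Fermat.Agent.S22.H39
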