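import Mathlib

set_option autoImplicit false

namespace Fermat.Agent.S22

/-- The subalgebra of endomorphisms whose transpose preserves a lattice of functionals. -/
def stabSubalgebra {V : Type*} [AddCommGroup V] [Module ℂ V] (L : Submodule ℤ (V →ₗ[ℂ] ℂ)) :
    Subalgebra ℤ (Module.End ℂ V) where
  carrier := {t | ∀ φ ∈ L, φ ∘ₗ t ∈ L}
  mul_mem' := by
    intro a b ha hb φ hφ
    have : φ ∘ₗ (a * b) = (φ ∘ₗ a) ∘ₗ b := rfl
    rw [this]
    exact hb _ (ha _ hφ)
  add_mem' := by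
    intro a b ha hb φ hφ
    rw [LinearMap.comp_add]
    exact L.add_mem (ha _ hφ) (hb _ hφ)
  algebraMap_mem' := by
    intro r φ hφ
    have : φ ∘ₗ (algebraMap ℤ (Module.End ℂ V) r) = r • φ := by
      ext v
      simp [Algebra.algebraMap_eq_smul_one]
    rw [this]
    exact L.smul_mem r hφ

theorem mem_stabSubalgebra {V : Type*} [AddCommGroup V] [Module ℂ V]
    (L : Submodule ℤ (V →ₗ[ℂ] ℂ)) (t : Module.End ℂ V) :
    t ∈ stabSubalgebra L ↔ ∀ φ ∈ L, φ ∘ₗ t ∈ L := Iff.rfl

/-- The transpose action of the stabiliser on the lattice. -/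
def stabAction {V : Type*} [AddCommGroup V] [Module ℂ V] (L : Submodule ℤ (V →ₗ[ℂ] ℂ)) :
    stabSubalgebra L →ₗ[ℤ] (L →ₗ[ℤ] L) where
  toFun t :=
    { toFun := fun φ => ⟨φ.1 ∘ₗ t.1, t.2 φ.1 φ.2⟩
      map_add' := by
        intro φ ψ
        ext v
        simp
      map_smul' := by
        intro r φ
        ext v
        simp }
  map_add' := by
    intro s t
    ext φ v
    simp
  map_smul' := by
    intro r t
    ext φ v
    simp

theorem stabAction_injective {V : Type*} [AddCommGroup V] [Module ℂ V]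
    (L : Submodule ℤ (V →ₗ[ℂ] ℂ))
    (hsep : ∀ v : V, (∀ φ ∈ L, φ v = 0) → v = 0) :
    Function.Injective (stabAction L) := by
  rw [injective_iff_map_eq_zero]
  intro t ht
  apply Subtype.ext
  apply LinearMap.ext
  intro v
  apply hsep
  intro φ hφ
  have h1 := congrArg (fun F : L →ₗ[ℤ] L => ((F ⟨φ, hφ⟩ : L) : V →ₗ[ℂ] ℂ) v) ht
  simpa [stabAction] using h1

theorem finite_adjoin_of_separating_lattice {V : Type*} [AddCommGroup V] [Module ℂ V]
    (G : Set (Module.End ℂ V)) (L : Submodule ℤ (V →ₗ[ℂ] ℂ)) (hfg : L.FG)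
    (hstab : ∀ t ∈ G, ∀ φ ∈ L, φ ∘ₗ t ∈ L)
    (hsep : ∀ v : V, (∀ φ ∈ L, φ v = 0) → v = 0) :
    Module.Finite ℤ (Algebra.adjoin ℤ G) := by
  haveI : Module.Finite ℤ L := Module.Finite.iff_fg.mpr hfg
  haveI : IsNoetherian ℤ L := inferInstance
  haveI : IsNoetherian ℤ (L →ₗ[ℤ] L) := inferInstance
  have hle : Algebra.adjoin ℤ G ≤ stabSubalgebra L := Algebra.adjoin_le hstab
  haveI : Module.Finite ℤ (stabSubalgebra L) :=
    Module.Finite.of_injective (stabAction L) (stabAction_injective L hsep)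
  haveI : IsNoetherian ℤ (stabSubalgebra L) := inferInstance
  exact Module.Finite.of_injective (Subalgebra.inclusion hle).toLinearMap
    (Subalgebra.inclusion_injective hle)

end Fermat.Agent.S22
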