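import Mathlib
import Fermat.Prelude.Def_CuspForm_HeckeAlgebra

set_option autoImplicit false

open UpperHalfPlane ModularForm
open scoped MatrixGroups Manifold

noncomputable section

namespace Fermat.Agent.S22

/-- Iterated normalised derivative `D = (2 pi i)^{-1} d/dz` on functions on the upper half plane. -/
def Dn (n : ℕ) (F : ℍ → ℂ) : ℍ → ℂ := (Derivative.normalizedDerivOfComplex)^[n] F

/-- Polynomial functions of degree `< n` on the upper half plane, from coefficient vectors. -/
def polyFun (n : ℕ) : (Fin n → ℂ) →ₗ[ℂ] (ℍ → ℂ) where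
  toFun v := fun τ => ∑ i : Fin n, v i * (τ : ℂ) ^ (i : ℕ)
  map_add' := by
    intro v w
    funext τ
    simp [add_mul, Finset.sum_add_distrib]
  map_smul' := by
    intro c v
    funext τ
    simp [Finset.mul_sum, mul_assoc]

/-- The integral matrix of the weight `1 - n` action of `[a, b; c, d]` on coefficient vectors. -/
def intMat (n : ℕ) (a b c d : ℤ) : Matrix (Fin n) (Fin n) ℤ :=
  fun i j => ((Polynomial.C a * Polynomial.X + Polynomial.C b) ^ (j : ℕ) *
    (Polynomial.C c * Polynomial.X + Polynomial.C d) ^ (n - 1 - (j : ℕ))).coeff (i : ℕ)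

/-- The Eichler integral of order `n` of an `h`-periodic function, defined by its `q`-series. -/
def eichler (h : ℝ) (n : ℕ) (F : ℍ → ℂ) : ℍ → ℂ :=
  fun τ => ∑' m : ℕ, (qExpansion h F).coeff m * ((h : ℂ) / (m : ℂ)) ^ n *
    (Function.Periodic.qParam h τ) ^ m

/-- The period function `E_f |[1-n] g - E_f`. -/
def periodFun (n : ℕ) (F : ℍ → ℂ) (g : SL(2, ℤ)) : ℍ → ℂ :=
  (eichler 1 n F) ∣[(1 : ℤ) - n] g - eichler 1 n F

end Fermat.Agent.S22
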