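import Mathlib.NumberTheory.ModularForms.Derivative

set_option autoImplicit false

open UpperHalfPlane hiding I
open Real Complex Polynomial
open scoped Manifold MatrixGroups ModularForm Topology
open Derivative

noncomputable section

namespace Fermat.Agent.S22.H30

/-- iterating `D` preserves holomorphy -/
theorem mdiff_iterate_D {F : ℍ → ℂ} (hF : MDiff F) (m : ℕ) : MDiff (D^[m] F) := by
  induction m with
  | zero => simpa using hF
  | succ m ih =>
    rw [Function.iterate_succ_apply']
    exact normalizedDerivOfComplex_mdifferentiable ih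

/-- weight shift for the slash action -/
theorem slash_pred (F : ℍ → ℂ) (k : ℤ) {g : GL (Fin 2) ℝ} (hg : 0 < g.val.det) :
    F ∣[k - 1] g = fun z : ℍ => ((g.val.det : ℂ))⁻¹ * (denom g z * (F ∣[k] g) z) := by
  have hdet : g.det.val = g.val.det := Matrix.GeneralLinearGroup.val_det_apply g
  have hdetℂ : (g.val.det : ℂ) ≠ 0 := Complex.ofReal_ne_zero.mpr hg.ne'
  ext z
  have hz := denom_ne_zero g z
  simp only [ModularForm.slash_apply, hdet, abs_of_pos hg]
  rw [show k - 1 - 1 = (k - 1) - 1 by ring, zpow_sub_one₀ hdetℂ (k - 1),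
    show -(k - 1) = -k + 1 by ring, zpow_add_one₀ hz]
  field_simp

/-- the function `z ↦ denom g z` -/
def jfun (g : GL (Fin 2) ℝ) : ℍ → ℂ := fun z => denom g z

theorem mdiff_jfun (g : GL (Fin 2) ℝ) : MDiff (jfun g) := mdifferentiable_denom g

/-- `D` of the linear factor is the constant `(2πi)⁻¹ c` -/
theorem D_jfun (g : GL (Fin 2) ℝ) :
    D (jfun g) = fun _ => (2 * π * I)⁻¹ * (g 1 0 : ℂ) := by
  ext z
  simp only [normalizedDerivOfComplex]
  congr 1
  have h : (jfun g ∘ ofComplex) =ᶠ[𝓝 (z : ℂ)] fun w => (g 1 0 : ℂ) * w + (g 1 1 : ℂ) := by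
    filter_upwards [isOpen_upperHalfPlaneSet.mem_nhds z.im_pos] with w hw
    simp [jfun, denom, ofComplex_apply_of_im_pos hw]
  rw [h.deriv_eq]
  simp

theorem D_const_smul_fun (c : ℂ) {H : ℍ → ℂ} (hH : MDiff H) :
    D (fun z => c * H z) = fun z => c * D H z := by
  have := normalizedDerivOfComplex_smul c H hH
  have e : (fun z => c * H z) = c • H := by ext; simp
  rw [e, this]; ext; simp

theorem iterate_D_const_mul (c : ℂ) {H : ℍ → ℂ} (hH : MDiff H) (m : ℕ) :
    D^[m] (fun z => c * H z) = fun z => c * D^[m] H z := by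
  induction m with
  | zero => rfl
  | succ m ih =>
    rw [Function.iterate_succ_apply', ih, D_const_smul_fun c (mdiff_iterate_D hH m),
      Function.iterate_succ_apply']

/-- Leibniz rule against the linear factor -/
theorem iterate_D_jfun_mul (g : GL (Fin 2) ℝ) {H : ℍ → ℂ} (hH : MDiff H) (m : ℕ) :
    D^[m + 1] (jfun g * H) =
      jfun g * D^[m + 1] H + (((m : ℂ) + 1) * ((2 * π * I)⁻¹ * (g 1 0 : ℂ))) • D^[m] H := by
  induction m with
  | zero =>
    simp only [Function.iterate_one, Function.iterate_zero, id_eq, Nat.cast_zero, zero_add, one_mul]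
    rw [normalizedDerivOfComplex_mul _ _ (mdiff_jfun g) hH, D_jfun]
    ext z
    simp only [Pi.add_apply, Pi.mul_apply, Pi.smul_apply, smul_eq_mul]
    ring
  | succ m ih =>
    rw [Function.iterate_succ_apply', ih]
    have h1 : MDiff (D^[m + 1] H) := mdiff_iterate_D hH _
    have h2 : MDiff (D^[m] H) := mdiff_iterate_D hH _
    have h3 : MDiff (jfun g * D^[m + 1] H) := (mdiff_jfun g).mul h1
    have h4 : MDiff ((((m : ℂ) + 1) * ((2 * π * I)⁻¹ * (g 1 0 : ℂ))) • D^[m] H) :=
      h2.const_smul _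
    rw [normalizedDerivOfComplex_add _ _ h3 h4, normalizedDerivOfComplex_mul _ _ (mdiff_jfun g) h1,
      normalizedDerivOfComplex_smul _ _ h2, D_jfun]
    rw [Function.iterate_succ_apply' (f := D) (n := m + 1), Function.iterate_succ_apply' (f := D) (n := m)]
    ext z
    simp only [Pi.add_apply, Pi.mul_apply, Pi.smul_apply, smul_eq_mul, Nat.cast_add, Nat.cast_one]
    ring

/-- **Bol's identity** -/
theorem bol {F : ℍ → ℂ} (hF : MDiff F) (n : ℕ) {g : GL (Fin 2) ℝ} (hg : 0 < g.val.det) :
    D^[n + 1] (F ∣[-(n : ℤ)] g) =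
      fun z : ℍ => ((g.val.det : ℂ) ^ (n + 1))⁻¹ * ((D^[n + 1] F) ∣[(n : ℤ) + 2] g) z := by
  have hdetℂ : (g.val.det : ℂ) ≠ 0 := Complex.ofReal_ne_zero.mpr hg.ne'
  induction n with
  | zero =>
    simp only [Nat.cast_zero, neg_zero, zero_add, Function.iterate_one, pow_one]
    rw [normalizedDerivOfComplex_slash hF hg]
    ext z
    simp
  | succ n ih =>
    have hH : MDiff (F ∣[-(n : ℤ)] g) := hF.slash _ _
    have e1 : F ∣[-((n + 1 : ℕ) : ℤ)] g =
        fun z : ℍ => ((g.val.det : ℂ))⁻¹ * ((jfun g * (F ∣[-(n : ℤ)] g)) z) := by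
      have := slash_pred F (-(n : ℤ)) hg
      rw [show -((n + 1 : ℕ) : ℤ) = -(n : ℤ) - 1 by push_cast; ring, this]
      rfl
    rw [e1, iterate_D_const_mul _ ((mdiff_jfun g).mul hH), iterate_D_jfun_mul g hH (n + 1)]
    have hDn1 : MDiff (D^[n + 1] F) := mdiff_iterate_D hF _
    have e2 : D^[n + 1 + 1] (F ∣[-(n : ℤ)] g) = fun z : ℍ =>
        ((g.val.det : ℂ) ^ (n + 1))⁻¹ * (D ((D^[n + 1] F) ∣[(n : ℤ) + 2] g)) z := by
      rw [Function.iterate_succ_apply', ih, D_const_smul_fun _ (hDn1.slash _ _)]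
    rw [e2, ih, normalizedDerivOfComplex_slash hDn1 hg]
    have e3 := slash_pred (D^[n + 1 + 1] F) ((n : ℤ) + 2 + 2) hg
    rw [show ((n : ℤ) + 2 + 2 - 1) = ((n + 1 : ℕ) : ℤ) + 2 by push_cast; ring] at e3
    rw [e3, Function.iterate_succ_apply' (f := D) (n := n + 1)]
    ext z
    have hz := denom_ne_zero g z
    simp only [Pi.add_apply, Pi.mul_apply, Pi.smul_apply, smul_eq_mul, jfun, Nat.cast_add,
      Nat.cast_one]
    push_cast
    field_simp
    ring



/-- a polynomial antiderivative -/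
def antideriv (Q : ℂ[X]) : ℂ[X] :=
  ∑ i ∈ Finset.range (Q.natDegree + 1), C (Q.coeff i / ((i : ℂ) + 1)) * X ^ (i + 1)

theorem derivative_antideriv (Q : ℂ[X]) : derivative (antideriv Q) = Q := by
  conv_rhs => rw [Q.as_sum_range_C_mul_X_pow]
  rw [antideriv, derivative_sum]
  refine Finset.sum_congr rfl fun i _ => ?_
  rw [derivative_C_mul_X_pow]
  have : ((i : ℂ) + 1) ≠ 0 := by exact_mod_cast Nat.succ_ne_zero i
  simp only [Nat.add_sub_cancel, Nat.cast_add, Nat.cast_one]
  congr 2
  field_simp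

theorem natDegree_antideriv_le (Q : ℂ[X]) : (antideriv Q).natDegree ≤ Q.natDegree + 1 := by
  refine natDegree_sum_le_of_forall_le _ _ fun i hi => ?_
  refine (natDegree_C_mul_X_pow_le _ _).trans ?_
  have := Finset.mem_range.mp hi
  omega

/-- the function on `ℍ` attached to a polynomial -/
def polyFun (P : ℂ[X]) : ℍ → ℂ := fun z => P.eval (z : ℂ)

theorem polyFun_comp_ofComplex_eventuallyEq (P : ℂ[X]) (z : ℍ) :
    (polyFun P ∘ ofComplex) =ᶠ[𝓝 (z : ℂ)] fun w => P.eval w := by
  filter_upwards [isOpen_upperHalfPlaneSet.mem_nhds z.im_pos] with w hw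
  simp [polyFun, ofComplex_apply_of_im_pos hw]

theorem mdiff_polyFun (P : ℂ[X]) : MDiff (polyFun P) := by
  intro z
  rw [mdifferentiableAt_iff]
  exact (P.differentiable.differentiableAt).congr_of_eventuallyEq
    (polyFun_comp_ofComplex_eventuallyEq P z)

theorem D_polyFun (P : ℂ[X]) :
    D (polyFun P) = fun z => (2 * π * I)⁻¹ * (polyFun (derivative P)) z := by
  ext z
  simp only [normalizedDerivOfComplex]
  rw [(polyFun_comp_ofComplex_eventuallyEq P z).deriv_eq, Polynomial.deriv]
  rfl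

theorem exists_const_of_D_eq_zero {F : ℍ → ℂ} (hF : MDiff F) (h : D F = 0) :
    ∃ a : ℂ, ∀ z : ℍ, F z = a := by
  have hd : DifferentiableOn ℂ (F ∘ ofComplex) {z | 0 < z.im} := mdifferentiable_iff.mp hF
  have h0 : Set.EqOn (deriv (F ∘ ofComplex)) 0 {z : ℂ | 0 < z.im} := by
    intro w hw
    have := congrFun h ⟨w, hw⟩
    simp only [normalizedDerivOfComplex, Pi.zero_apply, mul_eq_zero, inv_eq_zero] at this
    rcases this with h1 | h1
    · exact absurd h1 (by simp [Real.pi_ne_zero, I_ne_zero])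
    · simpa using h1
  have hpc : IsPreconnected {z : ℂ | 0 < z.im} :=
    ((convex_halfSpace_im_gt 0).isPreconnected)
  obtain ⟨a, ha⟩ := isOpen_upperHalfPlaneSet.exists_is_const_of_deriv_eq_zero hpc hd h0
  refine ⟨a, fun z => ?_⟩
  have := ha (z : ℂ) z.im_pos
  simpa using this

/-- a holomorphic function on `ℍ` killed by `D^[n+1]` is a polynomial of degree at most `n` -/
theorem exists_polynomial_of_iterate_D_eq_zero (n : ℕ) :
    ∀ {F : ℍ → ℂ}, MDiff F → D^[n + 1] F = 0 →
      ∃ P : ℂ[X], P.natDegree ≤ n ∧ ∀ z : ℍ, F z = P.eval (z : ℂ) := by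
  induction n with
  | zero =>
    intro F hF h
    obtain ⟨a, ha⟩ := exists_const_of_D_eq_zero hF (by simpa using h)
    exact ⟨C a, by simp, fun z => by simp [ha z]⟩
  | succ n ih =>
    intro F hF h
    rw [Function.iterate_succ_apply] at h
    obtain ⟨Q, hQ, hQF⟩ := ih (normalizedDerivOfComplex_mdifferentiable hF) h
    set P : ℂ[X] := C (2 * π * I) * antideriv Q with hP
    have hPd : derivative P = C (2 * π * I) * Q := by
      rw [hP, derivative_C_mul, derivative_antideriv]
    have hG : MDiff (F - polyFun P) := hF.sub (mdiff_polyFun P)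
    have hDG : D (F - polyFun P) = 0 := by
      rw [normalizedDerivOfComplex_sub _ _ hF (mdiff_polyFun P), D_polyFun, hPd]
      ext z
      have h2 : (2 * (π : ℂ) * I) ≠ 0 := by simp [Real.pi_ne_zero, I_ne_zero]
      simp only [Pi.sub_apply, Pi.zero_apply, polyFun, eval_mul, eval_C, hQF z]
      field_simp
      ring
    obtain ⟨a, ha⟩ := exists_const_of_D_eq_zero hG hDG
    refine ⟨P + C a, ?_, fun z => ?_⟩
    · refine (natDegree_add_le _ _).trans (max_le ?_ (by simp))
      refine (natDegree_C_mul_le _ _).trans ((natDegree_antideriv_le Q).trans ?_)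
      omega
    · have := ha z
      simp only [Pi.sub_apply, polyFun] at this
      rw [eval_add, eval_C, ← this]
      ring


theorem iterate_D_add {F G : ℍ → ℂ} (hF : MDiff F) (hG : MDiff G) (m : ℕ) :
    D^[m] (F + G) = D^[m] F + D^[m] G := by
  induction m with
  | zero => rfl
  | succ m ih =>
    rw [Function.iterate_succ_apply', ih,
      normalizedDerivOfComplex_add _ _ (mdiff_iterate_D hF m) (mdiff_iterate_D hG m),
      Function.iterate_succ_apply', Function.iterate_succ_apply']

theorem iterate_D_sub {F G : ℍ → ℂ} (hF : MDiff F) (hG : MDiff G) (m : ℕ) :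
    D^[m] (F - G) = D^[m] F - D^[m] G := by
  induction m with
  | zero => rfl
  | succ m ih =>
    rw [Function.iterate_succ_apply', ih,
      normalizedDerivOfComplex_sub _ _ (mdiff_iterate_D hF m) (mdiff_iterate_D hG m),
      Function.iterate_succ_apply', Function.iterate_succ_apply']

theorem iterate_D_smul (c : ℂ) {F : ℍ → ℂ} (hF : MDiff F) (m : ℕ) :
    D^[m] (c • F) = c • D^[m] F := by
  induction m with
  | zero => rfl
  | succ m ih =>
    rw [Function.iterate_succ_apply', ih,
      normalizedDerivOfComplex_smul _ _ (mdiff_iterate_D hF m),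
      Function.iterate_succ_apply']

theorem iterate_D_zero (m : ℕ) : D^[m] (0 : ℍ → ℂ) = 0 := by
  induction m with
  | zero => rfl
  | succ m ih =>
    rw [Function.iterate_succ_apply', ih]
    exact normalizedDerivOfComplex_const 0

/-- Bol for `SL(2, ℤ)` -/
theorem bol_SL {F : ℍ → ℂ} (hF : MDiff F) (n : ℕ) (γ : SL(2, ℤ)) :
    D^[n + 1] (F ∣[-(n : ℤ)] γ) = (D^[n + 1] F) ∣[(n : ℤ) + 2] γ := by
  have hdet : (γ : GL (Fin 2) ℝ).val.det = 1 := by
    rw [← Matrix.GeneralLinearGroup.val_det_apply]; simp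
  have := bol hF n (g := (γ : GL (Fin 2) ℝ)) (by rw [hdet]; exact one_pos)
  rw [hdet] at this
  simpa [ModularForm.SL_slash] using this

/-- period polynomial: if `D^[n+1] E = f` and `f` is invariant of weight `n + 2` under `g` of
determinant one, then `E ∣[-n] g - E` is a polynomial of degree at most `n`. -/
theorem exists_polynomial_slash_sub {E f : ℍ → ℂ} (hE : MDiff E) (n : ℕ)
    (hEf : D^[n + 1] E = f) {g : GL (Fin 2) ℝ} (hg : g.val.det = 1)
    (hf : f ∣[(n : ℤ) + 2] g = f) :
    ∃ P : ℂ[X], P.natDegree ≤ n ∧ ∀ z : ℍ, (E ∣[-(n : ℤ)] g) z - E z = P.eval (z : ℂ) := by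
  have hEg : MDiff (E ∣[-(n : ℤ)] g) := hE.slash _ _
  have h0 : D^[n + 1] (E ∣[-(n : ℤ)] g - E) = 0 := by
    rw [iterate_D_sub hEg hE, bol hE n (g := g) (by rw [hg]; exact one_pos), hEf, hg]
    ext z
    simp [hf]
  obtain ⟨P, hP, hPz⟩ := exists_polynomial_of_iterate_D_eq_zero n (hEg.sub hE) h0
  exact ⟨P, hP, fun z => by simpa using hPz z⟩

theorem polyFun_injective : Function.Injective polyFun := by
  intro P Q h
  refine Polynomial.eq_of_infinite_eval_eq P Q ?_
  have hinj : Function.Injective (fun n : ℕ => ((n : ℂ) + 1) * I) := by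
    intro a b hab
    have h1 : ((a : ℂ) + 1) = (b : ℂ) + 1 := mul_right_cancel₀ I_ne_zero hab
    exact_mod_cast add_right_cancel h1
  refine Set.infinite_of_injective_forall_mem hinj fun n => ?_
  have him : 0 < (((n : ℂ) + 1) * I).im := by
    have : (((n : ℂ) + 1) * I).im = (n : ℝ) + 1 := by simp
    rw [this]
    positivity
  have := congrFun h ⟨_, him⟩
  simpa [polyFun] using this


end Fermat.Agent.S22.H30
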