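import Fermat.Agent.S22.H50_Defs
import Fermat.Agent.S22.H30_Bol

set_option autoImplicit false

open UpperHalfPlane hiding I
open Real Complex Polynomial CongruenceSubgroup
open scoped Manifold MatrixGroups ModularForm Topology
open Derivative

noncomputable section

namespace Fermat.Agent.S22.H30


open Fermat.Agent.S22


open Fermat.Agent.S22

theorem eval_polyAct (n : ℕ) (M : Matrix (Fin 2) (Fin 2) ℂ) (P : ℂ[X]) (z : ℂ) :
    (polyAct n M P).eval z = ∑ j ∈ Finset.range (n + 1),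
      P.coeff j * (M 0 0 * z + M 0 1) ^ j * (M 1 0 * z + M 1 1) ^ (n - j) := by
  rw [polyAct_apply, eval_finsetSum]
  refine Finset.sum_congr rfl fun j _ => ?_
  simp

theorem natDegree_polyAct_le (n : ℕ) (M : Matrix (Fin 2) (Fin 2) ℂ) (P : ℂ[X]) :
    (polyAct n M P).natDegree ≤ n := by
  rw [polyAct_apply]
  refine natDegree_sum_le_of_forall_le _ _ fun j hj => ?_
  have hj' : j ≤ n := Nat.lt_succ_iff.mp (Finset.mem_range.mp hj)
  have h1 : (C (M 0 0) * X + C (M 0 1) : ℂ[X]).natDegree ≤ 1 := natDegree_linear_le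
  have h2 : (C (M 1 0) * X + C (M 1 1) : ℂ[X]).natDegree ≤ 1 := natDegree_linear_le
  have e1 := natDegree_mul_le (p := C (P.coeff j) * (C (M 0 0) * X + C (M 0 1)) ^ j)
    (q := (C (M 1 0) * X + C (M 1 1)) ^ (n - j))
  have e2 := natDegree_C_mul_le (P.coeff j) ((C (M 0 0) * X + C (M 0 1)) ^ j)
  have e3 := natDegree_pow_le_of_le j h1
  have e4 := natDegree_pow_le_of_le (n - j) h2
  omega

/-- slash action on polynomial functions, `SL(2, ℤ)` case -/
theorem polyFun_slash_SL (n : ℕ) (P : ℂ[X]) (hP : P.natDegree ≤ n) (g : SL(2, ℤ)) (z : ℍ) :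
    ((polyFun P) ∣[-(n : ℤ)] g) z = (polyAct n (cMat g) P).eval (z : ℂ) := by
  rw [ModularForm.SL_slash_apply, eval_polyAct, neg_neg, zpow_natCast, polyFun,
    eval_eq_sum_range' (Nat.lt_succ_of_le hP), Finset.sum_mul]
  have hden : denom g z ≠ 0 := denom_ne_zero g z
  have hsm : ((g • z : ℍ) : ℂ) = (((g 0 0 : ℤ) : ℂ) * z + ((g 0 1 : ℤ) : ℂ)) / denom g z := by
    rw [coe_specialLinearGroup_apply]
    simp [denom]
  have hd : denom g z = ((g 1 0 : ℤ) : ℂ) * z + ((g 1 1 : ℤ) : ℂ) := by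
    simp [denom]
  refine Finset.sum_congr rfl fun j hj => ?_
  have hj' : j ≤ n := Nat.lt_succ_iff.mp (Finset.mem_range.mp hj)
  rw [hsm, div_pow]
  have : denom g z ^ n = denom g z ^ j * denom g z ^ (n - j) := by
    rw [← pow_add]; congr 1; omega
  rw [this]
  simp only [cMat, Matrix.map_apply, Int.coe_castRingHom]
  rw [← hd]
  field_simp



variable {N : ℕ} {n : ℕ}

theorem slash_eq_of_mem_Gamma0 (f : VV N n) {g : SL(2, ℤ)} (hg : g ∈ Gamma0 N) :
    (⇑f : ℍ → ℂ) ∣[(n : ℤ) + 2] g = ⇑f :=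
  SlashInvariantFormClass.slash_action_eq f _
    (Subgroup.mem_map_of_mem (Matrix.SpecialLinearGroup.mapGL ℝ) hg)

theorem exists_isPeriodPoly (ED : EichlerDatum N n) (f : VV N n) {g : SL(2, ℤ)}
    (hg : g ∈ Gamma0 N) : ∃ P, IsPeriodPoly ED f g P := by
  have hdet : (g : GL (Fin 2) ℝ).val.det = 1 := by
    rw [← Matrix.GeneralLinearGroup.val_det_apply]; simp
  obtain ⟨P, hP, hPz⟩ := exists_polynomial_slash_sub (ED.mdiff f) n (ED.iterD f)
    (g := (g : GL (Fin 2) ℝ)) hdet (slash_eq_of_mem_Gamma0 f hg)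
  exact ⟨P, hP, hPz⟩

/-- PER (1) -/
theorem isPeriodPoly_periodPoly (ED : EichlerDatum N n) (f : VV N n) {g : SL(2, ℤ)}
    (hg : g ∈ Gamma0 N) : IsPeriodPoly ED f g (periodPoly ED f g) := by
  have h := exists_isPeriodPoly ED f hg
  rw [periodPoly, dif_pos h]
  exact Classical.choose_spec h

/-- PER (2) -/
theorem isPeriodPoly_unique {ED : EichlerDatum N n} {f : VV N n} {g : SL(2, ℤ)} {P Q : ℂ[X]}
    (hP : IsPeriodPoly ED f g P) (hQ : IsPeriodPoly ED f g Q) : P = Q := by
  apply polyFun_injective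
  ext z
  simp only [polyFun]
  rw [← hP.2 z, ← hQ.2 z]

theorem isPeriodPoly_eq_periodPoly {ED : EichlerDatum N n} {f : VV N n} {g : SL(2, ℤ)} {P : ℂ[X]}
    (hP : IsPeriodPoly ED f g P) : periodPoly ED f g = P := by
  have h : ∃ P, IsPeriodPoly ED f g P := ⟨P, hP⟩
  rw [periodPoly, dif_pos h]
  exact isPeriodPoly_unique (Classical.choose_spec h) hP

theorem isPeriodPoly_add {ED : EichlerDatum N n} {f f' : VV N n} {g : SL(2, ℤ)} {P Q : ℂ[X]}
    (hP : IsPeriodPoly ED f g P) (hQ : IsPeriodPoly ED f' g Q) :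
    IsPeriodPoly ED (f + f') g (P + Q) := by
  refine ⟨(natDegree_add_le _ _).trans (max_le hP.1 hQ.1), fun z => ?_⟩
  rw [map_add, SlashAction.add_slash, eval_add, ← hP.2 z, ← hQ.2 z]
  simp only [Pi.add_apply]
  ring

theorem isPeriodPoly_smul {ED : EichlerDatum N n} {f : VV N n} {g : SL(2, ℤ)} {P : ℂ[X]}
    (c : ℂ) (hP : IsPeriodPoly ED f g P) :
    IsPeriodPoly ED (c • f) g (c • P) := by
  refine ⟨(natDegree_smul_le _ _).trans hP.1, fun z => ?_⟩
  rw [map_smul, ModularForm.SL_smul_slash, eval_smul, ← hP.2 z]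
  simp only [Pi.smul_apply, smul_eq_mul]
  ring

/-- PER (3) -/
theorem periodPoly_add (ED : EichlerDatum N n) (f f' : VV N n) {g : SL(2, ℤ)}
    (hg : g ∈ Gamma0 N) :
    periodPoly ED (f + f') g = periodPoly ED f g + periodPoly ED f' g :=
  isPeriodPoly_eq_periodPoly
    (isPeriodPoly_add (isPeriodPoly_periodPoly ED f hg) (isPeriodPoly_periodPoly ED f' hg))

theorem periodPoly_smul (ED : EichlerDatum N n) (c : ℂ) (f : VV N n) {g : SL(2, ℤ)}
    (hg : g ∈ Gamma0 N) :
    periodPoly ED (c • f) g = c • periodPoly ED f g :=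
  isPeriodPoly_eq_periodPoly (isPeriodPoly_smul c (isPeriodPoly_periodPoly ED f hg))

theorem natDegree_periodPoly_le (ED : EichlerDatum N n) (f : VV N n) (g : SL(2, ℤ)) :
    (periodPoly ED f g).natDegree ≤ n := by
  rw [periodPoly]
  split_ifs with h
  · exact (Classical.choose_spec h).1
  · simp

open Classical in
/-- the `j`-th coefficient of the period polynomial at `g ∈ Γ₀(N)` as a linear functional
(zero if `g ∉ Γ₀(N)`). -/
def coeffFunctional (ED : EichlerDatum N n) (g : SL(2, ℤ)) (j : ℕ) : Module.Dual ℂ (VV N n) :=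
  if hg : g ∈ Gamma0 N then
    { toFun := fun f => (periodPoly ED f g).coeff j
      map_add' := fun f f' => by rw [periodPoly_add ED f f' hg, coeff_add]
      map_smul' := fun c f => by
        rw [periodPoly_smul ED c f hg, coeff_smul, RingHom.id_apply] }
  else 0

theorem coeffFunctional_apply (ED : EichlerDatum N n) {g : SL(2, ℤ)} (hg : g ∈ Gamma0 N)
    (j : ℕ) (f : VV N n) : coeffFunctional ED g j f = (periodPoly ED f g).coeff j := by
  rw [coeffFunctional, dif_pos hg]
  rfl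

theorem mem_periodFunctionals (ED : EichlerDatum N n) {g : SL(2, ℤ)} (hg : g ∈ Gamma0 N)
    {j : ℕ} (hj : j ≤ n) : coeffFunctional ED g j ∈ periodFunctionals ED :=
  ⟨g, hg, j, hj, fun f => coeffFunctional_apply ED hg j f⟩

theorem coeffFunctional_mem_Lam (ED : EichlerDatum N n) {g : SL(2, ℤ)} (hg : g ∈ Gamma0 N)
    {j : ℕ} (hj : j ≤ n) : coeffFunctional ED g j ∈ Lam ED :=
  Submodule.subset_span (mem_periodFunctionals ED hg hj)

theorem periodFunctionals_eq (ED : EichlerDatum N n) :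
    periodFunctionals ED = {φ | ∃ g ∈ Gamma0 N, ∃ j ≤ n, φ = coeffFunctional ED g j} := by
  ext φ
  constructor
  · rintro ⟨g, hg, j, hj, h⟩
    exact ⟨g, hg, j, hj, LinearMap.ext fun f => by rw [h f, coeffFunctional_apply ED hg]⟩
  · rintro ⟨g, hg, j, hj, rfl⟩
    exact mem_periodFunctionals ED hg hj



theorem slash_eq_add_polyFun (ED : EichlerDatum N n) (f : VV N n) {g : SL(2, ℤ)}
    (hg : g ∈ Gamma0 N) :
    ED.E f ∣[-(n : ℤ)] g = ED.E f + polyFun (periodPoly ED f g) := by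
  ext z
  have := (isPeriodPoly_periodPoly ED f hg).2 z
  simp only [Pi.add_apply, polyFun]
  rw [← this]
  ring

/-- PER (4): the cocycle rule -/
theorem periodPoly_mul (ED : EichlerDatum N n) (f : VV N n) {g h : SL(2, ℤ)}
    (hg : g ∈ Gamma0 N) (hh : h ∈ Gamma0 N) :
    periodPoly ED f (g * h) =
      polyAct n (cMat h) (periodPoly ED f g) + periodPoly ED f h := by
  apply isPeriodPoly_eq_periodPoly
  refine ⟨(natDegree_add_le _ _).trans
    (max_le (natDegree_polyAct_le _ _ _) (natDegree_periodPoly_le ED f h)), fun z => ?_⟩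
  rw [SlashAction.slash_mul, slash_eq_add_polyFun ED f hg, SlashAction.add_slash,
    slash_eq_add_polyFun ED f hh, eval_add,
    ← polyFun_slash_SL n _ (natDegree_periodPoly_le ED f g) h z]
  simp only [Pi.add_apply, polyFun]
  ring

theorem periodPoly_one (ED : EichlerDatum N n) (f : VV N n) : periodPoly ED f 1 = 0 := by
  apply isPeriodPoly_eq_periodPoly
  refine ⟨by simp, fun z => ?_⟩
  rw [SlashAction.slash_one]
  simp

theorem periodPoly_inv (ED : EichlerDatum N n) (f : VV N n) {g : SL(2, ℤ)}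
    (hg : g ∈ Gamma0 N) :
    periodPoly ED f g⁻¹ = - polyAct n (cMat g⁻¹) (periodPoly ED f g) := by
  have h := periodPoly_mul ED f hg (inv_mem hg)
  rw [mul_inv_cancel, periodPoly_one] at h
  exact eq_neg_of_add_eq_zero_right h.symm

end Fermat.Agent.S22.H30
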