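import Mathlib

set_option autoImplicit false

namespace Fermat.Agent.S22.H39

open UpperHalfPlane ModularForm Matrix.SpecialLinearGroup OnePoint
open scoped MatrixGroups Manifold

/-- Closing lemma: a holomorphic function on the upper half plane which is slash-invariant of
nonpositive weight `k` under an arithmetic subgroup, is bounded at infinity after slashing with
any element of `SL(2, ℤ)`, and tends to zero at infinity, vanishes identically. -/
theorem eq_zero_of_nonpos_weight (𝒢 : Subgroup (GL (Fin 2) ℝ)) [𝒢.IsArithmetic] {k : ℤ}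
    (hk : k ≤ 0) (E : ℍ → ℂ) (hol : MDiff E)
    (hinv : ∀ γ ∈ 𝒢, E ∣[k] γ = E)
    (hbdd : ∀ s : SL(2, ℤ), IsBoundedAtImInfty (E ∣[k] s))
    (hzero : IsZeroAtImInfty E) : E = 0 := by
  let f : ModularForm 𝒢 k :=
    { toFun := E
      slash_action_eq' := hinv
      holo' := hol
      bdd_at_cusps' := by
        intro c hc
        have hc' : IsCusp c 𝒮ℒ := (Subgroup.IsArithmetic.isCusp_iff_isCusp_SL2Z 𝒢).mp hc
        rw [isBoundedAt_iff_forall_SL2Z hc']
        intro γ _
        exact hbdd γ }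
  have hfE : (f : ℍ → ℂ) = E := rfl
  rcases hk.lt_or_eq with hk' | hk'
  · have : f = 0 := ModularForm.isZero_of_neg_weight hk' f
    rw [← hfE, this]
    rfl
  · subst hk'
    obtain ⟨c, hc⟩ := ModularForm.eq_const_of_weight_zero f
    rw [hfE] at hc
    have hc0 : c = 0 := by
      have h1 : Filter.Tendsto E atImInfty (nhds 0) := hzero
      rw [hc] at h1
      have h2 : Filter.Tendsto (Function.const ℍ c) atImInfty (nhds c) := tendsto_const_nhds
      exact tendsto_nhds_unique h2 h1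
    rw [hc, hc0]
    rfl

end Fermat.Agent.S22.H39

namespace Fermat.Agent.S22.H39

open UpperHalfPlane ModularForm Matrix.SpecialLinearGroup OnePoint
open scoped MatrixGroups Manifold

/-- Specialisation of `eq_zero_of_nonpos_weight` to `Γ₀(N)` and weight `-n`. -/
theorem eq_zero_of_neg_nat_weight_Gamma0 (N : ℕ) [NeZero N] (n : ℕ) (E : ℍ → ℂ) (hol : MDiff E)
    (hinv : ∀ γ ∈ (CongruenceSubgroup.Gamma0 N : Subgroup (GL (Fin 2) ℝ)), E ∣[-(n : ℤ)] γ = E)
    (hbdd : ∀ s : SL(2, ℤ), IsBoundedAtImInfty (E ∣[-(n : ℤ)] s))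
    (hzero : IsZeroAtImInfty E) : E = 0 :=
  eq_zero_of_nonpos_weight _ (by omega) E hol hinv hbdd hzero

/-- Variant: invariance stated for elements of `Γ₀(N)` inside `SL(2, ℤ)`. -/
theorem eq_zero_of_neg_nat_weight_Gamma0' (N : ℕ) [NeZero N] (n : ℕ) (E : ℍ → ℂ) (hol : MDiff E)
    (hinv : ∀ γ : SL(2, ℤ), γ ∈ CongruenceSubgroup.Gamma0 N → E ∣[-(n : ℤ)] γ = E)
    (hbdd : ∀ s : SL(2, ℤ), IsBoundedAtImInfty (E ∣[-(n : ℤ)] s))
    (hzero : IsZeroAtImInfty E) : E = 0 := by
  refine eq_zero_of_neg_nat_weight_Gamma0 N n E hol ?_ hbdd hzero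
  rintro _ ⟨γ, hγ, rfl⟩
  exact hinv γ hγ

end Fermat.Agent.S22.H39

namespace Fermat.Agent.S22.H39

open UpperHalfPlane ModularForm Matrix.SpecialLinearGroup OnePoint
open scoped MatrixGroups Manifold

/-- Variant without decay at infinity: a holomorphic function on `ℍ`, slash-invariant of
nonpositive weight under an arithmetic subgroup and bounded at infinity after slashing with any
element of `SL(2, ℤ)`, is constant. -/
theorem exists_const_of_nonpos_weight (𝒢 : Subgroup (GL (Fin 2) ℝ)) [𝒢.IsArithmetic] {k : ℤ}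
    (hk : k ≤ 0) (E : ℍ → ℂ) (hol : MDiff E)
    (hinv : ∀ γ ∈ 𝒢, E ∣[k] γ = E)
    (hbdd : ∀ s : SL(2, ℤ), IsBoundedAtImInfty (E ∣[k] s)) : ∃ c : ℂ, E = Function.const ℍ c := by
  let f : ModularForm 𝒢 k :=
    { toFun := E
      slash_action_eq' := hinv
      holo' := hol
      bdd_at_cusps' := by
        intro c hc
        have hc' : IsCusp c 𝒮ℒ := (Subgroup.IsArithmetic.isCusp_iff_isCusp_SL2Z 𝒢).mp hc
        rw [isBoundedAt_iff_forall_SL2Z hc']
        intro γ _
        exact hbdd γ }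
  have hfE : (f : ℍ → ℂ) = E := rfl
  rcases hk.lt_or_eq with hk' | hk'
  · have : f = 0 := ModularForm.isZero_of_neg_weight hk' f
    refine ⟨0, ?_⟩
    rw [← hfE, this]
    rfl
  · subst hk'
    obtain ⟨c, hc⟩ := ModularForm.eq_const_of_weight_zero f
    exact ⟨c, hfE ▸ hc⟩

/-- `Γ₀(N)`-version of `exists_const_of_nonpos_weight`, invariance stated in `SL(2, ℤ)`. -/
theorem exists_const_of_nonpos_weight_Gamma0 (N : ℕ) [NeZero N] {k : ℤ} (hk : k ≤ 0)
    (E : ℍ → ℂ) (hol : MDiff E)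
    (hinv : ∀ γ : SL(2, ℤ), γ ∈ CongruenceSubgroup.Gamma0 N → E ∣[k] γ = E)
    (hbdd : ∀ s : SL(2, ℤ), IsBoundedAtImInfty (E ∣[k] s)) : ∃ c : ℂ, E = Function.const ℍ c := by
  refine exists_const_of_nonpos_weight
    (CongruenceSubgroup.Gamma0 N : Subgroup (GL (Fin 2) ℝ)) hk E hol ?_ hbdd
  rintro _ ⟨γ, hγ, rfl⟩
  exact hinv γ hγ

end Fermat.Agent.S22.H39
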