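import Mathlib
import Fermat.Prelude.Thm_Subgroup_IsArithmetic_exists_nat_mem_strictPeriods_conj

/-!
Translates `f ∣[k] s` (`s ∈ SL(2, ℤ)`) of a cusp form on `Γ₀(N)`: holomorphic, zero at `i∞`,
and periodic with a common period `M` (independent of `s`).
-/

set_option autoImplicit false

noncomputable section

namespace Fermat.Agent.S22.H50

open UpperHalfPlane CongruenceSubgroup ModularForm
open scoped MatrixGroups Manifold Pointwise

theorem slash_mdiff {Γ : Subgroup (GL (Fin 2) ℝ)} {k : ℤ} (f : CuspForm Γ k) (s : SL(2, ℤ)) :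
    MDiff ((f : ℍ → ℂ) ∣[k] s) := by
  rw [ModularForm.SL_slash]
  exact (CuspFormClass.holo f).slash k _

theorem slash_isZeroAtImInfty {Γ : Subgroup (GL (Fin 2) ℝ)} [Γ.IsArithmetic] {k : ℤ}
    (f : CuspForm Γ k) (s : SL(2, ℤ)) : IsZeroAtImInfty ((f : ℍ → ℂ) ∣[k] s) :=
  CuspFormClass.zero_at_infty_slash f s

/-- A common period for all `SL(2, ℤ)`-translates of forms on an arithmetic subgroup. -/
theorem exists_common_period (Γ : Subgroup (GL (Fin 2) ℝ)) [Γ.IsArithmetic] :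
    ∃ M : ℕ, 0 < M ∧ ∀ (k : ℤ) (f : CuspForm Γ k) (s : SL(2, ℤ)),
      Function.Periodic (((f : ℍ → ℂ) ∣[k] s) ∘ ofComplex) (M : ℝ) := by
  obtain ⟨M, hM, hper⟩ := Subgroup.IsArithmetic.exists_nat_mem_strictPeriods_conj Γ
  refine ⟨M, hM, fun k f s => ?_⟩
  have h1 := hper s⁻¹
  have h2 : (M : ℝ) ∈ (ConjAct.toConjAct (Matrix.SpecialLinearGroup.mapGL ℝ s)⁻¹ • Γ).strictPeriods := by
    simpa using h1
  have h3 := SlashInvariantFormClass.periodic_comp_ofComplex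
    (CuspForm.translate f (Matrix.SpecialLinearGroup.mapGL ℝ s)) h2
  have h4 : (⇑(CuspForm.translate f (Matrix.SpecialLinearGroup.mapGL ℝ s)) : ℍ → ℂ) =
      (f : ℍ → ℂ) ∣[k] s := by
    rw [ModularForm.SL_slash]
    rfl
  rwa [h4] at h3

/-- Specialisation to `Γ₀(N)`. -/
theorem exists_common_period_Gamma0 (N : ℕ) [NeZero N] :
    ∃ M : ℕ, 0 < M ∧ ∀ (k : ℤ) (f : CuspForm (CongruenceSubgroup.Gamma0 N) k) (s : SL(2, ℤ)),
      Function.Periodic (((f : ℍ → ℂ) ∣[k] s) ∘ ofComplex) (M : ℝ) :=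
  exists_common_period _

end Fermat.Agent.S22.H50
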