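import Mathlib
import Fermat.Prelude.Def_CuspForm_HeckeAlgebra
import Fermat.Prelude.Def_FLTPrelim_Modularity

/-!
Shared definitions for the S22 project (coordinator: helper50).

Design: Eichler integral `E f` (an `(n+1)`-fold primitive of the weight `n+2` cusp form `f`),
period polynomials `periodPoly f g` for `g ∈ Gamma0 N`, and the lattice `Lam` of their
coefficient functionals inside the dual of the space of cusp forms.
-/

set_option autoImplicit false

noncomputable section

namespace Fermat.Agent.S22

open UpperHalfPlane CongruenceSubgroup Polynomial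
open scoped MatrixGroups ModularForm Manifold Derivative

/-- Weight `-n` action of a `2 × 2` matrix `M = !![a, b; c, d]` on polynomials of degree `≤ n`:
`X ^ j ↦ (a X + b) ^ j * (c X + d) ^ (n - j)` for `j ≤ n` (coefficients above `n` are dropped). -/
def polyActFun {R : Type*} [CommRing R] (n : ℕ) (M : Matrix (Fin 2) (Fin 2) R)
    (P : Polynomial R) : Polynomial R :=
  ∑ j ∈ Finset.range (n + 1),
    C (P.coeff j) * (C (M 0 0) * X + C (M 0 1)) ^ j * (C (M 1 0) * X + C (M 1 1)) ^ (n - j)

/-- `polyActFun` as a linear map. -/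
def polyAct {R : Type*} [CommRing R] (n : ℕ) (M : Matrix (Fin 2) (Fin 2) R) :
    Polynomial R →ₗ[R] Polynomial R where
  toFun := polyActFun n M
  map_add' P Q := by
    simp only [polyActFun, coeff_add, C_add, add_mul, Finset.sum_add_distrib]
  map_smul' r P := by
    simp only [polyActFun, RingHom.id_apply, Finset.smul_sum]
    refine Finset.sum_congr rfl fun j _ => ?_
    rw [coeff_smul, smul_eq_mul, C_mul, Polynomial.smul_eq_C_mul]
    ring

theorem polyAct_apply {R : Type*} [CommRing R] (n : ℕ) (M : Matrix (Fin 2) (Fin 2) R)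
    (P : Polynomial R) :
    polyAct n M P = ∑ j ∈ Finset.range (n + 1),
      C (P.coeff j) * (C (M 0 0) * X + C (M 0 1)) ^ j * (C (M 1 0) * X + C (M 1 1)) ^ (n - j) :=
  rfl

/-- The integer matrix underlying an element of `SL(2, ℤ)`. -/
abbrev intMat (g : SL(2, ℤ)) : Matrix (Fin 2) (Fin 2) ℤ := g.1

/-- The complex matrix underlying an element of `SL(2, ℤ)`. -/
abbrev cMat (g : SL(2, ℤ)) : Matrix (Fin 2) (Fin 2) ℂ := (g.1).map (Int.castRingHom ℂ)

variable (N : ℕ) (n : ℕ)

/-- The space of cusp forms of weight `n + 2` on `Γ₀(N)`. -/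
abbrev VV : Type := CuspForm (CongruenceSubgroup.Gamma0 N) ((n : ℤ) + 2)

/-- Abstract interface for the Eichler integral: an `(n+1)`-fold primitive (for the normalised
derivative `D = (2πi)⁻¹ d/dz`) of weight `n + 2` cusp forms on `Γ₀(N)`, linear in the form,
holomorphic, `1`-periodic, vanishing at `i∞`, with the expected `q`-coefficients. -/
structure EichlerDatum where
  /-- the Eichler integral -/
  E : VV N n →ₗ[ℂ] (ℍ → ℂ)
  mdiff : ∀ f, MDiff (E f)
  iterD : ∀ f : VV N n, D^[n + 1] (E f) = (f : ℍ → ℂ)
  zeroAtInfty : ∀ f, IsZeroAtImInfty (E f)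
  periodic : ∀ f, Function.Periodic (E f ∘ ofComplex) 1
  qCoeff_E : ∀ (f : VV N n) (m : ℕ), ModularFormClass.qCoeff (E f) m =
    if m = 0 then 0 else ModularFormClass.qCoeff (f : ℍ → ℂ) m / (m : ℂ) ^ (n + 1)

variable {N n}

/-- `P` is a period polynomial of `f` at `g`: degree `≤ n` and `E f ∣[-n] g - E f = P` on `ℍ`. -/
def IsPeriodPoly (ED : EichlerDatum N n) (f : VV N n) (g : SL(2, ℤ)) (P : Polynomial ℂ) : Prop :=
  P.natDegree ≤ n ∧ ∀ z : ℍ, (ED.E f ∣[-(n : ℤ)] g) z - ED.E f z = P.eval (z : ℂ)

open Classical in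
/-- The period polynomial of `f` at `g` (meaningful for `g ∈ Γ₀(N)`; junk value `0` otherwise). -/
def periodPoly (ED : EichlerDatum N n) (f : VV N n) (g : SL(2, ℤ)) : Polynomial ℂ :=
  if h : ∃ P, IsPeriodPoly ED f g P then Classical.choose h else 0

/-- The set of linear functionals on cusp forms given by the coefficients of period polynomials. -/
def periodFunctionals (ED : EichlerDatum N n) : Set (Module.Dual ℂ (VV N n)) :=
  {φ | ∃ g ∈ CongruenceSubgroup.Gamma0 N, ∃ j ≤ n, ∀ f, φ f = (periodPoly ED f g).coeff j}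

/-- The period lattice: the `ℤ`-span of the coefficient functionals of period polynomials. -/
def Lam (ED : EichlerDatum N n) : Submodule ℤ (Module.Dual ℂ (VV N n)) :=
  Submodule.span ℤ (periodFunctionals ED)

end Fermat.Agent.S22
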