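import Mathlib
import Fermat.Prelude.Def_CuspForm_HeckeAlgebra

set_option autoImplicit false

noncomputable section

namespace Fermat.Agent.S22.H50

open CuspForm CongruenceSubgroup

variable {N : ℕ} [NeZero N] {k : ℤ} {S : Set ℕ}

local notation "VV" => CuspForm (CongruenceSubgroup.Gamma0 N) k

/-- The set of endomorphisms whose transpose preserves a given additive subgroup of the dual. -/
def stabSubalgebra (Lam : Submodule ℤ (Module.Dual ℂ VV)) :
    Subalgebra ℤ (Module.End ℂ VV) where
  carrier := {t | ∀ φ ∈ Lam, φ.comp t ∈ Lam}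
  mul_mem' := by
    intro a b ha hb φ hφ
    have := hb _ (ha φ hφ)
    simpa [Module.End.mul_eq_comp, LinearMap.comp_assoc] using this
  one_mem' := by
    intro φ hφ
    have : φ.comp (1 : Module.End ℂ VV) = φ := by
      ext v
      simp
    rw [this]
    exact hφ
  add_mem' := by
    intro a b ha hb φ hφ
    have := Lam.add_mem (ha φ hφ) (hb φ hφ)
    simpa [LinearMap.comp_add] using this
  zero_mem' := by
    intro φ _
    simp
  algebraMap_mem' := by
    intro r φ hφ
    have : φ.comp ((algebraMap ℤ (Module.End ℂ VV)) r) = r • φ := by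
      ext v
      simp
    rw [this]
    exact Lam.smul_mem r hφ

theorem heckeAlgebra_le_stabSubalgebra (Lam : Submodule ℤ (Module.Dual ℂ VV))
    (hstab : ∀ t ∈ heckeGenerators N k S, ∀ φ ∈ Lam, φ.comp t ∈ Lam) :
    heckeAlgebra N k S ≤ stabSubalgebra Lam :=
  Algebra.adjoin_le fun t ht => hstab t ht

/-- Transpose action of the Hecke algebra on a stable lattice of the dual. -/
def transposeMap (Lam : Submodule ℤ (Module.Dual ℂ VV))
    (hstab : ∀ t ∈ heckeGenerators N k S, ∀ φ ∈ Lam, φ.comp t ∈ Lam) :
    heckeAlgebra N k S →ₗ[ℤ] (Lam →ₗ[ℤ] Lam) where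
  toFun t :=
    { toFun := fun φ => ⟨(φ : Module.Dual ℂ VV).comp (t : Module.End ℂ VV),
        heckeAlgebra_le_stabSubalgebra Lam hstab t.2 φ φ.2⟩
      map_add' := by
        intro φ ψ
        ext v
        simp
      map_smul' := by
        intro r φ
        ext v
        simp }
  map_add' := by
    intro a b
    ext φ v
    simp
  map_smul' := by
    intro r a
    ext φ v
    simp

theorem transposeMap_injective (Lam : Submodule ℤ (Module.Dual ℂ VV))
    (hstab : ∀ t ∈ heckeGenerators N k S, ∀ φ ∈ Lam, φ.comp t ∈ Lam)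
    (hsep : ∀ f : VV, (∀ φ ∈ Lam, φ f = 0) → f = 0) :
    Function.Injective (transposeMap (S := S) Lam hstab) := by
  rw [← LinearMap.ker_eq_bot, LinearMap.ker_eq_bot']
  intro t ht
  apply Subtype.ext
  apply LinearMap.ext
  intro f
  apply hsep
  intro φ hφ
  have := congrArg (fun L : Lam →ₗ[ℤ] Lam => ((L ⟨φ, hφ⟩ : Lam) : Module.Dual ℂ VV) f) ht
  simpa [transposeMap] using this

/-- **Reduction lemma.** A finitely generated, separating, Hecke-stable lattice in the dual of the
space of cusp forms forces the Hecke algebra to be a finite `ℤ`-module. -/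
theorem moduleFinite_heckeAlgebra_of_lattice (Lam : Submodule ℤ (Module.Dual ℂ VV))
    (hfg : Lam.FG)
    (hsep : ∀ f : VV, (∀ φ ∈ Lam, φ f = 0) → f = 0)
    (hstab : ∀ t ∈ heckeGenerators N k S, ∀ φ ∈ Lam, φ.comp t ∈ Lam) :
    Module.Finite ℤ (heckeAlgebra N k S) := by
  have : Module.Finite ℤ Lam := Module.Finite.iff_fg.mpr hfg
  have : IsNoetherian ℤ (Lam →ₗ[ℤ] Lam) := by
    have : Module.Free ℤ Lam := Module.free_of_finite_type_torsion_free'
    infer_instance
  exact Module.Finite.of_injective (transposeMap (S := S) Lam hstab)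
    (transposeMap_injective Lam hstab hsep)

end Fermat.Agent.S22.H50
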