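import Mathlib
import Fermat.Prelude.Def_CuspForm_HeckeAlgebra
import Fermat.Prelude.Thm_ModularForm_sturm_bound_Gamma0
import Fermat.Prelude.Thm_CongruenceSubgroup_one_mem_strictPeriods_Gamma0

set_option autoImplicit false

noncomputable section

namespace Fermat.Agent.S22.H50

open CuspForm CongruenceSubgroup UpperHalfPlane

/-- View a cusp form as a modular form. -/
def toModularForm {N : ℕ} {k : ℤ} (f : CuspForm (CongruenceSubgroup.Gamma0 N) k) :
    ModularForm (CongruenceSubgroup.Gamma0 N) k :=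
  { toSlashInvariantForm := f.toSlashInvariantForm
    holo' := f.holo'
    bdd_at_cusps' := fun hc γ hγ => (f.zero_at_cusps' hc γ hγ).isBoundedAtImInfty }

theorem toModularForm_apply {N : ℕ} {k : ℤ} (f : CuspForm (CongruenceSubgroup.Gamma0 N) k)
    (z : ℍ) : toModularForm f z = f z := rfl

theorem cuspForm_eq_zero_of_nonpos (N : ℕ) [NeZero N] {k : ℤ} (hk : k ≤ 0)
    (f : CuspForm (CongruenceSubgroup.Gamma0 N) k) : f = 0 := by
  have hper := CongruenceSubgroup.one_mem_strictPeriods_Gamma0 N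
  have hF : toModularForm f = 0 := by
    apply ModularForm.sturm_bound_Gamma0 N (toModularForm f)
    intro n hn
    have hn0 : n = 0 := by
      have h1 : k * ((CongruenceSubgroup.Gamma0 N).index : ℤ) ≤ 0 :=
        mul_nonpos_of_nonpos_of_nonneg hk (by positivity)
      have : (k * ((CongruenceSubgroup.Gamma0 N).index : ℤ)).toNat = 0 := by
        omega
      rw [this] at hn
      simpa using hn
    subst hn0
    exact CuspFormClass.qExpansion_coeff_zero (f := f) one_pos hper
  ext z
  exact DFunLike.congr_fun hF z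

theorem neg_one_mem_Gamma0 (N : ℕ) :
    (-1 : GL (Fin 2) ℝ) ∈
      ((CongruenceSubgroup.Gamma0 N).map (Matrix.SpecialLinearGroup.mapGL ℝ)) := by
  refine ⟨-1, ?_, ?_⟩
  · rw [SetLike.mem_coe, CongruenceSubgroup.Gamma0_mem]
    simp
  · ext i j
    simp

theorem cuspForm_eq_zero_of_odd (N : ℕ) {k : ℤ} (hk : Odd k)
    (f : CuspForm (CongruenceSubgroup.Gamma0 N) k) : f = 0 := by
  have hF : toModularForm f = 0 :=
    ModularForm.eq_zero_of_neg_one_mem (neg_one_mem_Gamma0 N) hk (toModularForm f)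
  ext z
  exact DFunLike.congr_fun hF z

theorem moduleFinite_heckeAlgebra_of_forall_eq_zero {N : ℕ} [NeZero N] {k : ℤ} (S : Set ℕ)
    (h : ∀ f : CuspForm (CongruenceSubgroup.Gamma0 N) k, f = 0) :
    Module.Finite ℤ (CuspForm.heckeAlgebra N k S) := by
  have : Subsingleton (CuspForm (CongruenceSubgroup.Gamma0 N) k) :=
    ⟨fun a b => by rw [h a, h b]⟩
  have : Subsingleton (Module.End ℂ (CuspForm (CongruenceSubgroup.Gamma0 N) k)) :=
    ⟨fun a b => LinearMap.ext fun v => Subsingleton.elim _ _⟩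
  have : Subsingleton (CuspForm.heckeAlgebra N k S) :=
    ⟨fun a b => Subtype.ext (Subsingleton.elim _ _)⟩
  exact Module.Finite.of_finite

theorem moduleFinite_heckeAlgebra_of_nonpos (N : ℕ) [NeZero N] {k : ℤ} (hk : k ≤ 0) (S : Set ℕ) :
    Module.Finite ℤ (CuspForm.heckeAlgebra N k S) :=
  moduleFinite_heckeAlgebra_of_forall_eq_zero S (cuspForm_eq_zero_of_nonpos N hk)

theorem moduleFinite_heckeAlgebra_of_odd (N : ℕ) [NeZero N] {k : ℤ} (hk : Odd k) (S : Set ℕ) :
    Module.Finite ℤ (CuspForm.heckeAlgebra N k S) :=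
  moduleFinite_heckeAlgebra_of_forall_eq_zero S (cuspForm_eq_zero_of_odd N hk)

end Fermat.Agent.S22.H50
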