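import Mathlib

set_option autoImplicit false

namespace Fermat.Agent.S22.H59

open Module

/-- Stability of a `ℤ`-lattice of functionals under the generators passes to the adjoined algebra. -/
theorem comp_mem_of_mem_adjoin {V : Type*} [AddCommGroup V] [Module ℂ V]
    (G : Set (Module.End ℂ V)) (M : Submodule ℤ (Module.Dual ℂ V))
    (hstab : ∀ g ∈ G, ∀ m ∈ M, m.comp g ∈ M)
    {t : Module.End ℂ V} (ht : t ∈ Algebra.adjoin ℤ G) :
    ∀ m ∈ M, m.comp t ∈ M := by
  induction ht using Algebra.adjoin_induction with
  | mem g hg => exact hstab g hg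
  | algebraMap r =>
    intro m hm
    have : m.comp (algebraMap ℤ (Module.End ℂ V) r) = r • m := by
      ext v
      simp
    rw [this]
    exact M.smul_mem r hm
  | add x y _ _ hx hy =>
    intro m hm
    have : m.comp (x + y) = m.comp x + m.comp y := by
      ext v; simp
    rw [this]
    exact M.add_mem (hx m hm) (hy m hm)
  | mul x y _ _ hx hy =>
    intro m hm
    have : m.comp (x * y) = (m.comp x).comp y := by
      ext v; simp [Module.End.mul_apply]
    rw [this]
    exact hy _ (hx m hm)

theorem finite_adjoin_of_dual_lattice {V : Type*} [AddCommGroup V] [Module ℂ V]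
    (G : Set (Module.End ℂ V)) (M : Submodule ℤ (Module.Dual ℂ V))
    (hfg : M.FG) (hsep : ∀ v : V, (∀ m ∈ M, m v = 0) → v = 0)
    (hstab : ∀ g ∈ G, ∀ m ∈ M, m.comp g ∈ M) :
    Module.Finite ℤ (Algebra.adjoin ℤ G) := by
  have : Module.Finite ℤ M := Module.Finite.iff_fg.mpr hfg
  -- the transpose map
  let Φ : (Algebra.adjoin ℤ G) →ₗ[ℤ] (M →ₗ[ℤ] M) :=
    { toFun := fun t =>
        { toFun := fun m => ⟨(m : Module.Dual ℂ V).comp (t : Module.End ℂ V),
            comp_mem_of_mem_adjoin G M hstab t.2 m m.2⟩
          map_add' := fun m m' => by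
            apply Subtype.ext
            ext v
            simp
          map_smul' := fun r m => by
            apply Subtype.ext
            ext v
            simp }
      map_add' := fun t t' => by
        apply LinearMap.ext; intro m
        apply Subtype.ext
        ext v
        simp
      map_smul' := fun r t => by
        apply LinearMap.ext; intro m
        apply Subtype.ext
        ext v
        simp }
  have hinj : Function.Injective Φ := by
    rw [← LinearMap.ker_eq_bot, LinearMap.ker_eq_bot']
    intro t ht
    apply Subtype.ext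
    apply LinearMap.ext
    intro v
    apply hsep
    intro m hm
    have h1 := congrArg (fun φ : M →ₗ[ℤ] M => ((φ ⟨m, hm⟩ : M) : Module.Dual ℂ V) v) ht
    simpa [Φ] using h1
  exact Module.Finite.of_injective Φ hinj

end Fermat.Agent.S22.H59
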