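import Fermat.Agent.S22.SecC
import Fermat.Prelude.Thm_UpperHalfPlane_qCoeff_heckeT
import Fermat.Prelude.Thm_UpperHalfPlane_qCoeff_heckeU
import Fermat.Prelude.Thm_UpperHalfPlane_eq_of_forall_qCoeff_eq
import Fermat.Prelude.Thm_ModularForm_periodic_heckeT_comp_ofComplex
import Fermat.Prelude.Thm_ModularForm_periodic_heckeU_comp_ofComplex
import Fermat.Prelude.Thm_ModularForm_mdifferentiable_heckeT
import Fermat.Prelude.Thm_ModularForm_mdifferentiable_heckeU
import Fermat.Prelude.Thm_ModularForm_isBoundedAtImInfty_heckeT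
import Fermat.Prelude.Thm_ModularForm_isBoundedAtImInfty_heckeU

set_option autoImplicit false

open UpperHalfPlane ModularForm CongruenceSubgroup
open scoped MatrixGroups Manifold

noncomputable section

namespace Fermat.Agent.S22.H59

open Fermat.Agent.S22 ModularFormClass

/-- `qCoeff` of a scalar multiple, for periodic holomorphic bounded functions. -/
theorem qCoeff_smul_of_periodic {F : ℍ → ℂ} (hper : Function.Periodic (F ∘ ofComplex) 1)
    (hhol : MDiff F) (hbdd : IsBoundedAtImInfty F) (c : ℂ) (m : ℕ) :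
    qCoeff (c • F) m = c * qCoeff F m := by
  have han : AnalyticAt ℂ (cuspFunction 1 F) 0 :=
    (differentiableOn_cuspFunction_ball one_pos hper hhol hbdd).analyticAt
      (Metric.ball_mem_nhds 0 one_pos)
  unfold qCoeff
  rw [qExpansion_smul han c]
  simp

/-- A bounded periodic holomorphic function with vanishing constant `q`-coefficient is zero at
`i∞`. -/
theorem isZeroAtImInfty_of_qCoeff_zero {F : ℍ → ℂ} (hper : Function.Periodic (F ∘ ofComplex) 1)
    (hhol : MDiff F) (hbdd : IsBoundedAtImInfty F) (h0 : qCoeff F 0 = 0) :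
    IsZeroAtImInfty F := by
  have han : AnalyticAt ℂ (cuspFunction 1 F) 0 :=
    (differentiableOn_cuspFunction_ball one_pos hper hhol hbdd).analyticAt
      (Metric.ball_mem_nhds 0 one_pos)
  have hval : cuspFunction 1 F 0 = 0 := by
    have := qExpansion_coeff_zero one_pos han hper
    unfold qCoeff at h0
    rw [h0] at this
    have h2 := cuspFunction_apply_zero one_pos han hper
    rw [h2, ← this]
  have hcont : ContinuousAt (cuspFunction 1 F) 0 := han.continuousAt
  have htend : Filter.Tendsto (fun τ : ℍ => cuspFunction 1 F (Function.Periodic.qParam 1 τ))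
      atImInfty (nhds 0) := by
    have := hcont.tendsto.comp (qParam_tendsto_atImInfty one_pos)
    rwa [hval] at this
  refine htend.congr fun τ => ?_
  exact eq_cuspFunction τ one_ne_zero hper

end Fermat.Agent.S22.H59

namespace Fermat.Agent.S22.H59

open Fermat.Agent.S22 ModularFormClass

theorem qCoeff_zero_of_isZeroAtImInfty {F : ℍ → ℂ} (hper : Function.Periodic (F ∘ ofComplex) 1)
    (hhol : MDiff F) (hzero : IsZeroAtImInfty F) : qCoeff F 0 = 0 := by
  have hbdd : IsBoundedAtImInfty F := hzero.boundedAtFilter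
  have han : AnalyticAt ℂ (cuspFunction 1 F) 0 :=
    (differentiableOn_cuspFunction_ball one_pos hper hhol hbdd).analyticAt
      (Metric.ball_mem_nhds 0 one_pos)
  unfold qCoeff
  rw [qExpansion_coeff_zero one_pos han hper, hzero.valueAtInfty_eq_zero]

/-- The arithmetic identity behind `eichler_heckeT`. -/
theorem coeff_identity_T (n : ℕ) (hn : 1 ≤ n) (p : ℕ) (hp : p ≠ 0) (a : ℕ → ℂ) (m : ℕ) :
    coeffHeckeT ((n : ℤ) + 1) p a m * (((1 : ℝ) : ℂ) / (m : ℂ)) ^ n =
      (p : ℂ) ^ n * coeffHeckeT ((1 : ℤ) - n) p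
        (fun j => a j * (((1 : ℝ) : ℂ) / (j : ℂ)) ^ n) m := by
  have hpc : (p : ℂ) ≠ 0 := by exact_mod_cast hp
  rcases Nat.eq_zero_or_pos m with rfl | hm
  · have h0 : (((1 : ℝ) : ℂ) / ((0 : ℕ) : ℂ)) ^ n = 0 := by
      simp only [Nat.cast_zero, div_zero]
      exact zero_pow (by omega)
    simp only [coeffHeckeT, zero_mul, Nat.zero_div, dvd_zero, if_true, h0, mul_zero, add_zero]
  · have hmc : (m : ℂ) ≠ 0 := by exact_mod_cast hm.ne'
    simp only [coeffHeckeT, Complex.ofReal_one, Nat.cast_mul]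
    have e1 : ((n : ℤ) + 1 - 1) = (n : ℤ) := by ring
    have e2 : ((1 : ℤ) - n - 1) = -(n : ℤ) := by ring
    rw [e1, e2, zpow_natCast, zpow_neg, zpow_natCast]
    by_cases hpm : p ∣ m
    · obtain ⟨r, rfl⟩ := hpm
      have hr : 0 < r := by
        rcases Nat.eq_zero_or_pos r with rfl | hr
        · simp at hm
        · exact hr
      have hrc : (r : ℂ) ≠ 0 := by exact_mod_cast hr.ne'
      rw [if_pos (dvd_mul_right p r), if_pos (dvd_mul_right p r),
        Nat.mul_div_cancel_left r (Nat.pos_of_ne_zero hp)]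
      push_cast
      simp only [one_div, mul_inv, mul_pow, inv_pow]
      field_simp
    · rw [if_neg hpm, if_neg hpm, add_zero, add_zero, one_div, one_div, mul_inv, mul_pow,
        inv_pow, inv_pow]
      field_simp

end Fermat.Agent.S22.H59

namespace Fermat.Agent.S22.H59

open Fermat.Agent.S22 ModularFormClass

/-- The arithmetic identity behind `eichler_heckeU`. -/
theorem coeff_identity_U (n : ℕ) (hn : 1 ≤ n) (p : ℕ) (hp : p ≠ 0) (a : ℕ → ℂ) (m : ℕ) :
    coeffHeckeU p a m * (((1 : ℝ) : ℂ) / (m : ℂ)) ^ n =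
      (p : ℂ) ^ n * coeffHeckeU p (fun j => a j * (((1 : ℝ) : ℂ) / (j : ℂ)) ^ n) m := by
  have hpc : (p : ℂ) ≠ 0 := by exact_mod_cast hp
  rcases Nat.eq_zero_or_pos m with rfl | hm
  · have h0 : (((1 : ℝ) : ℂ) / ((0 : ℕ) : ℂ)) ^ n = 0 := by
      simp only [Nat.cast_zero, div_zero]
      exact zero_pow (by omega)
    simp only [coeffHeckeU, zero_mul, h0, mul_zero]
  · have hmc : (m : ℂ) ≠ 0 := by exact_mod_cast hm.ne'
    simp only [coeffHeckeU, Complex.ofReal_one, Nat.cast_mul, one_div, mul_inv, mul_pow, inv_pow]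
    field_simp

variable (n : ℕ)

/-- Hecke compatibility of the Eichler integral (general `F`; the Skeleton statement `eichler_heckeT` is the case `F = ⇑f`). -/
theorem eichler_heckeT_of (hn : 1 ≤ n) {f : ℍ → ℂ}
    (hfper : Function.Periodic (f ∘ ofComplex) 1) (hfhol : MDiff f)
    (hfzero : IsZeroAtImInfty f) {p : ℕ} (hp : p ≠ 0) :
    eichler 1 n (heckeT ((n : ℤ) + 1) p f) =
      ((p : ℂ) ^ n) • heckeT ((1 : ℤ) - n) p (eichler 1 n f) := by
  have hfbdd : IsBoundedAtImInfty f := hfzero.boundedAtFilter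
  have hgper := ModularForm.periodic_heckeT_comp_ofComplex hfper ((n : ℤ) + 1) p
  have hghol := ModularForm.mdifferentiable_heckeT hfhol ((n : ℤ) + 1) p
  have hgbdd := ModularForm.isBoundedAtImInfty_heckeT hfbdd ((n : ℤ) + 1) p
  have hgq : ∀ m, qCoeff (heckeT ((n : ℤ) + 1) p f) m =
      coeffHeckeT ((n : ℤ) + 1) p (qCoeff f) m :=
    fun m => UpperHalfPlane.qCoeff_heckeT hfper hfhol hfbdd _ hp m
  have hf0 : qCoeff f 0 = 0 := qCoeff_zero_of_isZeroAtImInfty hfper hfhol hfzero
  have hg0 : qCoeff (heckeT ((n : ℤ) + 1) p f) 0 = 0 := by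
    rw [hgq]
    simp [coeffHeckeT, hf0]
  have hgzero := isZeroAtImInfty_of_qCoeff_zero hgper hghol hgbdd hg0
  have hEper := eichler_periodic one_pos n hfper hfhol hfzero
  have hEhol := eichler_mdiff one_pos n hfper hfhol hfzero
  have hEbdd := eichler_bdd one_pos n hfper hfhol hfzero
  have hTEper := ModularForm.periodic_heckeT_comp_ofComplex hEper ((1 : ℤ) - n) p
  have hTEhol := ModularForm.mdifferentiable_heckeT hEhol ((1 : ℤ) - n) p
  have hTEbdd := ModularForm.isBoundedAtImInfty_heckeT hEbdd ((1 : ℤ) - n) p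
  refine UpperHalfPlane.eq_of_forall_qCoeff_eq
    (eichler_periodic one_pos n hgper hghol hgzero) (eichler_mdiff one_pos n hgper hghol hgzero)
    (eichler_bdd one_pos n hgper hghol hgzero) ?_ ?_ ?_ ?_
  · intro x
    simp only [Function.comp_apply, Pi.smul_apply]
    have := hTEper x
    simp only [Function.comp_apply] at this
    rw [this]
  · exact hTEhol.const_smul _
  · exact hTEbdd.const_smul_left _
  · intro m
    rw [qCoeff_smul_of_periodic hTEper hTEhol hTEbdd,
      UpperHalfPlane.qCoeff_heckeT hEper hEhol hEbdd _ hp]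
    have hE : qCoeff (eichler 1 n f) = fun j => qCoeff f j * (((1 : ℝ) : ℂ) / (j : ℂ)) ^ n := by
      funext j
      exact qExpansion_eichler one_pos n hfper hfhol hfzero j
    rw [hE, ← coeff_identity_T n hn p hp]
    unfold qCoeff
    rw [qExpansion_eichler one_pos n hgper hghol hgzero m]
    congr 1
    exact hgq m

/-- Hecke compatibility of the Eichler integral (general `F`; the Skeleton statement `eichler_heckeU` is the case `F = ⇑f`). -/
theorem eichler_heckeU_of (hn : 1 ≤ n) {f : ℍ → ℂ}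
    (hfper : Function.Periodic (f ∘ ofComplex) 1) (hfhol : MDiff f)
    (hfzero : IsZeroAtImInfty f) {p : ℕ} (hp : p ≠ 0) :
    eichler 1 n (heckeU ((n : ℤ) + 1) p f) =
      ((p : ℂ) ^ n) • heckeU ((1 : ℤ) - n) p (eichler 1 n f) := by
  have hfbdd : IsBoundedAtImInfty f := hfzero.boundedAtFilter
  have hgper := ModularForm.periodic_heckeU_comp_ofComplex hfper ((n : ℤ) + 1) p
  have hghol := ModularForm.mdifferentiable_heckeU hfhol ((n : ℤ) + 1) p
  have hgbdd := ModularForm.isBoundedAtImInfty_heckeU hfbdd ((n : ℤ) + 1) p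
  have hgq : ∀ m, qCoeff (heckeU ((n : ℤ) + 1) p f) m =
      coeffHeckeU p (qCoeff f) m :=
    fun m => UpperHalfPlane.qCoeff_heckeU hfper hfhol hfbdd _ hp m
  have hf0 : qCoeff f 0 = 0 := qCoeff_zero_of_isZeroAtImInfty hfper hfhol hfzero
  have hg0 : qCoeff (heckeU ((n : ℤ) + 1) p f) 0 = 0 := by
    rw [hgq]
    simp [coeffHeckeU, hf0]
  have hgzero := isZeroAtImInfty_of_qCoeff_zero hgper hghol hgbdd hg0
  have hEper := eichler_periodic one_pos n hfper hfhol hfzero
  have hEhol := eichler_mdiff one_pos n hfper hfhol hfzero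
  have hEbdd := eichler_bdd one_pos n hfper hfhol hfzero
  have hTEper := ModularForm.periodic_heckeU_comp_ofComplex hEper ((1 : ℤ) - n) p
  have hTEhol := ModularForm.mdifferentiable_heckeU hEhol ((1 : ℤ) - n) p
  have hTEbdd := ModularForm.isBoundedAtImInfty_heckeU hEbdd ((1 : ℤ) - n) p
  refine UpperHalfPlane.eq_of_forall_qCoeff_eq
    (eichler_periodic one_pos n hgper hghol hgzero) (eichler_mdiff one_pos n hgper hghol hgzero)
    (eichler_bdd one_pos n hgper hghol hgzero) ?_ ?_ ?_ ?_
  · intro x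
    simp only [Function.comp_apply, Pi.smul_apply]
    have := hTEper x
    simp only [Function.comp_apply] at this
    rw [this]
  · exact hTEhol.const_smul _
  · exact hTEbdd.const_smul_left _
  · intro m
    rw [qCoeff_smul_of_periodic hTEper hTEhol hTEbdd,
      UpperHalfPlane.qCoeff_heckeU hEper hEhol hEbdd _ hp]
    have hE : qCoeff (eichler 1 n f) = fun j => qCoeff f j * (((1 : ℝ) : ℂ) / (j : ℂ)) ^ n := by
      funext j
      exact qExpansion_eichler one_pos n hfper hfhol hfzero j
    rw [hE, ← coeff_identity_U n hn p hp]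
    unfold qCoeff
    rw [qExpansion_eichler one_pos n hgper hghol hgzero m]
    congr 1
    exact hgq m

end Fermat.Agent.S22.H59
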