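import Mathlib
import Fermat.Prelude.Thm_ModularForm_heckeT_slash_eq_self_of_mem_Gamma0

set_option autoImplicit false

namespace Fermat.Agent.S22.H59

open Matrix.SpecialLinearGroup UpperHalfPlane ModularForm
open scoped MatrixGroups ModularForm
open P2MW.S_ModularForm_heckeT_slash_eq_self_of_mem_Gamma0.ModularForm.HeckeSlashInvariance

/-- Coset data for `T_p` (`p ∤ N`) and `g ∈ Γ₀(N)`, uniform in the quasi-invariant function:
if `F ∣[w] g = F + P g` on `Γ₀(N)` then `heckeT w p F` is quasi-invariant with an explicit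
error term. -/
theorem exists_heckeT_cosetData {N : ℕ} {p : ℕ} [Fact p.Prime] (hpN : ¬ p ∣ N)
    (g : SL(2, ℤ)) (hg : g ∈ CongruenceSubgroup.Gamma0 N) :
    ∃ g' : OnePoint (ZMod p) → SL(2, ℤ), (∀ x, g' x ∈ CongruenceSubgroup.Gamma0 N) ∧
      ∀ (w : ℤ) (F : ℍ → ℂ) (P : SL(2, ℤ) → ℍ → ℂ),
        (∀ γ : SL(2, ℤ), γ ∈ CongruenceSubgroup.Gamma0 N → F ∣[w] (mapGL ℝ γ) = F + P γ) →
        (heckeT w p F) ∣[w] (mapGL ℝ g) =
          heckeT w p F +
            ∑ x : OnePoint (ZMod p), (P (g' x)) ∣[w] heckeRep p (redMatrix p g • x) := by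
  have hcN : (N : ℤ) ∣ g 1 0 :=
    (ZMod.intCast_zmod_eq_zero_iff_dvd _ _).mp (CongruenceSubgroup.Gamma0_mem.mp hg)
  choose g' hg'N hmul using fun x => heckeRep_mul hpN g hcN x
  have hmem : ∀ x, g' x ∈ CongruenceSubgroup.Gamma0 N := fun x =>
    CongruenceSubgroup.Gamma0_mem.mpr ((ZMod.intCast_zmod_eq_zero_iff_dvd _ _).mpr (hg'N x))
  refine ⟨g', hmem, fun w F P hF => ?_⟩
  rw [heckeT_eq_sum_onePoint w F, SlashAction.sum_slash]
  have h1 : ∀ x : OnePoint (ZMod p), (F ∣[w] heckeRep p x) ∣[w] mapGL ℝ g =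
      F ∣[w] heckeRep p (redMatrix p g • x) + (P (g' x)) ∣[w] heckeRep p (redMatrix p g • x) := by
    intro x
    rw [← SlashAction.slash_mul, hmul x, SlashAction.slash_mul, hF _ (hmem x),
      SlashAction.add_slash]
  rw [Finset.sum_congr rfl (fun x _ => h1 x), Finset.sum_add_distrib]
  congr 1
  exact Equiv.sum_comp (MulAction.toPerm (redMatrix p g)) (fun x ↦ F ∣[w] heckeRep p x)

/-- Coset data for `U_q` (`q ∣ N`) and `g ∈ Γ₀(N)`, uniform in the quasi-invariant function. -/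
theorem exists_heckeU_cosetData {N : ℕ} {q : ℕ} [NeZero q] (hqN : q ∣ N)
    (g : SL(2, ℤ)) (hg : g ∈ CongruenceSubgroup.Gamma0 N) :
    ∃ (g' : ZMod q → SL(2, ℤ)) (σ : Equiv.Perm (ZMod q)),
      (∀ x, g' x ∈ CongruenceSubgroup.Gamma0 N) ∧
      ∀ (w : ℤ) (F : ℍ → ℂ) (P : SL(2, ℤ) → ℍ → ℂ),
        (∀ γ : SL(2, ℤ), γ ∈ CongruenceSubgroup.Gamma0 N → F ∣[w] (mapGL ℝ γ) = F + P γ) →
        (heckeU w q F) ∣[w] (mapGL ℝ g) =
          heckeU w q F + ∑ x : ZMod q, (P (g' x)) ∣[w] heckeMatrix q (σ x).val := by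
  have hcN : (N : ℤ) ∣ g 1 0 :=
    (ZMod.intCast_zmod_eq_zero_iff_dvd _ _).mp (CongruenceSubgroup.Gamma0_mem.mp hg)
  have hc : (q : ℤ) ∣ g 1 0 := (Int.natCast_dvd_natCast.mpr hqN).trans hcN
  have hc0 : ((g 1 0 : ℤ) : ZMod q) = 0 := (ZMod.intCast_zmod_eq_zero_iff_dvd _ _).mpr hc
  choose g' hg'c hmul using fun x => heckeMatrix_mul_of_dvd g hc x
  have hmem : ∀ x, g' x ∈ CongruenceSubgroup.Gamma0 N := fun x => by
    rw [CongruenceSubgroup.Gamma0_mem, hg'c x]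
    push_cast
    rw [CongruenceSubgroup.Gamma0_mem.mp hg, mul_zero]
  refine ⟨g', affinePerm g hc0, hmem, fun w F P hF => ?_⟩
  rw [heckeU_eq_sum_zmod w F, SlashAction.sum_slash]
  have h1 : ∀ x : ZMod q, (F ∣[w] heckeMatrix q x.val) ∣[w] mapGL ℝ g =
      F ∣[w] heckeMatrix q (affinePerm g hc0 x).val +
        (P (g' x)) ∣[w] heckeMatrix q (affinePerm g hc0 x).val := by
    intro x
    rw [← SlashAction.slash_mul, hmul x, SlashAction.slash_mul, hF _ (hmem x),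
      SlashAction.add_slash]
  rw [Finset.sum_congr rfl (fun x _ => h1 x), Finset.sum_add_distrib]
  congr 1
  exact Equiv.sum_comp (affinePerm g hc0) (fun x ↦ F ∣[w] heckeMatrix q x.val)

end Fermat.Agent.S22.H59
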