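import Fermat.Agent.S22.H50_Defs
import Fermat.Prelude.Def_ModularForm_HeckeOperator

set_option autoImplicit false

noncomputable section

namespace Fermat.Agent.S22.H82

open UpperHalfPlane CongruenceSubgroup Polynomial
open scoped MatrixGroups ModularForm Manifold

section general

variable {R : Type*} [CommRing R]

/-- (b) The result of `polyAct n M` always has degree at most `n`. -/
theorem natDegree_polyAct_le (n : ℕ) (M : Matrix (Fin 2) (Fin 2) R) (P : Polynomial R) :
    (polyAct n M P).natDegree ≤ n := by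
  rw [polyAct_apply]
  refine natDegree_sum_le_of_forall_le _ _ fun j hj => ?_
  have hj' : j ≤ n := Nat.lt_succ_iff.mp (Finset.mem_range.mp hj)
  calc (C (P.coeff j) * (C (M 0 0) * X + C (M 0 1)) ^ j *
          (C (M 1 0) * X + C (M 1 1)) ^ (n - j)).natDegree
      ≤ (C (P.coeff j) * (C (M 0 0) * X + C (M 0 1)) ^ j).natDegree +
          ((C (M 1 0) * X + C (M 1 1)) ^ (n - j)).natDegree := natDegree_mul_le
    _ ≤ ((C (P.coeff j)).natDegree + ((C (M 0 0) * X + C (M 0 1)) ^ j).natDegree) +
          ((C (M 1 0) * X + C (M 1 1)) ^ (n - j)).natDegree :=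
        Nat.add_le_add_right natDegree_mul_le _
    _ ≤ (0 + j * 1) + (n - j) * 1 := by
        refine Nat.add_le_add (Nat.add_le_add (by simp) ?_) ?_
        · exact natDegree_pow_le.trans (Nat.mul_le_mul_left _ (natDegree_linear_le))
        · exact natDegree_pow_le.trans (Nat.mul_le_mul_left _ (natDegree_linear_le))
    _ = n := by omega

/-- (c) `polyAct` commutes with ring homomorphisms. -/
theorem polyAct_map {S : Type*} [CommRing S] (φ : R →+* S) (n : ℕ) (M : Matrix (Fin 2) (Fin 2) R)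
    (P : Polynomial R) :
    (polyAct n M P).map φ = polyAct n (M.map φ) (P.map φ) := by
  simp only [polyAct_apply, Polynomial.map_sum, Polynomial.map_mul, Polynomial.map_pow,
    Polynomial.map_add, Polynomial.map_C, Polynomial.map_X, coeff_map, Matrix.map_apply]

/-- Evaluation of `polyAct`. -/
theorem eval_polyAct (n : ℕ) (M : Matrix (Fin 2) (Fin 2) R) (P : Polynomial R) (z : R) :
    (polyAct n M P).eval z = ∑ j ∈ Finset.range (n + 1),
      P.coeff j * (M 0 0 * z + M 0 1) ^ j * (M 1 0 * z + M 1 1) ^ (n - j) := by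
  simp only [polyAct_apply, eval_finsetSum, eval_mul, eval_pow, eval_add, eval_C, eval_X]

/-- `polyAct` on a monomial `X ^ j` with `j ≤ n`. -/
theorem polyAct_X_pow (n : ℕ) (M : Matrix (Fin 2) (Fin 2) R) {j : ℕ} (hj : j ≤ n) :
    polyAct n M (X ^ j) = (C (M 0 0) * X + C (M 0 1)) ^ j * (C (M 1 0) * X + C (M 1 1)) ^ (n - j) := by
  rw [polyAct_apply, Finset.sum_eq_single j]
  · simp
  · intro i _ hij
    rw [coeff_X_pow, if_neg hij]
    simp
  · intro hjn
    exact absurd (Finset.mem_range.mpr (Nat.lt_succ_of_le hj)) hjn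

/-- `polyAct` on a monomial `X ^ j` with `n < j` vanishes. -/
theorem polyAct_X_pow_of_lt (n : ℕ) (M : Matrix (Fin 2) (Fin 2) R) {j : ℕ} (hj : n < j) :
    polyAct n M (X ^ j) = 0 := by
  rw [polyAct_apply]
  refine Finset.sum_eq_zero fun i hi => ?_
  have : i ≠ j := by
    have := Finset.mem_range.mp hi
    omega
  rw [coeff_X_pow, if_neg this]
  simp

/-- Expansion of `polyAct n M P` along the monomial basis. -/
theorem polyAct_eq_sum_smul (n : ℕ) (M : Matrix (Fin 2) (Fin 2) R) (P : Polynomial R) :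
    polyAct n M P = ∑ j ∈ Finset.range (n + 1), P.coeff j • polyAct n M (X ^ j) := by
  rw [polyAct_apply]
  refine Finset.sum_congr rfl fun j hj => ?_
  have hj' : j ≤ n := Nat.lt_succ_iff.mp (Finset.mem_range.mp hj)
  rw [polyAct_X_pow n M hj', Polynomial.smul_eq_C_mul, mul_assoc]

/-- Coefficients of `polyAct n M P` via the matrix of `polyAct n M` on monomials. -/
theorem coeff_polyAct (n : ℕ) (M : Matrix (Fin 2) (Fin 2) R) (P : Polynomial R) (i : ℕ) :
    (polyAct n M P).coeff i =
      ∑ j ∈ Finset.range (n + 1), (polyAct n M (X ^ j)).coeff i * P.coeff j := by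
  rw [polyAct_eq_sum_smul, finsetSum_coeff]
  refine Finset.sum_congr rfl fun j _ => ?_
  rw [coeff_smul, smul_eq_mul, mul_comm]

end general

/-- (d), general form: the action of an integer matrix on complex polynomials of degree `≤ n`
is given by an integer matrix. -/
theorem coeff_polyAct_intCast (n : ℕ) (M : Matrix (Fin 2) (Fin 2) ℤ) (P : Polynomial ℂ) (i : ℕ) :
    (polyAct n (M.map (Int.castRingHom ℂ)) P).coeff i =
      ∑ j ∈ Finset.range (n + 1),
        (((polyAct n M (X ^ j)).coeff i : ℤ) : ℂ) * P.coeff j := by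
  rw [coeff_polyAct]
  refine Finset.sum_congr rfl fun j _ => ?_
  congr 1
  have h := polyAct_map (Int.castRingHom ℂ) n M (X ^ j)
  rw [Polynomial.map_pow, Polynomial.map_X] at h
  have h2 : (polyAct n (M.map (Int.castRingHom ℂ)) (X ^ j)).coeff i =
      ((polyAct n M (X ^ j)).map (Int.castRingHom ℂ)).coeff i := by
    rw [h]
  rw [h2, coeff_map]
  rfl

/-- (d) The action of `g : SL(2, ℤ)` on complex polynomials of degree `≤ n` is given by an
integer matrix. -/
theorem coeff_polyAct_cMat (n : ℕ) (g : SL(2, ℤ)) (P : Polynomial ℂ) (i : ℕ) :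
    (polyAct n (cMat g) P).coeff i =
      ∑ j ∈ Finset.range (n + 1),
        (((polyAct n (intMat g) (X ^ j)).coeff i : ℤ) : ℂ) * P.coeff j :=
  coeff_polyAct_intCast n (intMat g) P i

/-- (e) A polynomial is determined by its values on the upper half plane. -/
theorem eq_of_eval_eq_on_upperHalfPlane {P Q : Polynomial ℂ}
    (h : ∀ z : ℍ, P.eval (z : ℂ) = Q.eval (z : ℂ)) : P = Q := by
  refine Polynomial.eq_of_infinite_eval_eq P Q ?_
  have hinf : (Set.range (fun m : ℕ => ((m : ℂ) + Complex.I))).Infinite := by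
    apply Set.infinite_range_of_injective
    intro a b hab
    have : (a : ℂ) = b := by simpa using hab
    exact_mod_cast this
  refine hinf.mono ?_
  rintro _ ⟨m, rfl⟩
  have him : 0 < ((m : ℂ) + Complex.I).im := by simp
  exact h ⟨_, him⟩

/-- Evaluating a polynomial of degree `≤ n` at a quotient `a / b`, times `b ^ n`. -/
theorem eval_div_mul_pow {P : Polynomial ℂ} {n : ℕ} (hP : P.natDegree ≤ n) (a b : ℂ) (hb : b ≠ 0) :
    P.eval (a / b) * b ^ n = ∑ j ∈ Finset.range (n + 1), P.coeff j * a ^ j * b ^ (n - j) := by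
  rw [Polynomial.eval_eq_sum_range' (Nat.lt_succ_of_le hP), Finset.sum_mul]
  refine Finset.sum_congr rfl fun j hj => ?_
  have hj' : j ≤ n := Nat.lt_succ_iff.mp (Finset.mem_range.mp hj)
  have hbn : b ^ n = b ^ j * b ^ (n - j) := by rw [← pow_add]; congr 1; omega
  rw [div_pow, hbn]
  field_simp

/-- (a) The weight `-n` slash action of `g : SL(2, ℤ)` on a polynomial function of degree `≤ n`
is again a polynomial function, given by `polyAct n (cMat g)`. -/
theorem poly_slash (n : ℕ) (P : Polynomial ℂ) (hP : P.natDegree ≤ n) (g : SL(2, ℤ)) (z : ℍ) :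
    ((fun w : ℍ => P.eval (w : ℂ)) ∣[-(n : ℤ)] g) z = (polyAct n (cMat g) P).eval (z : ℂ) := by
  rw [ModularForm.SL_slash_apply, eval_polyAct, neg_neg, zpow_natCast]
  have hd : denom (g : GL (Fin 2) ℝ) (z : ℂ) ≠ 0 := denom_ne_zero _ z
  have hsmul : ((g • z : ℍ) : ℂ) = num (g : GL (Fin 2) ℝ) z / denom (g : GL (Fin 2) ℝ) z := by
    rw [ModularGroup.sl_moeb, coe_smul_of_det_pos (by simp)]
  rw [hsmul, eval_div_mul_pow hP _ _ hd]
  refine Finset.sum_congr rfl fun j _ => ?_
  simp [num, denom, cMat, Matrix.map_apply]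

/-- (a), as an equality of functions. -/
theorem poly_slash_fun (n : ℕ) (P : Polynomial ℂ) (hP : P.natDegree ≤ n) (g : SL(2, ℤ)) :
    ((fun w : ℍ => P.eval (w : ℂ)) ∣[-(n : ℤ)] g) =
      fun w : ℍ => (polyAct n (cMat g) P).eval (w : ℂ) :=
  funext fun z => poly_slash n P hP g z

/-- `polyAct n (cMat 1)` is the identity on polynomials of degree `≤ n`. -/
theorem polyAct_cMat_one (n : ℕ) (P : Polynomial ℂ) (hP : P.natDegree ≤ n) :
    polyAct n (cMat 1) P = P := by
  apply eq_of_eval_eq_on_upperHalfPlane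
  intro z
  rw [← poly_slash n P hP 1 z, SlashAction.slash_one]

/-- `polyAct n (cMat ·)` is a right action on polynomials of degree `≤ n`. -/
theorem polyAct_cMat_mul (n : ℕ) (P : Polynomial ℂ) (hP : P.natDegree ≤ n) (g h : SL(2, ℤ)) :
    polyAct n (cMat (g * h)) P = polyAct n (cMat h) (polyAct n (cMat g) P) := by
  apply eq_of_eval_eq_on_upperHalfPlane
  intro z
  rw [← poly_slash n P hP (g * h) z, SlashAction.slash_mul, poly_slash_fun n P hP g,
    poly_slash n _ (natDegree_polyAct_le n _ P) h z]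

/-- (a') The weight `-n` slash action of a real matrix with positive determinant and zero
lower-left entry (with entries `a, b, 0, d`) on a polynomial function of degree `≤ n`:
`det ^ (n+1) • (P ∣[-n] α) = polyAct n !![a, b; 0, d] P`. -/
theorem poly_slash_upperTriangular (n : ℕ) (P : Polynomial ℂ) (hP : P.natDegree ≤ n)
    (α : GL (Fin 2) ℝ) (hdet : 0 < α.det.val) (a b d : ℝ) (h00 : α 0 0 = a) (h01 : α 0 1 = b)
    (h10 : α 1 0 = 0) (h11 : α 1 1 = d) (z : ℍ) :
    ((α.det.val : ℂ) ^ (n + 1)) * ((fun w : ℍ => P.eval (w : ℂ)) ∣[-(n : ℤ)] α) z =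
      (polyAct n !![(a : ℂ), (b : ℂ); 0, (d : ℂ)] P).eval (z : ℂ) := by
  rw [ModularForm.slash_apply, eval_polyAct, neg_neg, zpow_natCast]
  have hσ : σ α = .refl ℝ ℂ := by rw [σ, if_pos hdet]
  have hd : denom α (z : ℂ) ≠ 0 := denom_ne_zero _ z
  have hdetC : (α.det.val : ℂ) ≠ 0 := by exact_mod_cast hdet.ne'
  rw [hσ, ContinuousAlgEquiv.refl_apply, coe_smul_of_det_pos hdet, abs_of_pos hdet]
  have hpow : ((α.det.val : ℂ)) ^ (n + 1) * ((α.det.val : ℂ)) ^ (-(n : ℤ) - 1) = 1 := by
    rw [← zpow_natCast, ← zpow_add₀ hdetC]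
    have : ((n + 1 : ℕ) : ℤ) + (-(n : ℤ) - 1) = 0 := by push_cast; ring
    rw [this, zpow_zero]
  calc (α.det.val : ℂ) ^ (n + 1) *
        (P.eval (num α z / denom α z) * (α.det.val : ℂ) ^ (-(n : ℤ) - 1) * denom α z ^ n)
      = ((α.det.val : ℂ) ^ (n + 1) * (α.det.val : ℂ) ^ (-(n : ℤ) - 1)) *
          (P.eval (num α z / denom α z) * denom α z ^ n) := by ring
    _ = P.eval (num α z / denom α z) * denom α z ^ n := by rw [hpow, one_mul]
    _ = _ := by
      rw [eval_div_mul_pow hP _ _ hd]
      refine Finset.sum_congr rfl fun j _ => ?_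
      simp [num, denom, h00, h01, h10, h11]

/-- The integer matrix `!![1, j; 0, p]` of `ModularForm.heckeMatrix p j`. -/
def heckeIntMat (p j : ℕ) : Matrix (Fin 2) (Fin 2) ℤ := !![1, (j : ℤ); 0, (p : ℤ)]

/-- The integer matrix `!![p, 0; 0, 1]` of `ModularForm.heckeDiagMatrix p`. -/
def heckeDiagIntMat (p : ℕ) : Matrix (Fin 2) (Fin 2) ℤ := !![(p : ℤ), 0; 0, 1]

theorem heckeIntMat_map (p j : ℕ) :
    (heckeIntMat p j).map (Int.castRingHom ℂ) = !![(1 : ℂ), (j : ℂ); 0, (p : ℂ)] := by
  ext a b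
  fin_cases a <;> fin_cases b <;> simp [heckeIntMat]

theorem heckeDiagIntMat_map (p : ℕ) :
    (heckeDiagIntMat p).map (Int.castRingHom ℂ) = !![(p : ℂ), (0 : ℂ); 0, (1 : ℂ)] := by
  ext a b
  fin_cases a <;> fin_cases b <;> simp [heckeDiagIntMat]

/-- (a'), for the Hecke matrix `!![1, j; 0, p]`. -/
theorem poly_slash_heckeMatrix (n : ℕ) (P : Polynomial ℂ) (hP : P.natDegree ≤ n) {p : ℕ}
    (hp : p ≠ 0) (j : ℕ) (z : ℍ) :
    ((p : ℂ) ^ (n + 1)) * ((fun w : ℍ => P.eval (w : ℂ)) ∣[-(n : ℤ)] ModularForm.heckeMatrix p j) z =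
      (polyAct n ((heckeIntMat p j).map (Int.castRingHom ℂ)) P).eval (z : ℂ) := by
  have hdet : ((ModularForm.heckeMatrix p j).det : ℝ) = p := ModularForm.det_heckeMatrix hp j
  have hval := ModularForm.val_heckeMatrix hp j
  have h := poly_slash_upperTriangular n P hP (ModularForm.heckeMatrix p j)
    (ModularForm.det_heckeMatrix_pos p j) 1 j p
    (by
      have := congrFun (congrFun hval 0) 0
      simpa using this)
    (by
      have := congrFun (congrFun hval 0) 1
      simpa using this)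
    (by
      have := congrFun (congrFun hval 1) 0
      simpa using this)
    (by
      have := congrFun (congrFun hval 1) 1
      simpa using this) z
  rw [hdet] at h
  rw [heckeIntMat_map]
  simpa using h

/-- (a'), for the Hecke matrix `!![p, 0; 0, 1]`. -/
theorem poly_slash_heckeDiagMatrix (n : ℕ) (P : Polynomial ℂ) (hP : P.natDegree ≤ n) {p : ℕ}
    (hp : p ≠ 0) (z : ℍ) :
    ((p : ℂ) ^ (n + 1)) * ((fun w : ℍ => P.eval (w : ℂ)) ∣[-(n : ℤ)] ModularForm.heckeDiagMatrix p) z =
      (polyAct n ((heckeDiagIntMat p).map (Int.castRingHom ℂ)) P).eval (z : ℂ) := by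
  have hdet : ((ModularForm.heckeDiagMatrix p).det : ℝ) = p := ModularForm.det_heckeDiagMatrix hp
  have hval := ModularForm.val_heckeDiagMatrix hp
  have h := poly_slash_upperTriangular n P hP (ModularForm.heckeDiagMatrix p)
    (ModularForm.det_heckeDiagMatrix_pos p) p 0 1
    (by
      have := congrFun (congrFun hval 0) 0
      simpa using this)
    (by
      have := congrFun (congrFun hval 0) 1
      simpa using this)
    (by
      have := congrFun (congrFun hval 1) 0
      simpa using this)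
    (by
      have := congrFun (congrFun hval 1) 1
      simpa using this) z
  rw [hdet] at h
  rw [heckeDiagIntMat_map]
  simpa using h

end Fermat.Agent.S22.H82
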