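import Mathlib
import Fermat.Prelude.Def_CuspForm_HeckeAlgebra

set_option autoImplicit false

open scoped MatrixGroups
open UpperHalfPlane

namespace Fermat.Agent.S22.H82

/-- View a cusp form as a modular form (same underlying function). -/
noncomputable def cuspToModular {Γ : Subgroup (GL (Fin 2) ℝ)} {k : ℤ} (f : CuspForm Γ k) :
    ModularForm Γ k :=
  { toSlashInvariantForm := f.toSlashInvariantForm
    holo' := f.holo'
    bdd_at_cusps' := fun hc γ hγ => (f.zero_at_cusps' hc γ hγ).isBoundedAtImInfty }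

@[simp] theorem cuspToModular_apply {Γ : Subgroup (GL (Fin 2) ℝ)} {k : ℤ} (f : CuspForm Γ k)
    (z : ℍ) : cuspToModular f z = f z := rfl

theorem cuspForm_eq_zero_of_cuspToModular_eq_zero {Γ : Subgroup (GL (Fin 2) ℝ)} {k : ℤ}
    (f : CuspForm Γ k) (h : cuspToModular f = 0) : f = 0 := by
  ext z
  exact DFunLike.congr_fun h z

theorem neg_one_mem_Gamma0 (N : ℕ) :
    (-1 : GL (Fin 2) ℝ) ∈ ((CongruenceSubgroup.Gamma0 N : Subgroup SL(2, ℤ)) :
      Subgroup (GL (Fin 2) ℝ)) := by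
  refine ⟨-1, ?_, ?_⟩
  · simp [CongruenceSubgroup.Gamma0_mem]
  · ext i j
    simp [Matrix.SpecialLinearGroup.mapGL]

/-- Odd weight cusp forms on `Γ₀(N)` vanish. -/
theorem cuspForm_Gamma0_eq_zero_of_odd (N : ℕ) {k : ℤ} (hk : Odd k)
    (f : CuspForm (CongruenceSubgroup.Gamma0 N) k) : f = 0 :=
  cuspForm_eq_zero_of_cuspToModular_eq_zero f
    (ModularForm.eq_zero_of_neg_one_mem (neg_one_mem_Gamma0 N) hk _)

/-- Negative weight cusp forms on `Γ₀(N)` vanish. -/
theorem cuspForm_Gamma0_eq_zero_of_neg (N : ℕ) [NeZero N] {k : ℤ} (hk : k < 0)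
    (f : CuspForm (CongruenceSubgroup.Gamma0 N) k) : f = 0 :=
  cuspForm_eq_zero_of_cuspToModular_eq_zero f (ModularForm.isZero_of_neg_weight hk _)

end Fermat.Agent.S22.H82

namespace Fermat.Agent.S22.H82

/-- Weight zero cusp forms on `Γ₀(N)` vanish. -/
theorem cuspForm_Gamma0_eq_zero_of_weight_zero (N : ℕ) [NeZero N]
    (f : CuspForm (CongruenceSubgroup.Gamma0 N) 0) : f = 0 := by
  obtain ⟨c, hc⟩ := ModularForm.eq_const_of_weight_zero (cuspToModular f)
  have hzero : IsZeroAtImInfty (f : ℍ → ℂ) := CuspFormClass.zero_at_infty f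
  have hf : (f : ℍ → ℂ) = Function.const ℍ c := by
    funext z
    have := congrFun hc z
    simpa using this
  have hc0 : c = 0 := by
    rw [IsZeroAtImInfty, Filter.ZeroAtFilter, hf] at hzero
    exact tendsto_nhds_unique tendsto_const_nhds hzero
  ext z
  rw [show f z = (f : ℍ → ℂ) z from rfl, hf, hc0]
  rfl

/-- Nonpositive weight cusp forms on `Γ₀(N)` vanish. -/
theorem cuspForm_Gamma0_eq_zero_of_nonpos (N : ℕ) [NeZero N] {k : ℤ} (hk : k ≤ 0)
    (f : CuspForm (CongruenceSubgroup.Gamma0 N) k) : f = 0 := by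
  rcases hk.lt_or_eq with h | h
  · exact cuspForm_Gamma0_eq_zero_of_neg N h f
  · subst h
    exact cuspForm_Gamma0_eq_zero_of_weight_zero N f

/-- If the space of cusp forms is trivial then the Hecke algebra is a finite `ℤ`-module. -/
theorem finite_heckeAlgebra_of_forall_eq_zero (N : ℕ) [NeZero N] (k : ℤ) (S : Set ℕ)
    (h : ∀ f : CuspForm (CongruenceSubgroup.Gamma0 N) k, f = 0) :
    Module.Finite ℤ (CuspForm.heckeAlgebra N k S) := by
  have : Subsingleton (CuspForm (CongruenceSubgroup.Gamma0 N) k) :=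
    ⟨fun a b => (h a).trans (h b).symm⟩
  have : Subsingleton (Module.End ℂ (CuspForm (CongruenceSubgroup.Gamma0 N) k)) :=
    ⟨fun a b => LinearMap.ext fun x => Subsingleton.elim _ _⟩
  have : Subsingleton (CuspForm.heckeAlgebra N k S) :=
    ⟨fun a b => Subtype.ext (Subsingleton.elim _ _)⟩
  exact Module.Finite.of_finite

/-- S22 in the trivial weights: `k` odd or `k ≤ 0`. -/
theorem finite_heckeAlgebra_of_odd_or_nonpos (N : ℕ) [NeZero N] (k : ℤ) (S : Set ℕ)
    (hk : Odd k ∨ k ≤ 0) : Module.Finite ℤ (CuspForm.heckeAlgebra N k S) := by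
  refine finite_heckeAlgebra_of_forall_eq_zero N k S fun f => ?_
  rcases hk with hk | hk
  · exact cuspForm_Gamma0_eq_zero_of_odd N hk f
  · exact cuspForm_Gamma0_eq_zero_of_nonpos N hk f

end Fermat.Agent.S22.H82
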