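import Mathlib

/-!
Analytic package (A) for S22: iterated primitives of `q`-series on the upper half plane.
-/

set_option autoImplicit false

namespace Fermat.Agent.S22.H88

open Complex Function Filter Topology
open UpperHalfPlane hiding I
open scoped Real Manifold

local notation "𝕢" => Periodic.qParam

/-- Norm-summability of a coefficient sequence on every radius `< 1`. -/
def NormSummable (c : ℕ → ℂ) : Prop :=
  ∀ r : ℝ, 0 ≤ r → r < 1 → Summable fun n => ‖c n‖ * r ^ n

/-- The plain `q`-series attached to a coefficient sequence, as a function on `ℂ`. -/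
noncomputable def qSeries (h : ℝ) (c : ℕ → ℂ) (z : ℂ) : ℂ :=
  ∑' n : ℕ, c n * 𝕢 h z ^ n

lemma norm_qParam_le {h : ℝ} (hh : 0 < h) {δ : ℝ} {w : ℂ} (hw : δ ≤ w.im) :
    ‖𝕢 h w‖ ≤ Real.exp (-2 * π * δ / h) := by
  rw [Periodic.norm_qParam]
  apply Real.exp_le_exp.mpr
  have : 0 < 2 * π / h := by positivity
  have h1 : -2 * π * w.im / h = -(2 * π / h) * w.im := by ring
  have h2 : -2 * π * δ / h = -(2 * π / h) * δ := by ring
  rw [h1, h2]
  nlinarith

lemma exp_neg_lt_one {h : ℝ} (hh : 0 < h) {δ : ℝ} (hδ : 0 < δ) :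
    Real.exp (-2 * π * δ / h) < 1 := by
  apply Real.exp_lt_one_iff.mpr
  have : 0 < 2 * π * δ / h := by positivity
  have h1 : -2 * π * δ / h = -(2 * π * δ / h) := by ring
  rw [h1]; linarith

lemma NormSummable.summable_qParam {h : ℝ} (hh : 0 < h) {c : ℕ → ℂ} (hc : NormSummable c)
    {z : ℂ} (hz : 0 < z.im) : Summable fun n => c n * 𝕢 h z ^ n := by
  apply Summable.of_norm
  have := hc ‖𝕢 h z‖ (norm_nonneg _) (Periodic.norm_qParam_lt_one hh hz)
  simpa [norm_mul, norm_pow] using this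

/-- Derive norm-summability from plain summability at every point of the upper half plane. -/
lemma normSummable_of_summable {h : ℝ} (hh : 0 < h) {b : ℕ → ℂ}
    (hb : ∀ τ : ℍ, Summable fun n => b n * 𝕢 h τ ^ n) : NormSummable b := by
  intro r hr0 hr1
  -- choose ρ with r < ρ < 1
  set ρ : ℝ := (r + 1) / 2 with hρ
  have hρ0 : 0 < ρ := by rw [hρ]; linarith
  have hρ1 : ρ < 1 := by rw [hρ]; linarith
  have hrρ : r < ρ := by rw [hρ]; linarith
  have hρC : ‖(ρ : ℂ)‖ < 1 := by simpa [abs_of_pos hρ0] using hρ1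
  have hρne : (ρ : ℂ) ≠ 0 := by exact_mod_cast hρ0.ne'
  have him := Periodic.im_invQParam_pos_of_norm_lt_one hh hρC hρne
  have hq : 𝕢 h (Periodic.invQParam h (ρ : ℂ)) = ρ := Periodic.qParam_right_inv hh.ne' hρne
  have hs := hb ⟨Periodic.invQParam h (ρ : ℂ), him⟩
  simp only [hq] at hs
  -- terms tend to zero hence are bounded
  have ht := hs.tendsto_atTop_zero
  have hbd : ∃ C, ∀ n, ‖b n * (ρ : ℂ) ^ n‖ ≤ C := by
    obtain ⟨C, hC⟩ := (ht.norm).bddAbove_range
    exact ⟨C, fun n => hC ⟨n, rfl⟩⟩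
  obtain ⟨C, hC⟩ := hbd
  have hgeo : Summable fun n : ℕ => C * (r / ρ) ^ n := by
    apply Summable.mul_left
    apply summable_geometric_of_lt_one (by positivity)
    rw [div_lt_one hρ0]; exact hrρ
  refine Summable.of_nonneg_of_le (fun n => by positivity) (fun n => ?_) hgeo
  have h1 : ‖b n‖ * ρ ^ n ≤ C := by
    have := hC n
    rwa [norm_mul, norm_pow, Complex.norm_real, Real.norm_eq_abs, abs_of_pos hρ0] at this
  have h2 : (r / ρ) ^ n = r ^ n / ρ ^ n := div_pow r ρ n
  have hρn : 0 < ρ ^ n := pow_pos hρ0 n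
  calc ‖b n‖ * r ^ n = (‖b n‖ * ρ ^ n) * (r ^ n / ρ ^ n) := by field_simp
    _ ≤ C * (r ^ n / ρ ^ n) := by
        apply mul_le_mul_of_nonneg_right h1
        positivity
    _ = C * (r / ρ) ^ n := by rw [h2]


lemma hasDerivAt_qParam (h : ℝ) (z : ℂ) :
    HasDerivAt (𝕢 h) (𝕢 h z * (2 * π * I / h)) z := by
  have h1 : HasDerivAt (fun w : ℂ => 2 * π * I * w / h) (2 * π * I / h) z := by
    have := ((hasDerivAt_id z).const_mul (2 * π * I)).div_const (h : ℂ)
    simp only [mul_one] at this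
    exact this
  exact h1.cexp

lemma hasDerivAt_qParam_pow (h : ℝ) (n : ℕ) (z : ℂ) :
    HasDerivAt (fun w => 𝕢 h w ^ n) ((2 * π * I * n / h) * 𝕢 h z ^ n) z := by
  have h3 := (hasDerivAt_qParam h z).fun_pow n
  rcases Nat.eq_zero_or_pos n with rfl | hn
  · simp only [pow_zero, Nat.cast_zero, mul_zero, zero_div, zero_mul]
    exact hasDerivAt_const z (1 : ℂ)
  · refine h3.congr_deriv ?_
    have : 𝕢 h z ^ n = 𝕢 h z ^ (n - 1) * 𝕢 h z := by
      rw [← pow_succ, Nat.sub_add_cancel hn]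
    rw [this]; ring

/-- Termwise differentiation of a `q`-series on the upper half plane. -/
theorem hasDerivAt_qSeries {h : ℝ} (hh : 0 < h) {c : ℕ → ℂ} (hc : NormSummable c) {z : ℂ}
    (hz : 0 < z.im) :
    HasDerivAt (qSeries h c) (qSeries h (fun n => c n * (2 * π * I * n / h)) z) z := by
  set δ : ℝ := z.im / 2 with hδ
  have hδ0 : 0 < δ := by rw [hδ]; linarith
  set U : Set ℂ := {w | δ < w.im} with hU
  have hUo : IsOpen U := isOpen_lt continuous_const Complex.continuous_im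
  have hzU : z ∈ U := by simp only [hU, Set.mem_ofPred_eq, hδ]; linarith
  set r : ℝ := Real.exp (-2 * π * δ / h) with hr
  have hr0 : 0 ≤ r := (Real.exp_pos _).le
  have hr1 : r < 1 := exp_neg_lt_one hh hδ0
  have hu : Summable fun n => ‖c n‖ * r ^ n := hc r hr0 hr1
  have hF : ∀ n : ℕ, DifferentiableOn ℂ (fun w => c n * 𝕢 h w ^ n) U := fun n =>
    ((Periodic.differentiable_qParam.pow n).const_mul (c n)).differentiableOn
  have hle : ∀ (n : ℕ) (w : ℂ), w ∈ U → ‖c n * 𝕢 h w ^ n‖ ≤ ‖c n‖ * r ^ n := by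
    intro n w hw
    rw [norm_mul, norm_pow]
    apply mul_le_mul_of_nonneg_left _ (norm_nonneg _)
    exact pow_le_pow_left₀ (norm_nonneg _) (norm_qParam_le hh (le_of_lt hw)) n
  have hdiff := Complex.differentiableOn_tsum_of_summable_norm hu hF hUo hle
  have hsum := Complex.hasSum_deriv_of_summable_norm hu hF hUo hle hzU
  have hda : DifferentiableAt ℂ (qSeries h c) z :=
    hdiff.differentiableAt (hUo.mem_nhds hzU)
  have hderiv : deriv (qSeries h c) z = qSeries h (fun n => c n * (2 * π * I * n / h)) z := by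
    have h1 : ∀ n : ℕ, deriv (fun w => c n * 𝕢 h w ^ n) z =
        c n * (2 * π * I * n / h) * 𝕢 h z ^ n := by
      intro n
      rw [((hasDerivAt_qParam_pow h n z).const_mul (c n)).deriv]; ring
    simp only [h1] at hsum
    exact hsum.tsum_eq.symm
  rw [← hderiv]
  exact hda.hasDerivAt


/-! ### Eichler series -/

/-- Coefficients of the `m`-fold primitive of `∑_{n ≥ 1} b n q_h^n`. -/
noncomputable def eCoeff (h : ℝ) (b : ℕ → ℂ) (m : ℕ) (n : ℕ) : ℂ :=
  if n = 0 then 0 else b n / (2 * π * I * n / h) ^ m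

/-- The `m`-fold primitive (vanishing at `i∞`) of `∑_{n ≥ 1} b n q_h^n`, on the upper half plane. -/
noncomputable def eichlerSeries (h : ℝ) (b : ℕ → ℂ) (m : ℕ) (τ : ℍ) : ℂ :=
  qSeries h (eCoeff h b m) τ

@[simp] lemma eCoeff_zero_right (h : ℝ) (b : ℕ → ℂ) (m : ℕ) : eCoeff h b m 0 = 0 := by
  simp [eCoeff]

lemma eCoeff_of_ne_zero (h : ℝ) (b : ℕ → ℂ) (m : ℕ) {n : ℕ} (hn : n ≠ 0) :
    eCoeff h b m n = b n / (2 * π * I * n / h) ^ m := by
  simp [eCoeff, hn]

lemma eCoeff_zero_left (h : ℝ) (b : ℕ → ℂ) (n : ℕ) :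
    eCoeff h b 0 n = if n = 0 then 0 else b n := by
  simp [eCoeff]

lemma two_pi_I_mul_div_ne_zero {h : ℝ} (hh : h ≠ 0) {n : ℕ} (hn : n ≠ 0) :
    (2 * π * I * n / h : ℂ) ≠ 0 := by
  have h1 : (h : ℂ) ≠ 0 := by exact_mod_cast hh
  have h2 : (n : ℂ) ≠ 0 := by exact_mod_cast hn
  have h3 : (π : ℂ) ≠ 0 := by exact_mod_cast Real.pi_ne_zero
  have h4 : (2 : ℂ) ≠ 0 := two_ne_zero
  exact div_ne_zero (mul_ne_zero (mul_ne_zero (mul_ne_zero h4 h3) I_ne_zero) h2) h1

lemma eCoeff_succ_mul {h : ℝ} (hh : h ≠ 0) (b : ℕ → ℂ) (m n : ℕ) :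
    eCoeff h b (m + 1) n * (2 * π * I * n / h) = eCoeff h b m n := by
  rcases eq_or_ne n 0 with rfl | hn
  · simp
  · rw [eCoeff_of_ne_zero _ _ _ hn, eCoeff_of_ne_zero _ _ _ hn, pow_succ]
    have hne := two_pi_I_mul_div_ne_zero hh hn
    generalize (2 * π * I * n / h : ℂ) = x at hne ⊢
    field_simp

lemma norm_two_pi_I_mul_div {h : ℝ} (hh : 0 < h) (n : ℕ) :
    ‖(2 * π * I * n / h : ℂ)‖ = 2 * π * n / h := by
  rw [norm_div, norm_mul, norm_mul, norm_mul, Complex.norm_I, Complex.norm_real, Complex.norm_real,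
    Complex.norm_natCast, Complex.norm_ofNat, Real.norm_eq_abs, Real.norm_eq_abs,
    abs_of_pos Real.pi_pos, abs_of_pos hh]
  ring

lemma norm_eCoeff_le {h : ℝ} (hh : 0 < h) (b : ℕ → ℂ) (m n : ℕ) :
    ‖eCoeff h b m n‖ ≤ (h / (2 * π)) ^ m * ‖b n‖ := by
  rcases eq_or_ne n 0 with rfl | hn
  · simp only [eCoeff_zero_right, norm_zero]; positivity
  · rw [eCoeff_of_ne_zero _ _ _ hn, norm_div, norm_pow, norm_two_pi_I_mul_div hh]
    have hn1 : (1 : ℝ) ≤ n := by exact_mod_cast Nat.one_le_iff_ne_zero.mpr hn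
    have hpos : 0 < 2 * π * (n : ℝ) / h := by positivity
    rw [div_le_iff₀ (pow_pos hpos m)]
    have key : 1 ≤ h / (2 * π) * (2 * π * (n : ℝ) / h) := by
      have : h / (2 * π) * (2 * π * (n : ℝ) / h) = n := by
        field_simp
      rw [this]; exact hn1
    calc ‖b n‖ = 1 ^ m * ‖b n‖ := by simp
      _ ≤ (h / (2 * π) * (2 * π * (n : ℝ) / h)) ^ m * ‖b n‖ := by
          apply mul_le_mul_of_nonneg_right _ (norm_nonneg _)
          exact pow_le_pow_left₀ zero_le_one key m
      _ = (h / (2 * π)) ^ m * ‖b n‖ * (2 * π * ↑n / h) ^ m := by rw [mul_pow]; ring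

lemma NormSummable.eCoeff {h : ℝ} (hh : 0 < h) {b : ℕ → ℂ} (hb : NormSummable b) (m : ℕ) :
    NormSummable (eCoeff h b m) := by
  intro r hr0 hr1
  have := (hb r hr0 hr1).mul_left ((h / (2 * π)) ^ m)
  refine Summable.of_nonneg_of_le (fun n => by positivity) (fun n => ?_) this
  calc ‖H88.eCoeff h b m n‖ * r ^ n ≤ ((h / (2 * π)) ^ m * ‖b n‖) * r ^ n := by
        apply mul_le_mul_of_nonneg_right (norm_eCoeff_le hh b m n) (by positivity)
    _ = (h / (2 * π)) ^ m * (‖b n‖ * r ^ n) := by ring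

/-- (A3) The derivative of the level `m+1` Eichler series is the level `m` one. -/
theorem hasDerivAt_qSeries_eCoeff {h : ℝ} (hh : 0 < h) {b : ℕ → ℂ} (hb : NormSummable b)
    (m : ℕ) {z : ℂ} (hz : 0 < z.im) :
    HasDerivAt (qSeries h (eCoeff h b (m + 1))) (qSeries h (eCoeff h b m) z) z := by
  have := hasDerivAt_qSeries hh (hb.eCoeff hh (m + 1)) hz
  have heq : (fun n : ℕ => eCoeff h b (m + 1) n * (2 * π * I * n / h)) = eCoeff h b m := by
    funext n; exact eCoeff_succ_mul hh.ne' b m n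
  rwa [heq] at this

lemma eichlerSeries_comp_ofComplex_eventuallyEq (h : ℝ) (b : ℕ → ℂ) (m : ℕ) {z : ℂ}
    (hz : 0 < z.im) : (eichlerSeries h b m ∘ ofComplex) =ᶠ[𝓝 z] qSeries h (eCoeff h b m) := by
  have hopen : IsOpen {w : ℂ | 0 < w.im} := isOpen_lt continuous_const Complex.continuous_im
  filter_upwards [hopen.mem_nhds hz] with w hw
  simp only [Function.comp_apply, eichlerSeries, ofComplex_apply_of_im_pos hw]

theorem hasDerivAt_eichlerSeries {h : ℝ} (hh : 0 < h) {b : ℕ → ℂ} (hb : NormSummable b)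
    (m : ℕ) {z : ℂ} (hz : 0 < z.im) :
    HasDerivAt (eichlerSeries h b (m + 1) ∘ ofComplex) (eichlerSeries h b m (ofComplex z)) z := by
  have h1 := hasDerivAt_qSeries_eCoeff hh hb m hz
  have h2 := (h1.congr_of_eventuallyEq (eichlerSeries_comp_ofComplex_eventuallyEq h b (m + 1) hz))
  refine h2.congr_deriv ?_
  unfold eichlerSeries
  rw [ofComplex_apply_of_im_pos hz]

lemma differentiableAt_qSeries {h : ℝ} (hh : 0 < h) {c : ℕ → ℂ} (hc : NormSummable c) {z : ℂ}
    (hz : 0 < z.im) : DifferentiableAt ℂ (qSeries h c) z :=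
  (hasDerivAt_qSeries hh hc hz).differentiableAt

/-- (A2) Eichler series are holomorphic. -/
theorem mdifferentiable_eichlerSeries {h : ℝ} (hh : 0 < h) {b : ℕ → ℂ} (hb : NormSummable b)
    (m : ℕ) : MDifferentiable 𝓘(ℂ) 𝓘(ℂ) (eichlerSeries h b m) := by
  rw [UpperHalfPlane.mdifferentiable_iff]
  intro z hz
  have hz' : 0 < z.im := hz
  have h1 := differentiableAt_qSeries hh (hb.eCoeff hh m) hz'
  exact (h1.congr_of_eventuallyEq
    (eichlerSeries_comp_ofComplex_eventuallyEq h b m hz')).differentiableWithinAt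


lemma qParam_add_period {h : ℝ} (hh : h ≠ 0) (z : ℂ) : 𝕢 h (z + h) = 𝕢 h z := by
  have h1 : (h : ℂ) ≠ 0 := by exact_mod_cast hh
  simp only [Periodic.qParam]
  have : 2 * π * I * (z + h) / h = 2 * π * I * z / h + 2 * π * I := by
    field_simp
  rw [this, Complex.exp_add, Complex.exp_two_pi_mul_I, mul_one]

lemma qSeries_periodic {h : ℝ} (hh : h ≠ 0) (c : ℕ → ℂ) : Periodic (qSeries h c) h := by
  intro z
  simp only [qSeries, qParam_add_period hh]

/-- (A4) periodicity. -/
theorem eichlerSeries_periodic {h : ℝ} (hh : 0 < h) (b : ℕ → ℂ) (m : ℕ) :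
    Periodic (eichlerSeries h b m ∘ ofComplex) h := by
  intro w
  by_cases hw : 0 < w.im
  · have hw' : 0 < (w + h).im := by simpa using hw
    simp only [Function.comp_apply, eichlerSeries, ofComplex_apply_of_im_pos hw,
      ofComplex_apply_of_im_pos hw']
    exact qSeries_periodic hh.ne' _ w
  · have hw1 : w.im ≤ 0 := not_lt.mp hw
    have hw' : (w + h).im ≤ 0 := by simpa using hw1
    simp only [Function.comp_apply]
    rw [ofComplex_apply_of_im_nonpos hw', ofComplex_apply_of_im_nonpos hw1]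

/-- The defining series converges. -/
theorem hasSum_eichlerSeries {h : ℝ} (hh : 0 < h) {b : ℕ → ℂ} (hb : NormSummable b)
    (m : ℕ) (τ : ℍ) :
    HasSum (fun n => eCoeff h b m n • 𝕢 h τ ^ n) (eichlerSeries h b m τ) := by
  have := ((hb.eCoeff hh m).summable_qParam hh τ.im_pos).hasSum
  simpa [eichlerSeries, qSeries, smul_eq_mul] using this

/-- Eichler series are bounded at `i∞`. -/
theorem isBoundedAtImInfty_eichlerSeries {h : ℝ} (hh : 0 < h) {b : ℕ → ℂ}
    (hb : NormSummable b) (m : ℕ) : IsBoundedAtImInfty (eichlerSeries h b m) :=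
  isBoundedAtImInfty_of_hasSum_qExpansion hh (hasSum_eichlerSeries hh hb m)

theorem analyticAt_cuspFunction_eichlerSeries {h : ℝ} (hh : 0 < h) {b : ℕ → ℂ}
    (hb : NormSummable b) (m : ℕ) : AnalyticAt ℂ (cuspFunction h (eichlerSeries h b m)) 0 :=
  analyticAt_cuspFunction_zero hh (eichlerSeries_periodic hh b m)
    (mdifferentiable_eichlerSeries hh hb m) (isBoundedAtImInfty_eichlerSeries hh hb m)

/-- Uniqueness of `q`-expansion coefficients, for plain functions on `ℍ`. -/
lemma qExpansion_coeff_eq_of_hasSum {f : ℍ → ℂ} {h : ℝ} (hh : 0 < h) {c : ℕ → ℂ}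
    (han : AnalyticAt ℂ (cuspFunction h f) 0)
    (hf : ∀ τ : ℍ, HasSum (fun m ↦ c m • 𝕢 h τ ^ m) (f τ)) (n : ℕ) :
    (qExpansion h f).coeff n = c n := by
  have h1 := (hasFPowerSeriesOnBall_cuspFunction hh han hf).hasFPowerSeriesAt
  have h2 := han.hasFPowerSeriesAt
  have h3 := congr_arg (FormalMultilinearSeries.coeff · n) (h1.eq_formalMultilinearSeries h2)
  simp only [FormalMultilinearSeries.coeff_ofScalars] at h3
  rw [qExpansion_coeff, h3]
  ring

/-- (A6) `q`-expansion coefficients of Eichler series. -/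
theorem qExpansion_eichlerSeries_coeff {h : ℝ} (hh : 0 < h) {b : ℕ → ℂ}
    (hb : NormSummable b) (m n : ℕ) :
    (qExpansion h (eichlerSeries h b m)).coeff n = eCoeff h b m n :=
  qExpansion_coeff_eq_of_hasSum hh (analyticAt_cuspFunction_eichlerSeries hh hb m)
    (hasSum_eichlerSeries hh hb m) n

/-- (A5) Eichler series vanish at `i∞`. -/
theorem isZeroAtImInfty_eichlerSeries {h : ℝ} (hh : 0 < h) {b : ℕ → ℂ}
    (hb : NormSummable b) (m : ℕ) : IsZeroAtImInfty (eichlerSeries h b m) := by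
  have han := analyticAt_cuspFunction_eichlerSeries hh hb m
  have hper := eichlerSeries_periodic hh b m
  have h0 : cuspFunction h (eichlerSeries h b m) 0 = 0 := by
    have h1 := qExpansion_coeff_zero hh han hper
    rw [qExpansion_eichlerSeries_coeff hh hb m 0, eCoeff_zero_right] at h1
    rw [cuspFunction_apply_zero hh han hper]
    exact h1.symm
  have hcomp : (cuspFunction h (eichlerSeries h b m) ∘ fun τ : ℍ => 𝕢 h τ) =
      eichlerSeries h b m := by
    funext τ
    exact eq_cuspFunction τ hh.ne' hper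
  have := han.continuousAt.tendsto.comp (qParam_tendsto_atImInfty hh)
  rw [hcomp, h0] at this
  exact this


/-- On the upper half plane, `deriv` of the level `m+1` series is the level `m` series. -/
lemma deriv_eichlerSeries_eventuallyEq {h : ℝ} (hh : 0 < h) {b : ℕ → ℂ} (hb : NormSummable b)
    (m : ℕ) {z : ℂ} (hz : 0 < z.im) :
    deriv (eichlerSeries h b (m + 1) ∘ ofComplex) =ᶠ[𝓝 z] (eichlerSeries h b m ∘ ofComplex) := by
  have hopen : IsOpen {w : ℂ | 0 < w.im} := isOpen_lt continuous_const Complex.continuous_im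
  filter_upwards [hopen.mem_nhds hz] with w hw
  exact (hasDerivAt_eichlerSeries hh hb m hw).deriv

/-- (A3') The `j`-th derivative of the level `m+j` series is the level `m` series. -/
theorem iteratedDeriv_eichlerSeries {h : ℝ} (hh : 0 < h) {b : ℕ → ℂ} (hb : NormSummable b)
    (m j : ℕ) {z : ℂ} (hz : 0 < z.im) :
    iteratedDeriv j (eichlerSeries h b (m + j) ∘ ofComplex) z =
      eichlerSeries h b m (ofComplex z) := by
  induction j generalizing m z with
  | zero => simp
  | succ j ih =>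
    rw [iteratedDeriv_succ']
    have h1 : m + (j + 1) = (m + j) + 1 := by ring
    rw [h1, (deriv_eichlerSeries_eventuallyEq hh hb (m + j) hz).iteratedDeriv_eq j]
    exact ih m hz

/-- (A1) If `f` is given by the `q`-series with coefficients `b` and `b 0 = 0`, then the level `0`
Eichler series is `f`. -/
theorem eichlerSeries_zero_eq {h : ℝ} {b : ℕ → ℂ} (hb0 : b 0 = 0) {f : ℍ → ℂ}
    (hf : ∀ τ : ℍ, HasSum (fun n => b n • 𝕢 h τ ^ n) (f τ)) : eichlerSeries h b 0 = f := by
  funext τ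
  have : eCoeff h b 0 = b := by
    funext n
    rw [eCoeff_zero_left]
    split_ifs with hn
    · rw [hn, hb0]
    · rfl
  simp only [eichlerSeries, qSeries, this]
  simpa [smul_eq_mul] using (hf τ).tsum_eq

lemma normSummable_of_hasSum {h : ℝ} (hh : 0 < h) {b : ℕ → ℂ} {f : ℍ → ℂ}
    (hf : ∀ τ : ℍ, HasSum (fun n => b n • 𝕢 h τ ^ n) (f τ)) : NormSummable b :=
  normSummable_of_summable hh fun τ => by simpa [smul_eq_mul] using (hf τ).summable

/-! ### Linearity in the coefficient sequence -/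

lemma eCoeff_add (h : ℝ) (b b' : ℕ → ℂ) (m n : ℕ) :
    eCoeff h (b + b') m n = eCoeff h b m n + eCoeff h b' m n := by
  simp only [eCoeff, Pi.add_apply]
  split_ifs
  · simp
  · rw [add_div]

lemma eCoeff_smul (h : ℝ) (a : ℂ) (b : ℕ → ℂ) (m n : ℕ) :
    eCoeff h (a • b) m n = a * eCoeff h b m n := by
  simp only [eCoeff, Pi.smul_apply, smul_eq_mul]
  split_ifs
  · simp
  · rw [mul_div_assoc]

/-- (A7) additivity. -/
theorem eichlerSeries_add {h : ℝ} (hh : 0 < h) {b b' : ℕ → ℂ} (hb : NormSummable b)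
    (hb' : NormSummable b') (m : ℕ) (τ : ℍ) :
    eichlerSeries h (b + b') m τ = eichlerSeries h b m τ + eichlerSeries h b' m τ := by
  have h1 := (hb.eCoeff hh m).summable_qParam hh τ.im_pos
  have h2 := (hb'.eCoeff hh m).summable_qParam hh τ.im_pos
  simp only [eichlerSeries, qSeries]
  rw [← h1.tsum_add h2]
  congr 1
  funext n
  rw [eCoeff_add]; ring

/-- (A7) homogeneity. -/
theorem eichlerSeries_smul (h : ℝ) (a : ℂ) (b : ℕ → ℂ) (m : ℕ) (τ : ℍ) :
    eichlerSeries h (a • b) m τ = a * eichlerSeries h b m τ := by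
  simp only [eichlerSeries, qSeries]
  rw [← tsum_mul_left]
  congr 1
  funext n
  rw [eCoeff_smul]; ring

lemma NormSummable.add {b b' : ℕ → ℂ} (hb : NormSummable b) (hb' : NormSummable b') :
    NormSummable (b + b') := by
  intro r hr0 hr1
  refine Summable.of_nonneg_of_le (fun n => by positivity) (fun n => ?_)
    ((hb r hr0 hr1).add (hb' r hr0 hr1))
  rw [← add_mul]
  exact mul_le_mul_of_nonneg_right (norm_add_le _ _) (by positivity)

lemma NormSummable.smul {b : ℕ → ℂ} (hb : NormSummable b) (a : ℂ) : NormSummable (a • b) := by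
  intro r hr0 hr1
  have := (hb r hr0 hr1).mul_left ‖a‖
  refine this.congr fun n => ?_
  simp only [Pi.smul_apply, smul_eq_mul, norm_mul]; ring


/-! ### Specialisation to periodic holomorphic functions vanishing at `i∞` -/

section Periodic

variable {f : ℍ → ℂ} {h : ℝ}

/-- The coefficient sequence of the `q`-expansion of `f`. -/
noncomputable def qCoeffSeq (h : ℝ) (f : ℍ → ℂ) (n : ℕ) : ℂ := (qExpansion h f).coeff n

lemma hasSum_qCoeffSeq (hh : 0 < h) (hper : Periodic (f ∘ ofComplex) h)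
    (hhol : MDifferentiable 𝓘(ℂ) 𝓘(ℂ) f) (hbdd : IsBoundedAtImInfty f) (τ : ℍ) :
    HasSum (fun n => qCoeffSeq h f n • 𝕢 h τ ^ n) (f τ) :=
  hasSum_qExpansion hh hper hhol hbdd τ

lemma normSummable_qCoeffSeq (hh : 0 < h) (hper : Periodic (f ∘ ofComplex) h)
    (hhol : MDifferentiable 𝓘(ℂ) 𝓘(ℂ) f) (hbdd : IsBoundedAtImInfty f) :
    NormSummable (qCoeffSeq h f) :=
  normSummable_of_hasSum hh (hasSum_qCoeffSeq hh hper hhol hbdd)

lemma qCoeffSeq_zero (hh : 0 < h) (hper : Periodic (f ∘ ofComplex) h)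
    (hhol : MDifferentiable 𝓘(ℂ) 𝓘(ℂ) f) (hzero : IsZeroAtImInfty f) : qCoeffSeq h f 0 = 0 := by
  have hbdd : IsBoundedAtImInfty f := hzero.isBoundedAtImInfty
  have han := analyticAt_cuspFunction_zero hh hper hhol hbdd
  rw [qCoeffSeq, qExpansion_coeff_zero hh han hper, hzero.valueAtInfty_eq_zero]

/-- (A1') the level `0` Eichler series of the `q`-expansion of `f` is `f`. -/
theorem eichlerSeries_qCoeffSeq_zero (hh : 0 < h) (hper : Periodic (f ∘ ofComplex) h)
    (hhol : MDifferentiable 𝓘(ℂ) 𝓘(ℂ) f) (hzero : IsZeroAtImInfty f) :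
    eichlerSeries h (qCoeffSeq h f) 0 = f :=
  eichlerSeries_zero_eq (qCoeffSeq_zero hh hper hhol hzero)
    (hasSum_qCoeffSeq hh hper hhol hzero.isBoundedAtImInfty)

/-- The `m`-fold Eichler primitive of a periodic holomorphic function vanishing at `i∞`. -/
noncomputable def eichlerPrimitive (h : ℝ) (f : ℍ → ℂ) (m : ℕ) : ℍ → ℂ :=
  eichlerSeries h (qCoeffSeq h f) m

/-- Summary: the `m`-th derivative of the `m`-fold Eichler primitive is `f`. -/
theorem iteratedDeriv_eichlerPrimitive (hh : 0 < h) (hper : Periodic (f ∘ ofComplex) h)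
    (hhol : MDifferentiable 𝓘(ℂ) 𝓘(ℂ) f) (hzero : IsZeroAtImInfty f) (m : ℕ) {z : ℂ}
    (hz : 0 < z.im) :
    iteratedDeriv m (eichlerPrimitive h f m ∘ ofComplex) z = f (ofComplex z) := by
  have hb := normSummable_qCoeffSeq hh hper hhol hzero.isBoundedAtImInfty
  have := iteratedDeriv_eichlerSeries hh hb 0 m hz
  rw [zero_add] at this
  rw [eichlerPrimitive, this, eichlerSeries_qCoeffSeq_zero hh hper hhol hzero]

end Periodic

end Fermat.Agent.S22.H88
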