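import Fermat.Agent.S22.Defs

set_option autoImplicit false

open UpperHalfPlane ModularForm
open scoped MatrixGroups Manifold

noncomputable section

namespace Fermat.Agent.S22

local notation "D" => Derivative.normalizedDerivOfComplex

/-- The polynomial attached to a coefficient vector. -/
def polyOf (n : ℕ) (v : Fin n → ℂ) : Polynomial ℂ :=
  ∑ i : Fin n, Polynomial.C (v i) * Polynomial.X ^ (i : ℕ)

theorem polyFun_apply' (n : ℕ) (v : Fin n → ℂ) (τ : ℍ) :
    polyFun n v τ = ∑ i : Fin n, v i * (τ : ℂ) ^ (i : ℕ) := rfl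

theorem polyFun_eq_eval (n : ℕ) (v : Fin n → ℂ) (τ : ℍ) :
    polyFun n v τ = (polyOf n v).eval (τ : ℂ) := by
  simp [polyFun_apply', polyOf, Polynomial.eval_finsetSum]

theorem polyOf_coeff (n : ℕ) (v : Fin n → ℂ) (i : Fin n) : (polyOf n v).coeff (i : ℕ) = v i := by
  classical
  simp only [polyOf, Polynomial.finsetSum_coeff, Polynomial.coeff_C_mul, Polynomial.coeff_X_pow]
  rw [Finset.sum_eq_single i]
  · simp
  · intro j _ hj
    have : (i : ℕ) ≠ (j : ℕ) := fun h => hj (Fin.ext h.symm)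
    simp [this]
  · simp

theorem polyOf_coeff_of_le (n : ℕ) (v : Fin n → ℂ) (m : ℕ) (hm : n ≤ m) :
    (polyOf n v).coeff m = 0 := by
  classical
  simp only [polyOf, Polynomial.finsetSum_coeff, Polynomial.coeff_C_mul, Polynomial.coeff_X_pow]
  apply Finset.sum_eq_zero
  intro j _
  have : m ≠ (j : ℕ) := by have := j.2; omega
  simp [this]

theorem infinite_upperHalfPlane_coe : Set.Infinite {z : ℂ | 0 < z.im} := by
  apply Set.infinite_of_injective_forall_mem (f := fun m : ℕ => (m : ℂ) + Complex.I)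
  · intro a b hab
    have := congrArg Complex.re hab
    simpa using this
  · intro m
    simp

theorem polyOf_eq_zero_of_forall (p : Polynomial ℂ) (h : ∀ τ : ℍ, p.eval (τ : ℂ) = 0) : p = 0 := by
  apply Polynomial.eq_zero_of_infinite_isRoot
  apply infinite_upperHalfPlane_coe.mono
  intro z hz
  exact h ⟨z, hz⟩

theorem polyFun_injective (n : ℕ) : Function.Injective (polyFun n) := by
  rw [← LinearMap.ker_eq_bot, LinearMap.ker_eq_bot']
  intro v hv
  have h0 : polyOf n v = 0 := by
    apply polyOf_eq_zero_of_forall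
    intro τ
    rw [← polyFun_eq_eval, hv]
    rfl
  funext i
  rw [← polyOf_coeff n v i, h0]
  simp


/-- On the upper half plane the extension of `polyFun n v` agrees with the polynomial sum. -/
theorem polyFun_comp_ofComplex_eventuallyEq (n : ℕ) (v : Fin n → ℂ) {z : ℂ} (hz : 0 < z.im) :
    (polyFun n v ∘ ofComplex) =ᶠ[nhds z] fun w => ∑ i : Fin n, v i * w ^ (i : ℕ) := by
  filter_upwards [isOpen_upperHalfPlaneSet.mem_nhds hz] with w hw
  simp only [Function.comp_apply, ofComplex_apply_of_im_pos hw, polyFun_apply']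

theorem polyFun_mdiff (n : ℕ) (v : Fin n → ℂ) : MDiff (polyFun n v) := by
  rw [UpperHalfPlane.mdifferentiable_iff]
  intro z hz
  apply DifferentiableAt.differentiableWithinAt
  have h : DifferentiableAt ℂ (fun w : ℂ => ∑ i : Fin n, v i * w ^ (i : ℕ)) z := by fun_prop
  exact h.congr_of_eventuallyEq (polyFun_comp_ofComplex_eventuallyEq n v hz)

theorem hasDerivAt_polySum (n : ℕ) (v : Fin (n + 1) → ℂ) (z : ℂ) :
    HasDerivAt (fun w : ℂ => ∑ i : Fin (n + 1), v i * w ^ (i : ℕ))
      (∑ i : Fin n, (((i : ℕ) : ℂ) + 1) * v i.succ * z ^ (i : ℕ)) z := by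
  have h : ∀ i ∈ (Finset.univ : Finset (Fin (n + 1))),
      HasDerivAt (fun w : ℂ => v i * w ^ (i : ℕ)) (v i * (((i : ℕ) : ℂ) * z ^ ((i : ℕ) - 1))) z := by
    intro i _
    exact (hasDerivAt_pow (i : ℕ) z).const_mul (v i)
  refine (HasDerivAt.fun_sum h).congr_deriv ?_
  rw [Fin.sum_univ_succ]
  simp only [Fin.val_zero, Nat.cast_zero, zero_mul, mul_zero, zero_add, Fin.val_succ,
    Nat.cast_add, Nat.cast_one, Nat.add_sub_cancel]
  apply Finset.sum_congr rfl
  intro i _
  ring

/-- The normalised derivative of a polynomial function. -/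
theorem D_polyFun_succ (n : ℕ) (v : Fin (n + 1) → ℂ) :
    D (polyFun (n + 1) v) =
      polyFun n (fun i : Fin n => (2 * Real.pi * Complex.I)⁻¹ * ((((i : ℕ) : ℂ) + 1) * v i.succ)) := by
  funext τ
  have hd : deriv (polyFun (n + 1) v ∘ ofComplex) (τ : ℂ) =
      ∑ i : Fin n, (((i : ℕ) : ℂ) + 1) * v i.succ * (τ : ℂ) ^ (i : ℕ) :=
    ((hasDerivAt_polySum n v τ).congr_of_eventuallyEq
      (polyFun_comp_ofComplex_eventuallyEq (n + 1) v τ.im_pos)).deriv
  simp only [Derivative.normalizedDerivOfComplex, hd, polyFun_apply', Finset.mul_sum]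
  apply Finset.sum_congr rfl
  intro i _
  ring

theorem eq_const_of_D_eq_zero {G : ℍ → ℂ} (hG : MDiff G) (h : D G = 0) :
    ∃ c : ℂ, ∀ τ : ℍ, G τ = c := by
  rw [UpperHalfPlane.mdifferentiable_iff] at hG
  have hpi : (2 * (Real.pi : ℂ) * Complex.I)⁻¹ ≠ 0 := by
    apply inv_ne_zero
    simp [Real.pi_ne_zero]
  have hderiv : Set.EqOn (deriv (G ∘ ofComplex)) 0 {z : ℂ | 0 < z.im} := by
    intro z hz
    have := congrFun h ⟨z, hz⟩
    simp only [Derivative.normalizedDerivOfComplex, Pi.zero_apply, mul_eq_zero] at this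
    rcases this with h1 | h1
    · exact absurd h1 hpi
    · simpa using h1
  obtain ⟨a, ha⟩ := isOpen_upperHalfPlaneSet.exists_is_const_of_deriv_eq_zero
    (convex_halfSpace_im_gt 0).isPreconnected hG hderiv
  refine ⟨a, fun τ => ?_⟩
  have := ha (τ : ℂ) τ.im_pos
  simpa using this

/-- A holomorphic function killed by `D^n` is a polynomial of degree `< n`. -/
theorem exists_polyFun_of_Dn_eq_zero (n : ℕ) {F : ℍ → ℂ} (hF : MDiff F) (h0 : Dn n F = 0) :
    ∃ v : Fin n → ℂ, F = polyFun n v := by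
  induction n generalizing F with
  | zero =>
    refine ⟨fun _ => 0, ?_⟩
    have : F = 0 := h0
    rw [this]
    exact (map_zero (polyFun 0)).symm
  | succ n ih =>
    have hDF : MDiff (D F) := Derivative.normalizedDerivOfComplex_mdifferentiable hF
    have h1 : Dn n (D F) = 0 := h0
    obtain ⟨w, hw⟩ := ih hDF h1
    have hpi : (2 * (Real.pi : ℂ) * Complex.I) ≠ 0 := by simp [Real.pi_ne_zero]
    -- a primitive of `polyFun n w`
    let v : Fin (n + 1) → ℂ := Fin.cons 0
      (fun i : Fin n => (2 * Real.pi * Complex.I) * w i / (((i : ℕ) : ℂ) + 1))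
    have hv : D (polyFun (n + 1) v) = polyFun n w := by
      rw [D_polyFun_succ]
      congr 1
      funext i
      have hi : (((i : ℕ) : ℂ) + 1) ≠ 0 := by exact_mod_cast Nat.succ_ne_zero (i : ℕ)
      simp only [v, Fin.cons_succ]
      field_simp
    have hG : MDiff (F - polyFun (n + 1) v) := hF.sub (polyFun_mdiff _ _)
    have hDG : D (F - polyFun (n + 1) v) = 0 := by
      rw [Derivative.normalizedDerivOfComplex_sub _ _ hF (polyFun_mdiff _ _), hv, hw, sub_self]
    obtain ⟨c, hc⟩ := eq_const_of_D_eq_zero hG hDG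
    refine ⟨v + Fin.cons c (fun _ => 0), ?_⟩
    funext τ
    have h2 := hc τ
    simp only [Pi.sub_apply] at h2
    rw [map_add, Pi.add_apply]
    have h3 : polyFun (n + 1) (Fin.cons c (fun _ => 0) : Fin (n + 1) → ℂ) τ = c := by
      rw [polyFun_apply', Fin.sum_univ_succ]
      simp
    rw [h3, ← h2]
    ring


/-- A periodic polynomial function is constant, hence bounded at infinity. -/
theorem polyFun_bdd_of_periodic (n : ℕ) (v : Fin n → ℂ) {h : ℝ} (hh : 0 < h)
    (hper : Function.Periodic (polyFun n v ∘ ofComplex) h) :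
    IsBoundedAtImInfty (polyFun n v) := by
  set p := polyOf n v with hp
  -- `p (z + h) = p z` on the upper half plane
  have hstep : ∀ z : ℂ, 0 < z.im → p.eval (z + h) = p.eval z := by
    intro z hz
    have hz' : 0 < (z + (h : ℂ)).im := by simpa using hz
    have := hper z
    simp only [Function.comp_apply, ofComplex_apply_of_im_pos hz, ofComplex_apply_of_im_pos hz',
      polyFun_eq_eval] at this
    exact this
  have hiter : ∀ m : ℕ, p.eval (Complex.I + m * h) = p.eval Complex.I := by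
    intro m
    induction m with
    | zero => simp
    | succ m ih =>
      have him : 0 < (Complex.I + (m : ℂ) * (h : ℂ)).im := by simp
      have := hstep _ him
      rw [← ih, ← this]
      congr 1
      push_cast
      ring
  have hconst : p = Polynomial.C (p.eval Complex.I) := by
    rw [← sub_eq_zero]
    apply Polynomial.eq_zero_of_infinite_isRoot
    apply Set.infinite_of_injective_forall_mem (f := fun m : ℕ => Complex.I + (m : ℂ) * (h : ℂ))
    · intro a b hab
      have h1 : ((a : ℂ) * (h : ℂ)) = (b : ℂ) * (h : ℂ) := add_left_cancel hab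
      have h2 : (h : ℂ) ≠ 0 := by exact_mod_cast hh.ne'
      exact_mod_cast mul_right_cancel₀ h2 h1
    · intro m
      simp only [Set.mem_ofPred_eq, Polynomial.IsRoot.def, Polynomial.eval_sub, Polynomial.eval_C,
        hiter m, sub_self]
  rw [UpperHalfPlane.isBoundedAtImInfty_iff]
  refine ⟨‖p.eval Complex.I‖, 0, fun z _ => ?_⟩
  rw [polyFun_eq_eval, ← hp, hconst]
  simp

/-- Evaluating a column of `intMat`. -/
theorem intMat_eval (n : ℕ) (a b c d : ℤ) (j : Fin n) (z : ℂ) :
    ∑ i : Fin n, ((intMat n a b c d i j : ℤ) : ℂ) * z ^ (i : ℕ) =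
      ((a : ℂ) * z + b) ^ (j : ℕ) * ((c : ℂ) * z + d) ^ (n - 1 - (j : ℕ)) := by
  set q : Polynomial ℤ := (Polynomial.C a * Polynomial.X + Polynomial.C b) ^ (j : ℕ) *
    (Polynomial.C c * Polynomial.X + Polynomial.C d) ^ (n - 1 - (j : ℕ)) with hq
  have hdeg : q.natDegree < n := by
    have h1 : (Polynomial.C a * Polynomial.X + Polynomial.C b : Polynomial ℤ).natDegree ≤ 1 :=
      Polynomial.natDegree_linear_le
    have h2 : (Polynomial.C c * Polynomial.X + Polynomial.C d : Polynomial ℤ).natDegree ≤ 1 :=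
      Polynomial.natDegree_linear_le
    have h3 : q.natDegree ≤ (j : ℕ) * 1 + (n - 1 - (j : ℕ)) * 1 := by
      refine (Polynomial.natDegree_mul_le).trans (add_le_add ?_ ?_)
      · exact (Polynomial.natDegree_pow_le).trans (Nat.mul_le_mul_left _ h1)
      · exact (Polynomial.natDegree_pow_le).trans (Nat.mul_le_mul_left _ h2)
    have := j.2
    omega
  have h := Polynomial.eval₂_eq_sum_range' (Int.castRingHom ℂ) hdeg z
  rw [Finset.sum_range] at h
  have h' : Polynomial.eval₂ (Int.castRingHom ℂ) z q =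
      ((a : ℂ) * z + b) ^ (j : ℕ) * ((c : ℂ) * z + d) ^ (n - 1 - (j : ℕ)) := by
    rw [hq]
    simp only [Polynomial.eval₂_mul, Polynomial.eval₂_pow, Polynomial.eval₂_add,
      Polynomial.eval₂_C, Polynomial.eval₂_X]
    simp only [eq_intCast]
  rw [← h', h]
  rfl

/-- Integral matrices act integrally in weight `1 - n` (up to the determinant factor). -/
theorem polyFun_slash (n : ℕ) (v : Fin n → ℂ) (g : GL (Fin 2) ℝ) (a b c d : ℤ)
    (h00 : g 0 0 = a) (h01 : g 0 1 = b) (h10 : g 1 0 = c) (h11 : g 1 1 = d)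
    (hdet : 0 < g.val.det) :
    (polyFun n v) ∣[(1 : ℤ) - n] g =
      ((g.val.det : ℂ)⁻¹) ^ n • polyFun n (((intMat n a b c d).map (Int.cast : ℤ → ℂ)).mulVec v) := by
  have hdet' : 0 < g.det.val := by rwa [Matrix.GeneralLinearGroup.val_det_apply]
  funext τ
  have hσ : ∀ x : ℂ, σ g x = x := by
    intro x
    rw [σ, if_pos hdet']
    rfl
  have hden : denom g τ ≠ 0 := denom_ne_zero g τ
  have hnum : num g τ = (a : ℂ) * τ + b := by
    simp only [num, h00, h01]
    push_cast
    rfl
  have hden' : denom g τ = (c : ℂ) * τ + d := by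
    simp only [denom, h10, h11]
    push_cast
    rfl
  rw [ModularForm.slash_apply, hσ, polyFun_apply', Pi.smul_apply, polyFun_apply', smul_eq_mul,
    UpperHalfPlane.coe_smul_of_det_pos hdet', Matrix.GeneralLinearGroup.val_det_apply,
    abs_of_pos hdet]
  -- right hand side
  have hR : ∑ i : Fin n, ((intMat n a b c d).map (Int.cast : ℤ → ℂ)).mulVec v i * (τ : ℂ) ^ (i : ℕ) =
      ∑ j : Fin n, v j * (num g τ ^ (j : ℕ) * denom g τ ^ (n - 1 - (j : ℕ))) := by
    simp only [Matrix.mulVec, dotProduct, Matrix.map_apply, Finset.sum_mul]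
    rw [Finset.sum_comm]
    apply Finset.sum_congr rfl
    intro j _
    rw [hnum, hden', ← intMat_eval n a b c d j (τ : ℂ), Finset.mul_sum]
    apply Finset.sum_congr rfl
    intro i _
    ring
  rw [hR, Finset.sum_mul, Finset.sum_mul, Finset.mul_sum]
  apply Finset.sum_congr rfl
  intro j _
  have hj : (j : ℕ) < n := j.2
  have e1 : ((1 : ℤ) - (n : ℤ)) - 1 = -(n : ℤ) := by ring
  have e2 : -((1 : ℤ) - (n : ℤ)) = ((n - 1 - (j : ℕ) : ℕ) : ℤ) + ((j : ℕ) : ℤ) := by
    have : ((n - 1 - (j : ℕ) : ℕ) : ℤ) = (n : ℤ) - 1 - (j : ℕ) := by omega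
    rw [this]
    ring
  rw [e1, e2, zpow_add₀ hden, zpow_natCast, zpow_natCast, zpow_neg, zpow_natCast, div_pow,
    ← inv_pow]
  have hdj : denom g τ ^ (j : ℕ) ≠ 0 := pow_ne_zero _ hden
  field_simp

theorem polyFun_slash_SL (n : ℕ) (v : Fin n → ℂ) (g : SL(2, ℤ)) :
    (polyFun n v) ∣[(1 : ℤ) - n] g =
      polyFun n (((intMat n (g 0 0) (g 0 1) (g 1 0) (g 1 1)).map (Int.cast : ℤ → ℂ)).mulVec v) := by
  have hdet : ((g : GL (Fin 2) ℝ).val.det) = 1 := by
    rw [← Matrix.GeneralLinearGroup.val_det_apply]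
    simp
  have h := polyFun_slash n v (g : GL (Fin 2) ℝ) (g 0 0) (g 0 1) (g 1 0) (g 1 1)
    (by simp) (by simp) (by simp) (by simp) (by rw [hdet]; exact one_pos)
  rw [ModularForm.SL_slash, h, hdet]
  simp

end Fermat.Agent.S22
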