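import Fermat.Agent.S22.Defs
import Fermat.Agent.S22.H30_Bol

set_option autoImplicit false

open UpperHalfPlane ModularForm CongruenceSubgroup
open scoped MatrixGroups Manifold

noncomputable section

namespace Fermat.Agent.S22

local notation "D" => Derivative.normalizedDerivOfComplex

theorem Dn_zero (F : ℍ → ℂ) : Dn 0 F = F := rfl

theorem Dn_succ (n : ℕ) (F : ℍ → ℂ) : Dn (n + 1) F = Dn n (D F) := rfl

theorem Dn_succ' (n : ℕ) (F : ℍ → ℂ) : Dn (n + 1) F = D (Dn n F) := by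
  simp [Dn, Function.iterate_succ_apply']

theorem Dn_mdiff (n : ℕ) {F : ℍ → ℂ} (hF : MDiff F) : MDiff (Dn n F) :=
  H30.mdiff_iterate_D hF n

theorem Dn_add (n : ℕ) {F G : ℍ → ℂ} (hF : MDiff F) (hG : MDiff G) :
    Dn n (F + G) = Dn n F + Dn n G := H30.iterate_D_add hF hG n

theorem Dn_sub (n : ℕ) {F G : ℍ → ℂ} (hF : MDiff F) (hG : MDiff G) :
    Dn n (F - G) = Dn n F - Dn n G := H30.iterate_D_sub hF hG n

theorem Dn_smul (n : ℕ) (c : ℂ) {F : ℍ → ℂ} (hF : MDiff F) :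
    Dn n (c • F) = c • Dn n F := H30.iterate_D_smul c hF n

theorem Dn_zero_fun (n : ℕ) : Dn n (0 : ℍ → ℂ) = 0 := H30.iterate_D_zero n

/-- Bol's identity. -/
theorem bol (n : ℕ) {F : ℍ → ℂ} (hF : MDiff F) {g : GL (Fin 2) ℝ} (hg : 0 < g.val.det) :
    Dn n (F ∣[(1 : ℤ) - n] g) = ((g.val.det : ℂ)⁻¹) ^ n • ((Dn n F) ∣[(n : ℤ) + 1] g) := by
  cases n with
  | zero => simp [Dn]
  | succ m =>
    have h := H30.bol hF m hg
    have e1 : (1 : ℤ) - ((m + 1 : ℕ) : ℤ) = -(m : ℤ) := by push_cast; ring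
    have e2 : ((m + 1 : ℕ) : ℤ) + 1 = (m : ℤ) + 2 := by push_cast; ring
    rw [e1, e2]
    show D^[m + 1] (F ∣[-(m : ℤ)] g) = _
    rw [h]
    funext z
    simp [Dn, inv_pow]

theorem bol_SL (n : ℕ) {F : ℍ → ℂ} (hF : MDiff F) (g : SL(2, ℤ)) :
    Dn n (F ∣[(1 : ℤ) - n] g) = (Dn n F) ∣[(n : ℤ) + 1] g := by
  cases n with
  | zero => simp [Dn]
  | succ m =>
    have h := H30.bol_SL hF m g
    have e1 : (1 : ℤ) - ((m + 1 : ℕ) : ℤ) = -(m : ℤ) := by push_cast; ring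
    have e2 : ((m + 1 : ℕ) : ℤ) + 1 = (m : ℤ) + 2 := by push_cast; ring
    rw [e1, e2]
    exact h

end Fermat.Agent.S22
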