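import Fermat.Agent.S22.Defs
import Fermat.Agent.S22.H88_EichlerSeries

/-!
Section [C] of the S22 skeleton: Eichler integrals `eichler h n F`, general period `h`.
-/

set_option autoImplicit false

open UpperHalfPlane ModularForm
open scoped MatrixGroups Manifold Real

noncomputable section

namespace Fermat.Agent.S22

local notation "D" => Derivative.normalizedDerivOfComplex
local notation "𝕢" => Function.Periodic.qParam

namespace SecCAux

open H88

/-- The coefficient sequence of `eichler h n F`. -/
def kCoeff (h : ℝ) (F : ℍ → ℂ) (n : ℕ) (m : ℕ) : ℂ :=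
  (qExpansion h F).coeff m * ((h : ℂ) / (m : ℂ)) ^ n

lemma eichler_eq_qSeries (h : ℝ) (n : ℕ) (F : ℍ → ℂ) (τ : ℍ) :
    eichler h n F τ = qSeries h (kCoeff h F n) τ := rfl

lemma norm_div_pow_le {h : ℝ} (hh : 0 < h) (n m : ℕ) :
    ‖((h : ℂ) / (m : ℂ)) ^ n‖ ≤ h ^ n := by
  rw [norm_pow, norm_div, Complex.norm_real, Complex.norm_natCast, Real.norm_eq_abs,
    abs_of_pos hh]
  apply pow_le_pow_left₀ (by positivity)
  rcases Nat.eq_zero_or_pos m with rfl | hm
  · simp [hh.le]
  · have : (1 : ℝ) ≤ m := by exact_mod_cast hm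
    exact div_le_self hh.le this

lemma normSummable_kCoeff {h : ℝ} (hh : 0 < h) {F : ℍ → ℂ}
    (hb : NormSummable (qCoeffSeq h F)) (n : ℕ) : NormSummable (kCoeff h F n) := by
  intro r hr0 hr1
  have := (hb r hr0 hr1).mul_left (h ^ n)
  refine Summable.of_nonneg_of_le (fun m => by positivity) (fun m => ?_) this
  rw [kCoeff, norm_mul]
  calc ‖(qExpansion h F).coeff m‖ * ‖((h : ℂ) / (m : ℂ)) ^ n‖ * r ^ m
      ≤ ‖(qExpansion h F).coeff m‖ * h ^ n * r ^ m := by
        apply mul_le_mul_of_nonneg_right _ (by positivity)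
        exact mul_le_mul_of_nonneg_left (norm_div_pow_le hh n m) (norm_nonneg _)
    _ = h ^ n * (‖qCoeffSeq h F m‖ * r ^ m) := by rw [qCoeffSeq]; ring

lemma kCoeff_succ_mul {h : ℝ} (hh : h ≠ 0) {F : ℍ → ℂ} (h0 : (qExpansion h F).coeff 0 = 0)
    (n m : ℕ) :
    kCoeff h F (n + 1) m * (2 * π * Complex.I * m / h) =
      (2 * π * Complex.I) * kCoeff h F n m := by
  rcases Nat.eq_zero_or_pos m with rfl | hm
  · simp [kCoeff, h0]
  · have hm' : (m : ℂ) ≠ 0 := by exact_mod_cast hm.ne'
    have hh' : (h : ℂ) ≠ 0 := by exact_mod_cast hh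
    simp only [kCoeff, pow_succ]
    field_simp

end SecCAux

open SecCAux H88

section eichler

variable {h : ℝ} (hh : 0 < h) (n : ℕ) {F : ℍ → ℂ}
  (hper : Function.Periodic (F ∘ ofComplex) h) (hhol : MDiff F) (hzero : IsZeroAtImInfty F)

include hh hper hhol hzero

theorem eichler_hasSum (τ : ℍ) :
    HasSum (fun m : ℕ => (qExpansion h F).coeff m * ((h : ℂ) / (m : ℂ)) ^ n *
      (Function.Periodic.qParam h τ) ^ m) (eichler h n F τ) := by
  have hb := normSummable_qCoeffSeq hh hper hhol hzero.isBoundedAtImInfty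
  exact ((normSummable_kCoeff hh hb n).summable_qParam hh τ.im_pos).hasSum

theorem eichler_hasDerivAt {z : ℂ} (hz : 0 < z.im) :
    HasDerivAt (eichler h (n + 1) F ∘ ofComplex)
      ((2 * π * Complex.I) * eichler h n F (ofComplex z)) z := by
  have hb := normSummable_qCoeffSeq hh hper hhol hzero.isBoundedAtImInfty
  have h0 : (qExpansion h F).coeff 0 = 0 := qCoeffSeq_zero hh hper hhol hzero
  have h1 := hasDerivAt_qSeries hh (normSummable_kCoeff hh hb (n + 1)) hz
  have heq : (fun m : ℕ => kCoeff h F (n + 1) m * (2 * π * Complex.I * m / h)) =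
      fun m => (2 * π * Complex.I) * kCoeff h F n m := by
    funext m; exact kCoeff_succ_mul hh.ne' h0 n m
  rw [heq] at h1
  have hev : (eichler h (n + 1) F ∘ ofComplex) =ᶠ[nhds z] qSeries h (kCoeff h F (n + 1)) := by
    have hopen : IsOpen {w : ℂ | 0 < w.im} := isOpen_lt continuous_const Complex.continuous_im
    filter_upwards [hopen.mem_nhds hz] with w hw
    simp only [Function.comp_apply, ofComplex_apply_of_im_pos hw]
    rfl
  refine (h1.congr_of_eventuallyEq hev).congr_deriv ?_
  rw [ofComplex_apply_of_im_pos hz, eichler_eq_qSeries]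
  simp only [qSeries]
  rw [← tsum_mul_left]
  congr 1
  funext m
  ring

theorem eichler_mdiff : MDiff (eichler h n F) := by
  have hb := normSummable_qCoeffSeq hh hper hhol hzero.isBoundedAtImInfty
  rw [UpperHalfPlane.mdifferentiable_iff]
  intro z hz
  have hz' : 0 < z.im := hz
  have h1 := differentiableAt_qSeries hh (normSummable_kCoeff hh hb n) hz'
  have hev : (eichler h n F ∘ ofComplex) =ᶠ[nhds z] qSeries h (kCoeff h F n) := by
    have hopen : IsOpen {w : ℂ | 0 < w.im} := isOpen_lt continuous_const Complex.continuous_im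
    filter_upwards [hopen.mem_nhds hz'] with w hw
    simp only [Function.comp_apply, ofComplex_apply_of_im_pos hw]
    rfl
  exact (h1.congr_of_eventuallyEq hev).differentiableWithinAt

theorem eichler_zero : eichler h 0 F = F := by
  funext τ
  have h1 := hasSum_qCoeffSeq hh hper hhol hzero.isBoundedAtImInfty τ
  have h2 := eichler_hasSum hh 0 hper hhol hzero τ
  simp only [pow_zero, mul_one] at h2
  simp only [qCoeffSeq, smul_eq_mul] at h1
  exact h2.unique h1

theorem D_eichler_succ : D (eichler h (n + 1) F) = eichler h n F := by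
  funext τ
  have h1 := (eichler_hasDerivAt hh n hper hhol hzero τ.im_pos).deriv
  simp only [Derivative.normalizedDerivOfComplex]
  rw [h1, ofComplex_apply]
  have : (2 * π * Complex.I : ℂ) ≠ 0 := Complex.two_pi_I_ne_zero
  field_simp

theorem Dn_eichler : Dn n (eichler h n F) = F := by
  induction n with
  | zero => exact eichler_zero hh hper hhol hzero
  | succ n ih =>
    show Dn n (D (eichler h (n + 1) F)) = F
    rw [D_eichler_succ hh n hper hhol hzero]
    exact ih

theorem eichler_periodic : Function.Periodic (eichler h n F ∘ ofComplex) h := by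
  intro w
  by_cases hw : 0 < w.im
  · have hw' : 0 < (w + h).im := by simpa using hw
    simp only [Function.comp_apply, ofComplex_apply_of_im_pos hw,
      ofComplex_apply_of_im_pos hw', eichler_eq_qSeries]
    exact qSeries_periodic hh.ne' _ w
  · have hw1 : w.im ≤ 0 := not_lt.mp hw
    have hw' : (w + h).im ≤ 0 := by simpa using hw1
    simp only [Function.comp_apply]
    rw [ofComplex_apply_of_im_nonpos hw', ofComplex_apply_of_im_nonpos hw1]

theorem eichler_bdd : IsBoundedAtImInfty (eichler h n F) :=
  isBoundedAtImInfty_of_hasSum_qExpansion hh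
    (c := fun m => (qExpansion h F).coeff m * ((h : ℂ) / (m : ℂ)) ^ n)
    (fun τ => by simpa [smul_eq_mul] using eichler_hasSum hh n hper hhol hzero τ)

theorem qExpansion_eichler (m : ℕ) :
    (qExpansion h (eichler h n F)).coeff m =
      (qExpansion h F).coeff m * ((h : ℂ) / (m : ℂ)) ^ n := by
  have han : AnalyticAt ℂ (cuspFunction h (eichler h n F)) 0 :=
    analyticAt_cuspFunction_zero hh (eichler_periodic hh n hper hhol hzero)
      (eichler_mdiff hh n hper hhol hzero) (eichler_bdd hh n hper hhol hzero)
  exact qExpansion_coeff_eq_of_hasSum hh han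
    (c := fun m => (qExpansion h F).coeff m * ((h : ℂ) / (m : ℂ)) ^ n)
    (fun τ => by simpa [smul_eq_mul] using eichler_hasSum hh n hper hhol hzero τ) m

/-- Eichler integrals of functions vanishing at `i∞` vanish at `i∞`. -/
theorem eichler_isZeroAtImInfty : IsZeroAtImInfty (eichler h n F) := by
  have hper' := eichler_periodic hh n hper hhol hzero
  have han : AnalyticAt ℂ (cuspFunction h (eichler h n F)) 0 :=
    analyticAt_cuspFunction_zero hh hper'
      (eichler_mdiff hh n hper hhol hzero) (eichler_bdd hh n hper hhol hzero)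
  have h0 : cuspFunction h (eichler h n F) 0 = 0 := by
    have h1 := qExpansion_coeff_zero hh han hper'
    rw [qExpansion_eichler hh n hper hhol hzero 0,
      show (qExpansion h F).coeff 0 = 0 from qCoeffSeq_zero hh hper hhol hzero, zero_mul] at h1
    rw [cuspFunction_apply_zero hh han hper']
    exact h1.symm
  have hcomp : (cuspFunction h (eichler h n F) ∘ fun τ : ℍ => 𝕢 h τ) = eichler h n F := by
    funext τ
    exact eq_cuspFunction τ hh.ne' hper'
  have := han.continuousAt.tendsto.comp (qParam_tendsto_atImInfty hh)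
  rw [hcomp, h0] at this
  exact this

/-- Alias in the name requested by the integrator. -/
theorem eichler_zeroAt : IsZeroAtImInfty (eichler h n F) :=
  eichler_isZeroAtImInfty hh n hper hhol hzero

end eichler

theorem eichler_add {h : ℝ} (hh : 0 < h) (n : ℕ) {F G : ℍ → ℂ}
    (hFper : Function.Periodic (F ∘ ofComplex) h) (hFhol : MDiff F) (hFzero : IsZeroAtImInfty F)
    (hGper : Function.Periodic (G ∘ ofComplex) h) (hGhol : MDiff G) (hGzero : IsZeroAtImInfty G) :
    eichler h n (F + G) = eichler h n F + eichler h n G := by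
  have hFan := analyticAt_cuspFunction_zero hh hFper hFhol hFzero.isBoundedAtImInfty
  have hGan := analyticAt_cuspFunction_zero hh hGper hGhol hGzero.isBoundedAtImInfty
  have hq : qExpansion h (F + G) = qExpansion h F + qExpansion h G := qExpansion_add hFan hGan
  funext τ
  have h1 := eichler_hasSum hh n hFper hFhol hFzero τ
  have h2 := eichler_hasSum hh n hGper hGhol hGzero τ
  have h3 := h1.add h2
  rw [Pi.add_apply, ← h3.tsum_eq]
  simp only [eichler, hq, map_add]
  congr 1
  funext m
  ring

theorem eichler_smul {h : ℝ} (hh : 0 < h) (n : ℕ) (c : ℂ) {F : ℍ → ℂ}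
    (hFper : Function.Periodic (F ∘ ofComplex) h) (hFhol : MDiff F) (hFzero : IsZeroAtImInfty F) :
    eichler h n (c • F) = c • eichler h n F := by
  have hFan := analyticAt_cuspFunction_zero hh hFper hFhol hFzero.isBoundedAtImInfty
  have hq : qExpansion h (c • F) = c • qExpansion h F := qExpansion_smul hFan c
  funext τ
  simp only [eichler, hq, Pi.smul_apply, smul_eq_mul, map_smul]
  rw [← tsum_mul_left]
  congr 1
  funext m
  ring

end Fermat.Agent.S22
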