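import Fermat.Agent.S22.Defs
import Fermat.Agent.S22.SecA
import Fermat.Agent.S22.PolyFun
import Fermat.Agent.S22.SecC
import Fermat.Agent.S22.H39_Vanishing
import Fermat.Agent.S22.H39_CuspPeriodic
import Fermat.Prelude.Thm_CongruenceSubgroup_one_mem_strictPeriods_Gamma0

/-!
Separation: the injectivity half of Eichler-Shimura (Skeleton section D,
`eq_zero_of_periodFun_eq_zero`).
-/

set_option autoImplicit false

open UpperHalfPlane ModularForm CongruenceSubgroup
open scoped MatrixGroups Manifold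

noncomputable section

namespace Fermat.Agent.S22.H88

variable {N : ℕ} [NeZero N] (n : ℕ)

theorem cuspForm_periodic_one {k : ℤ} (f : CuspForm (Gamma0 N) k) :
    Function.Periodic (⇑f ∘ ofComplex) ((1 : ℝ) : ℂ) :=
  SlashInvariantFormClass.periodic_comp_ofComplex f
    (CongruenceSubgroup.one_mem_strictPeriods_Gamma0 N)

theorem cuspForm_isZeroAtImInfty {k : ℤ} (f : CuspForm (Gamma0 N) k) : IsZeroAtImInfty ⇑f := by
  have := H39.cuspForm_slash_isZeroAtImInfty f 1
  simpa using this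

/-- The Eichler integral of a cusp form, slashed by any element of `SL(2, ℤ)`, is bounded at
`i∞`, provided it is invariant under `Γ₀(N)`. -/
theorem eichler_slash_bdd (f : CuspForm (Gamma0 N) ((n : ℤ) + 1))
    (hinv : ∀ g : SL(2, ℤ), g ∈ Gamma0 N → (eichler 1 n ⇑f) ∣[(1 : ℤ) - n] g = eichler 1 n ⇑f)
    (s : SL(2, ℤ)) : IsBoundedAtImInfty ((eichler 1 n ⇑f) ∣[(1 : ℤ) - n] s) := by
  have hNpos : (0 : ℝ) < (N : ℝ) := by exact_mod_cast Nat.pos_of_ne_zero (NeZero.ne N)
  -- data for f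
  have hfper := cuspForm_periodic_one f
  have hfhol : MDiff (⇑f) := CuspFormClass.holo f
  have hfzero := cuspForm_isZeroAtImInfty f
  -- E
  set E := eichler 1 n ⇑f with hE
  have hEhol : MDiff E := eichler_mdiff one_pos n hfper hfhol hfzero
  have hDnE : Dn n E = ⇑f := Dn_eichler one_pos n hfper hfhol hfzero
  -- G = f | s and its Eichler integral of period N
  set G : ℍ → ℂ := (⇑f) ∣[(n : ℤ) + 1] s with hG
  have hGhol : MDiff G := H39.cuspForm_slash_mdiff f s
  have hGzero : IsZeroAtImInfty G := H39.cuspForm_slash_isZeroAtImInfty f s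
  have hGper : Function.Periodic (G ∘ ofComplex) (((N : ℝ)) : ℂ) :=
    H39.cuspForm_slash_periodic' f s
  set E' := eichler (N : ℝ) n G with hE'
  have hE'hol : MDiff E' := eichler_mdiff hNpos n hGper hGhol hGzero
  have hDnE' : Dn n E' = G := Dn_eichler hNpos n hGper hGhol hGzero
  have hE'bdd : IsBoundedAtImInfty E' := eichler_bdd hNpos n hGper hGhol hGzero
  have hE'per : Function.Periodic (E' ∘ ofComplex) (((N : ℝ)) : ℂ) :=
    eichler_periodic hNpos n hGper hGhol hGzero
  -- Bol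
  have hEs_hol : MDiff (E ∣[(1 : ℤ) - n] s) := hEhol.slash _ _
  have hbol : Dn n (E ∣[(1 : ℤ) - n] s) = G := by
    rw [bol_SL n hEhol s, hDnE]
  have hdiff : Dn n (E ∣[(1 : ℤ) - n] s - E') = 0 := by
    rw [Dn_sub n hEs_hol hE'hol, hbol, hDnE', sub_self]
  obtain ⟨v, hv⟩ := exists_polyFun_of_Dn_eq_zero n (hEs_hol.sub hE'hol) hdiff
  -- periodicity of the polynomial
  have hEs_per : Function.Periodic ((E ∣[(1 : ℤ) - n] s) ∘ ofComplex) (((N : ℝ)) : ℂ) :=
    H39.periodic_slash_of_invariant' hinv s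
  have hpoly_per : Function.Periodic (polyFun n v ∘ ofComplex) (((N : ℝ)) : ℂ) := by
    intro w
    have h1 := hEs_per w
    have h2 := hE'per w
    simp only [Function.comp_apply] at h1 h2 ⊢
    rw [← hv]
    simp only [Pi.sub_apply, h1, h2]
  have hpoly_bdd : IsBoundedAtImInfty (polyFun n v) :=
    polyFun_bdd_of_periodic n v hNpos hpoly_per
  have hsum : E ∣[(1 : ℤ) - n] s = E' + polyFun n v := by
    rw [← hv]; abel
  rw [hsum]
  exact hE'bdd.add hpoly_bdd

/-- Separation: the injectivity half of Eichler-Shimura. -/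
theorem eq_zero_of_periodFun_eq_zero (hn : 1 ≤ n) (f : CuspForm (Gamma0 N) ((n : ℤ) + 1))
    (h0 : ∀ g ∈ Gamma0 N, periodFun n f g = 0) : f = 0 := by
  have hfper := cuspForm_periodic_one f
  have hfhol : MDiff (⇑f) := CuspFormClass.holo f
  have hfzero := cuspForm_isZeroAtImInfty f
  have hinv : ∀ g : SL(2, ℤ), g ∈ Gamma0 N →
      (eichler 1 n ⇑f) ∣[(1 : ℤ) - n] g = eichler 1 n ⇑f := by
    intro g hg
    have := h0 g hg
    rw [periodFun, sub_eq_zero] at this
    exact this
  have hEhol : MDiff (eichler 1 n ⇑f) := eichler_mdiff one_pos n hfper hfhol hfzero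
  have hEzero : IsZeroAtImInfty (eichler 1 n ⇑f) :=
    eichler_isZeroAtImInfty one_pos n hfper hfhol hfzero
  have hk : (1 : ℤ) - n ≤ 0 := by omega
  have hE0 : eichler 1 n ⇑f = 0 := by
    refine H39.eq_zero_of_nonpos_weight (Gamma0 N : Subgroup (GL (Fin 2) ℝ)) hk _ hEhol ?_
      (eichler_slash_bdd n f hinv) hEzero
    rintro _ ⟨g, hg, rfl⟩
    exact hinv g hg
  have hf0 : (⇑f : ℍ → ℂ) = 0 := by
    rw [← Dn_eichler one_pos n hfper hfhol hfzero, hE0, Dn_zero_fun]
  ext τ
  rw [hf0]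
  rfl

end Fermat.Agent.S22.H88
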