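import Fermat.Agent.S22.Main

set_option autoImplicit false

open UpperHalfPlane ModularForm CongruenceSubgroup Matrix.SpecialLinearGroup
open scoped MatrixGroups Manifold

noncomputable section

namespace Fermat.Agent.S22

variable {N : ℕ} [NeZero N] (n : ℕ)

theorem periodFun_eq_of_cosets {X : Type} [Fintype X] (A : X → GL (Fin 2) ℝ)
    (a b c d : X → ℤ)
    (h00 : ∀ x, (A x) 0 0 = a x) (h01 : ∀ x, (A x) 0 1 = b x)
    (h10 : ∀ x, (A x) 1 0 = c x) (h11 : ∀ x, (A x) 1 1 = d x)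
    (dt : ℕ) (hdt : 0 < dt) (hdet : ∀ x, (A x).val.det = dt)
    (f f' : CuspForm (Gamma0 N) ((n : ℤ) + 1))
    (ht : eichler 1 n ⇑f' =
      ((dt : ℂ) ^ n) • ∑ x, (eichler 1 n ⇑f) ∣[(1 : ℤ) - n] (A x))
    (g : SL(2, ℤ)) (π : Equiv.Perm X) (g' : X → SL(2, ℤ)) (hg' : ∀ x, g' x ∈ Gamma0 N)
    (hmul : ∀ x, A x * mapGL ℝ g = mapGL ℝ (g' x) * A (π x)) :
    periodFun n ⇑f' g = polyFun n (∑ x, ((intMat n (a (π x)) (b (π x)) (c (π x)) (d (π x))).map
      (Int.cast : ℤ → ℂ)).mulVec (fun j => periodCoeff n (g' x) j f)) := by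
  have hdtC : (dt : ℂ) ≠ 0 := by exact_mod_cast hdt.ne'
  set E := eichler 1 n ⇑f with hE
  have h1 : ∀ x, (E ∣[(1 : ℤ) - n] (A x)) ∣[(1 : ℤ) - n] g =
      (periodFun n ⇑f (g' x)) ∣[(1 : ℤ) - n] (A (π x)) + E ∣[(1 : ℤ) - n] (A (π x)) := by
    intro x
    rw [SL_slash_mapGL, ← SlashAction.slash_mul, hmul x, SlashAction.slash_mul,
      ← SlashAction.add_slash]
    congr 1
    rw [periodFun, ← hE, SL_slash_mapGL]
    abel
  have h2 : ∀ x, (periodFun n ⇑f (g' x)) ∣[(1 : ℤ) - n] (A (π x)) =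
      ((dt : ℂ)⁻¹) ^ n • polyFun n (((intMat n (a (π x)) (b (π x)) (c (π x)) (d (π x))).map
        (Int.cast : ℤ → ℂ)).mulVec (fun j => periodCoeff n (g' x) j f)) := by
    intro x
    rw [periodFun_eq_polyFun n f (hg' x),
      polyFun_slash n _ (A (π x)) _ _ _ _ (h00 _) (h01 _) (h10 _) (h11 _)
        (by rw [hdet]; exact_mod_cast hdt), hdet]
    simp
  rw [periodFun, ht, SL_smul_slash, SlashAction.sum_slash]
  simp_rw [h1, h2]
  rw [Finset.sum_add_distrib, Equiv.sum_comp π (fun x => E ∣[(1 : ℤ) - n] (A x)), smul_add,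
    add_sub_cancel_right, ← Finset.smul_sum, smul_smul, ← mul_pow, mul_inv_cancel₀ hdtC, one_pow,
    one_smul, map_sum]

theorem stable_of_cosets {X : Type} [Fintype X] (A : X → GL (Fin 2) ℝ)
    (a b c d : X → ℤ)
    (h00 : ∀ x, (A x) 0 0 = a x) (h01 : ∀ x, (A x) 0 1 = b x)
    (h10 : ∀ x, (A x) 1 0 = c x) (h11 : ∀ x, (A x) 1 1 = d x)
    (dt : ℕ) (hdt : 0 < dt) (hdet : ∀ x, (A x).val.det = dt)
    (t : Module.End ℂ (CuspForm (Gamma0 N) ((n : ℤ) + 1)))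
    (ht : ∀ f, eichler 1 n ⇑(t f) =
      ((dt : ℂ) ^ n) • ∑ x, (eichler 1 n ⇑f) ∣[(1 : ℤ) - n] (A x))
    (hperm : ∀ g ∈ Gamma0 N, ∃ π : Equiv.Perm X, ∀ x, ∃ g' ∈ Gamma0 N,
      A x * mapGL ℝ g = mapGL ℝ g' * A (π x)) :
    ∀ φ ∈ periodLattice N n, φ ∘ₗ t ∈ periodLattice N n := by
  intro φ hφ
  induction hφ using Submodule.span_induction with
  | mem φ hφ =>
    obtain ⟨g, hg, i, rfl⟩ := hφ
    obtain ⟨π, hπ⟩ := hperm g hg
    choose g' hg' hmul using hπ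
    have key : periodCoeff n g i ∘ₗ t = ∑ x, ∑ j : Fin n,
        (intMat n (a (π x)) (b (π x)) (c (π x)) (d (π x)) i j) • periodCoeff n (g' x) j := by
      ext f
      rw [LinearMap.comp_apply, periodCoeff_apply,
        periodFun_eq_of_cosets n A a b c d h00 h01 h10 h11 dt hdt hdet f (t f) (ht f) g π g' hg' hmul,
        coeffRetr_polyFun]
      simp [Matrix.mulVec, dotProduct]
    rw [key]
    exact Submodule.sum_mem _ fun x _ => Submodule.sum_mem _ fun j _ =>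
      Submodule.smul_mem _ _ (periodCoeff_mem n (g' x) (hg' x) j)
  | zero => simp
  | add φ ψ _ _ hφ hψ =>
    rw [LinearMap.add_comp]
    exact Submodule.add_mem _ hφ hψ
  | smul r φ _ hφ =>
    rw [LinearMap.smul_comp]
    exact Submodule.smul_mem _ r hφ

end Fermat.Agent.S22
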