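import Fermat.Agent.S22.SecD1
import Fermat.Prelude.Thm_UpperHalfPlane_qCoeff_heckeT
import Fermat.Prelude.Thm_UpperHalfPlane_qCoeff_heckeU
import Fermat.Prelude.Thm_UpperHalfPlane_eq_of_forall_qCoeff_eq
import Fermat.Prelude.Thm_ModularForm_periodic_heckeT_comp_ofComplex
import Fermat.Prelude.Thm_ModularForm_periodic_heckeU_comp_ofComplex
import Fermat.Prelude.Thm_ModularForm_mdifferentiable_heckeT
import Fermat.Prelude.Thm_ModularForm_mdifferentiable_heckeU
import Fermat.Prelude.Thm_ModularForm_isBoundedAtImInfty_heckeT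
import Fermat.Prelude.Thm_ModularForm_isBoundedAtImInfty_heckeU
import Fermat.Prelude.Thm_CuspFormClass_isZeroAt_heckeT
import Fermat.Prelude.Thm_CuspFormClass_isZeroAt_heckeU

set_option autoImplicit false

open UpperHalfPlane ModularForm CongruenceSubgroup Matrix.SpecialLinearGroup
open scoped MatrixGroups Manifold

noncomputable section

namespace Fermat.Agent.S22

section cusp

variable {N : ℕ} [NeZero N] (n : ℕ)

theorem qCoeff_smul_fun (c : ℂ) {F : ℍ → ℂ} (hper : Function.Periodic (F ∘ ofComplex) 1)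
    (hhol : MDiff F) (hbdd : IsBoundedAtImInfty F) (m : ℕ) :
    ModularFormClass.qCoeff (c • F) m = c * ModularFormClass.qCoeff F m := by
  unfold ModularFormClass.qCoeff
  rw [UpperHalfPlane.qExpansion_smul
    (UpperHalfPlane.analyticAt_cuspFunction_zero one_pos hper hhol hbdd) c]
  simp

theorem periodic_smul_fun (c : ℂ) {F : ℍ → ℂ} (hper : Function.Periodic (F ∘ ofComplex) 1) :
    Function.Periodic ((c • F) ∘ ofComplex) 1 := by
  intro z
  have := hper z
  simp only [Function.comp_apply, Pi.smul_apply] at this ⊢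
  rw [this]

theorem bdd_smul_fun (c : ℂ) {F : ℍ → ℂ} (hbdd : IsBoundedAtImInfty F) :
    IsBoundedAtImInfty (c • F) := by
  exact hbdd.const_smul_left c

/-- Hecke compatibility of the Eichler integral, `T_p`. -/
theorem eichler_heckeT (hn : 1 ≤ n) (f : CuspForm (Gamma0 N) ((n : ℤ) + 1)) {p : ℕ} (hp : p ≠ 0) :
    eichler 1 n (heckeT ((n : ℤ) + 1) p ⇑f) =
      ((p : ℂ) ^ n) • heckeT ((1 : ℤ) - n) p (eichler 1 n ⇑f) := by
  have hpC : (p : ℂ) ≠ 0 := by exact_mod_cast hp
  -- data for f
  have hfper := cuspForm_periodic n f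
  have hfhol := cuspForm_mdiff n f
  have hfzero := cuspForm_zero_at n f
  have hfbdd : IsBoundedAtImInfty ⇑f := hfzero.isBoundedAtImInfty
  -- data for T f
  set G := heckeT ((n : ℤ) + 1) p ⇑f with hG
  have hGper : Function.Periodic (G ∘ ofComplex) 1 :=
    ModularForm.periodic_heckeT_comp_ofComplex hfper _ p
  have hGhol : MDiff G := ModularForm.mdifferentiable_heckeT hfhol _ p
  have hGzero : IsZeroAtImInfty G :=
    OnePoint.isZeroAt_infty_iff.mp (CuspFormClass.isZeroAt_heckeT f p Fact.out)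
  -- data for E f
  set E := eichler 1 n ⇑f with hE
  have hEper : Function.Periodic (E ∘ ofComplex) 1 := eichler_periodic one_pos n hfper hfhol hfzero
  have hEhol : MDiff E := eichler_mdiff one_pos n hfper hfhol hfzero
  have hEbdd : IsBoundedAtImInfty E := eichler_bdd one_pos n hfper hfhol hfzero
  -- data for T (E f)
  set H := heckeT ((1 : ℤ) - n) p E with hH
  have hHper : Function.Periodic (H ∘ ofComplex) 1 :=
    ModularForm.periodic_heckeT_comp_ofComplex hEper _ p
  have hHhol : MDiff H := ModularForm.mdifferentiable_heckeT hEhol _ p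
  have hHbdd : IsBoundedAtImInfty H := ModularForm.isBoundedAtImInfty_heckeT hEbdd _ p
  refine UpperHalfPlane.eq_of_forall_qCoeff_eq
    (eichler_periodic one_pos n hGper hGhol hGzero) (eichler_mdiff one_pos n hGper hGhol hGzero)
    (eichler_bdd one_pos n hGper hGhol hGzero)
    (periodic_smul_fun _ hHper) (hHhol.const_smul _) (bdd_smul_fun _ hHbdd) fun m => ?_
  rw [qCoeff_smul_fun _ hHper hHhol hHbdd, hH,
    UpperHalfPlane.qCoeff_heckeT hEper hEhol hEbdd _ hp]
  have h1 : ModularFormClass.qCoeff (eichler 1 n G) m =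
      ModularFormClass.qCoeff G m * (((1 : ℝ) : ℂ) / (m : ℂ)) ^ n :=
    qExpansion_eichler one_pos n hGper hGhol hGzero m
  have h2 : ∀ j, ModularFormClass.qCoeff E j =
      ModularFormClass.qCoeff ⇑f j * (((1 : ℝ) : ℂ) / (j : ℂ)) ^ n :=
    fun j => qExpansion_eichler one_pos n hfper hfhol hfzero j
  rw [h1, hG, UpperHalfPlane.qCoeff_heckeT hfper hfhol hfbdd _ hp]
  simp only [coeffHeckeT, h2, Complex.ofReal_one, Nat.cast_mul]
  have e1 : ((n : ℤ) + 1 - 1) = (n : ℤ) := by ring
  have e2 : ((1 : ℤ) - n - 1) = -(n : ℤ) := by ring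
  rw [e1, e2, zpow_natCast, zpow_neg, zpow_natCast]
  split_ifs with hdvd
  · obtain ⟨m', rfl⟩ := hdvd
    rw [Nat.mul_div_cancel_left _ (Nat.pos_of_ne_zero hp)]
    push_cast
    rcases Nat.eq_zero_or_pos m' with rfl | hm'
    · have : (0 : ℂ) ^ n = 0 := zero_pow (by omega)
      simp [this]
    · have hm'C : (m' : ℂ) ≠ 0 := by exact_mod_cast hm'.ne'
      simp only [one_div, mul_inv, mul_pow, inv_pow]
      field_simp
  · rcases Nat.eq_zero_or_pos m with rfl | hm
    · exact absurd (dvd_zero p) hdvd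
    · have hmC : (m : ℂ) ≠ 0 := by exact_mod_cast hm.ne'
      simp only [one_div, mul_inv, mul_pow, inv_pow, add_zero]
      field_simp

/-- Hecke compatibility of the Eichler integral, `U_p`. -/
theorem eichler_heckeU (hn : 1 ≤ n) (f : CuspForm (Gamma0 N) ((n : ℤ) + 1)) {p : ℕ} (hp : p ≠ 0) :
    eichler 1 n (heckeU ((n : ℤ) + 1) p ⇑f) =
      ((p : ℂ) ^ n) • heckeU ((1 : ℤ) - n) p (eichler 1 n ⇑f) := by
  have hpC : (p : ℂ) ≠ 0 := by exact_mod_cast hp
  have hfper := cuspForm_periodic n f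
  have hfhol := cuspForm_mdiff n f
  have hfzero := cuspForm_zero_at n f
  have hfbdd : IsBoundedAtImInfty ⇑f := hfzero.isBoundedAtImInfty
  set G := heckeU ((n : ℤ) + 1) p ⇑f with hG
  have hGper : Function.Periodic (G ∘ ofComplex) 1 :=
    ModularForm.periodic_heckeU_comp_ofComplex hfper _ p
  have hGhol : MDiff G := ModularForm.mdifferentiable_heckeU hfhol _ p
  have hGzero : IsZeroAtImInfty G :=
    OnePoint.isZeroAt_infty_iff.mp (CuspFormClass.isZeroAt_heckeU f p Fact.out)
  set E := eichler 1 n ⇑f with hE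
  have hEper : Function.Periodic (E ∘ ofComplex) 1 := eichler_periodic one_pos n hfper hfhol hfzero
  have hEhol : MDiff E := eichler_mdiff one_pos n hfper hfhol hfzero
  have hEbdd : IsBoundedAtImInfty E := eichler_bdd one_pos n hfper hfhol hfzero
  set H := heckeU ((1 : ℤ) - n) p E with hH
  have hHper : Function.Periodic (H ∘ ofComplex) 1 :=
    ModularForm.periodic_heckeU_comp_ofComplex hEper _ p
  have hHhol : MDiff H := ModularForm.mdifferentiable_heckeU hEhol _ p
  have hHbdd : IsBoundedAtImInfty H := ModularForm.isBoundedAtImInfty_heckeU hEbdd _ p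
  refine UpperHalfPlane.eq_of_forall_qCoeff_eq
    (eichler_periodic one_pos n hGper hGhol hGzero) (eichler_mdiff one_pos n hGper hGhol hGzero)
    (eichler_bdd one_pos n hGper hGhol hGzero)
    (periodic_smul_fun _ hHper) (hHhol.const_smul _) (bdd_smul_fun _ hHbdd) fun m => ?_
  rw [qCoeff_smul_fun _ hHper hHhol hHbdd, hH,
    UpperHalfPlane.qCoeff_heckeU hEper hEhol hEbdd _ hp]
  have h1 : ModularFormClass.qCoeff (eichler 1 n G) m =
      ModularFormClass.qCoeff G m * (((1 : ℝ) : ℂ) / (m : ℂ)) ^ n :=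
    qExpansion_eichler one_pos n hGper hGhol hGzero m
  have h2 : ∀ j, ModularFormClass.qCoeff E j =
      ModularFormClass.qCoeff ⇑f j * (((1 : ℝ) : ℂ) / (j : ℂ)) ^ n :=
    fun j => qExpansion_eichler one_pos n hfper hfhol hfzero j
  rw [h1, hG, UpperHalfPlane.qCoeff_heckeU hfper hfhol hfbdd _ hp]
  simp only [coeffHeckeU, h2, Complex.ofReal_one, Nat.cast_mul]
  rcases Nat.eq_zero_or_pos m with rfl | hm
  · have : (0 : ℂ) ^ n = 0 := zero_pow (by omega)
    simp [this]
  · have hmC : (m : ℂ) ≠ 0 := by exact_mod_cast hm.ne'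
    simp only [one_div, mul_inv, mul_pow, inv_pow]
    field_simp

end cusp

end Fermat.Agent.S22
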