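import Fermat.Agent.S22.H82_Gamma0FG
import Fermat.Agent.S22.H82_TrivialWeights

set_option autoImplicit false

open UpperHalfPlane ModularForm CongruenceSubgroup
open scoped MatrixGroups Manifold

namespace Fermat.Agent.S22

/-! ## E. finite generation of `Gamma0 N` -/

theorem Gamma0_fg (N : ℕ) [NeZero N] : (Gamma0 N).FG :=
  (Group.fg_iff_subgroup_fg (Gamma0 N)).mp (H82.groupFG_Gamma0 N)

/-! ## F. low weight -/

theorem cuspForm_eq_zero_of_le_one (N : ℕ) [NeZero N] {k : ℤ} (hk : k ≤ 1)
    (f : CuspForm (Gamma0 N) k) : f = 0 := by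
  rcases hk.lt_or_eq with h | h
  · exact H82.cuspForm_Gamma0_eq_zero_of_nonpos N (by omega) f
  · exact H82.cuspForm_Gamma0_eq_zero_of_odd N (by rw [h]; exact odd_one) f

end Fermat.Agent.S22
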