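import Fermat.Agent.S22.Abstract
import Fermat.Agent.S22.SecD2
import Fermat.Agent.S22.SecEF
import Fermat.Agent.S22.H88_Separation
import Fermat.Prelude.Sol.S_ModularForm_heckeT_slash_eq_self_of_mem_Gamma0

set_option autoImplicit false

open UpperHalfPlane ModularForm CongruenceSubgroup Matrix.SpecialLinearGroup
open scoped MatrixGroups Manifold

noncomputable section

namespace Fermat.Agent.S22

variable {N : ℕ} [NeZero N] (n : ℕ)

/-- A linear retraction of `polyFun n`. -/
def coeffRetr (n : ℕ) : (ℍ → ℂ) →ₗ[ℂ] (Fin n → ℂ) :=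
  Classical.choose (LinearMap.exists_leftInverse_of_injective (polyFun n)
    (LinearMap.ker_eq_bot.mpr (polyFun_injective n)))

theorem coeffRetr_polyFun (v : Fin n → ℂ) : coeffRetr n (polyFun n v) = v := by
  have h := Classical.choose_spec (LinearMap.exists_leftInverse_of_injective (polyFun n)
    (LinearMap.ker_eq_bot.mpr (polyFun_injective n)))
  exact congrArg (fun F : (Fin n → ℂ) →ₗ[ℂ] (Fin n → ℂ) => F v) h

/-- The period function as a linear map in the cusp form. -/
def periodLin (g : SL(2, ℤ)) : CuspForm (Gamma0 N) ((n : ℤ) + 1) →ₗ[ℂ] (ℍ → ℂ) where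
  toFun f := periodFun n f g
  map_add' f f' := periodFun_add n f f' g
  map_smul' c f := periodFun_smul n c f g

/-- The coefficient functionals of the period polynomials. -/
def periodCoeff (g : SL(2, ℤ)) (i : Fin n) : CuspForm (Gamma0 N) ((n : ℤ) + 1) →ₗ[ℂ] ℂ :=
  (LinearMap.proj i) ∘ₗ (coeffRetr n) ∘ₗ (periodLin n g)

theorem periodCoeff_apply (g : SL(2, ℤ)) (i : Fin n) (f : CuspForm (Gamma0 N) ((n : ℤ) + 1)) :
    periodCoeff n g i f = coeffRetr n (periodFun n f g) i := rfl

theorem periodFun_eq_polyFun (f : CuspForm (Gamma0 N) ((n : ℤ) + 1)) {g : SL(2, ℤ)}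
    (hg : g ∈ Gamma0 N) : periodFun n f g = polyFun n (fun i => periodCoeff n g i f) := by
  obtain ⟨v, hv⟩ := periodFun_mem_range n f hg
  have : (fun i => periodCoeff n g i f) = v := by
    funext i
    rw [periodCoeff_apply, ← hv, coeffRetr_polyFun]
  rw [this, hv]

/-- The lattice of period functionals. -/
def periodLattice (N : ℕ) [NeZero N] (n : ℕ) :
    Submodule ℤ (CuspForm (Gamma0 N) ((n : ℤ) + 1) →ₗ[ℂ] ℂ) :=
  Submodule.span ℤ {φ | ∃ g ∈ Gamma0 N, ∃ i : Fin n, φ = periodCoeff n g i}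

theorem periodCoeff_mem (g : SL(2, ℤ)) (hg : g ∈ Gamma0 N) (i : Fin n) :
    periodCoeff (N := N) n g i ∈ periodLattice N n :=
  Submodule.subset_span ⟨g, hg, i, rfl⟩

theorem periodCoeff_one (i : Fin n) : periodCoeff (N := N) n 1 i = 0 := by
  ext f
  rw [periodCoeff_apply, periodFun_one]
  simp

theorem periodCoeff_mul {g : SL(2, ℤ)} (hg : g ∈ Gamma0 N) (g' : SL(2, ℤ)) (i : Fin n) :
    periodCoeff (N := N) n (g * g') i =
      ∑ j : Fin n, (intMat n (g' 0 0) (g' 0 1) (g' 1 0) (g' 1 1) i j) • periodCoeff n g j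
        + periodCoeff n g' i := by
  ext f
  rw [periodCoeff_apply, periodFun_mul, periodFun_eq_polyFun n f hg, polyFun_slash_SL, map_add,
    coeffRetr_polyFun]
  simp [periodCoeff_apply, Matrix.mulVec, dotProduct]

theorem periodLattice_fg : (periodLattice N n).FG := by
  classical
  obtain ⟨S, hS⟩ := Gamma0_fg N
  set LS : Submodule ℤ (CuspForm (Gamma0 N) ((n : ℤ) + 1) →ₗ[ℂ] ℂ) :=
    Submodule.span ℤ (Set.range fun x : S × Fin n => periodCoeff n x.1.1 x.2) with hLS
  have hLSfg : LS.FG := Submodule.fg_span (Set.finite_range _)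
  have key : ∀ g (hg : g ∈ Subgroup.closure (S : Set SL(2, ℤ))), ∀ i, periodCoeff (N := N) n g i ∈ LS := by
    intro g hg
    induction hg using Subgroup.closure_induction with
    | mem x hx => exact fun i => Submodule.subset_span ⟨(⟨x, hx⟩, i), rfl⟩
    | one => intro i; rw [periodCoeff_one]; exact LS.zero_mem
    | mul x y hx hy ihx ihy =>
      intro i
      rw [periodCoeff_mul n (hS ▸ hx) y i]
      exact LS.add_mem (LS.sum_mem fun j _ => LS.smul_mem _ (ihx j)) (ihy i)
    | inv x hx ih =>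
      intro i
      have h1 := periodCoeff_mul (N := N) n (hS ▸ hx) x⁻¹ i
      rw [mul_inv_cancel, periodCoeff_one] at h1
      have h2 : periodCoeff (N := N) n x⁻¹ i = - ∑ j : Fin n,
          (intMat n (x⁻¹ 0 0) (x⁻¹ 0 1) (x⁻¹ 1 0) (x⁻¹ 1 1) i j) • periodCoeff n x j :=
        eq_neg_of_add_eq_zero_right h1.symm
      rw [h2]
      exact LS.neg_mem (LS.sum_mem fun j _ => LS.smul_mem _ (ih j))
  have hle : periodLattice N n ≤ LS := by
    rw [periodLattice, Submodule.span_le]
    rintro φ ⟨g, hg, i, rfl⟩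
    exact key g (hS ▸ hg) i
  exact hLSfg.of_le hle

theorem periodLattice_separates (hn : 1 ≤ n) (f : CuspForm (Gamma0 N) ((n : ℤ) + 1))
    (h : ∀ φ ∈ periodLattice N n, φ f = 0) : f = 0 := by
  apply H88.eq_zero_of_periodFun_eq_zero n hn f
  intro g hg
  rw [periodFun_eq_polyFun n f hg]
  have : (fun i => periodCoeff n g i f) = 0 := by
    funext i
    exact h _ (periodCoeff_mem n g hg i)
  rw [this, map_zero]

end Fermat.Agent.S22
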