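import Fermat.Agent.S22.SecA
import Fermat.Agent.S22.PolyFun
import Fermat.Agent.S22.SecC
import Fermat.Prelude.Thm_CongruenceSubgroup_one_mem_strictPeriods_Gamma0

set_option autoImplicit false

open UpperHalfPlane ModularForm CongruenceSubgroup Matrix.SpecialLinearGroup
open scoped MatrixGroups Manifold

noncomputable section

namespace Fermat.Agent.S22

local notation "D" => Derivative.normalizedDerivOfComplex

theorem SL_slash_mapGL (k : ℤ) (F : ℍ → ℂ) (g : SL(2, ℤ)) :
    F ∣[k] g = F ∣[k] (mapGL ℝ g) := rfl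

section cusp

variable {N : ℕ} [NeZero N] (n : ℕ)

theorem cuspForm_periodic (f : CuspForm (Gamma0 N) ((n : ℤ) + 1)) :
    Function.Periodic (⇑f ∘ ofComplex) 1 :=
  SlashInvariantFormClass.periodic_comp_ofComplex f
    (CongruenceSubgroup.one_mem_strictPeriods_Gamma0 N)

theorem cuspForm_zero_at (f : CuspForm (Gamma0 N) ((n : ℤ) + 1)) : IsZeroAtImInfty ⇑f :=
  CuspFormClass.zero_at_infty f

theorem cuspForm_mdiff (f : CuspForm (Gamma0 N) ((n : ℤ) + 1)) : MDiff ⇑f :=
  CuspFormClass.holo f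

theorem cuspForm_slash (f : CuspForm (Gamma0 N) ((n : ℤ) + 1)) {g : SL(2, ℤ)}
    (hg : g ∈ Gamma0 N) : ⇑f ∣[(n : ℤ) + 1] g = ⇑f :=
  SlashInvariantFormClass.slash_action_eq f (mapGL ℝ g) (Subgroup.mem_map_of_mem (mapGL ℝ) hg)

theorem periodFun_one (F : ℍ → ℂ) : periodFun n F 1 = 0 := by
  rw [periodFun, SlashAction.slash_one, sub_self]

theorem periodFun_mul (F : ℍ → ℂ) (g g' : SL(2, ℤ)) :
    periodFun n F (g * g') = (periodFun n F g) ∣[(1 : ℤ) - n] g' + periodFun n F g' := by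
  simp only [periodFun, SlashAction.slash_mul, sub_eq_add_neg, SlashAction.add_slash,
    SlashAction.neg_slash]
  abel

theorem periodFun_add (f f' : CuspForm (Gamma0 N) ((n : ℤ) + 1)) (g : SL(2, ℤ)) :
    periodFun n ⇑(f + f') g = periodFun n f g + periodFun n f' g := by
  have h : (⇑(f + f') : ℍ → ℂ) = ⇑f + ⇑f' := rfl
  rw [periodFun, periodFun, periodFun, h,
    eichler_add one_pos n (cuspForm_periodic n f) (cuspForm_mdiff n f) (cuspForm_zero_at n f)
      (cuspForm_periodic n f') (cuspForm_mdiff n f') (cuspForm_zero_at n f'),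
    SlashAction.add_slash]
  abel

theorem periodFun_smul (c : ℂ) (f : CuspForm (Gamma0 N) ((n : ℤ) + 1)) (g : SL(2, ℤ)) :
    periodFun n ⇑(c • f) g = c • periodFun n f g := by
  have h : (⇑(c • f) : ℍ → ℂ) = c • ⇑f := rfl
  rw [periodFun, periodFun, h,
    eichler_smul one_pos n c (cuspForm_periodic n f) (cuspForm_mdiff n f) (cuspForm_zero_at n f),
    SL_smul_slash, smul_sub]

/-- The period function is a polynomial on `Gamma0 N`. -/
theorem periodFun_mem_range (f : CuspForm (Gamma0 N) ((n : ℤ) + 1)) {g : SL(2, ℤ)}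
    (hg : g ∈ Gamma0 N) : periodFun n f g ∈ LinearMap.range (polyFun n) := by
  have hE : MDiff (eichler 1 n ⇑f) :=
    eichler_mdiff one_pos n (cuspForm_periodic n f) (cuspForm_mdiff n f) (cuspForm_zero_at n f)
  have hDE : Dn n (eichler 1 n ⇑f) = ⇑f :=
    Dn_eichler one_pos n (cuspForm_periodic n f) (cuspForm_mdiff n f) (cuspForm_zero_at n f)
  have hEg : MDiff ((eichler 1 n ⇑f) ∣[(1 : ℤ) - n] g) := hE.slash _ _
  have h0 : Dn n (periodFun n f g) = 0 := by
    rw [periodFun, Dn_sub n hEg hE, bol_SL n hE g, hDE, cuspForm_slash n f hg, sub_self]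
  obtain ⟨v, hv⟩ := exists_polyFun_of_Dn_eq_zero n (hEg.sub hE) h0
  exact ⟨v, hv.symm⟩

end cusp

end Fermat.Agent.S22
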