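import Fermat.Agent.S22.SepCore
import Fermat.Agent.S22.SecC

/-!
# S22, Skeleton section [D]: separation (the injectivity half of Eichler-Shimura)

Exact Skeleton statement `eq_zero_of_periodFun_eq_zero`, obtained by plugging section [C]
(`SecC.lean`) into `Sep.eq_zero_of_periodFun_eq_zero_of` (`SepCore.lean`).
-/

set_option autoImplicit false

open UpperHalfPlane ModularForm CongruenceSubgroup
open scoped MatrixGroups Manifold

noncomputable section

namespace Fermat.Agent.S22

theorem Sep.eichlerHyp : Sep.EichlerHyp :=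
  ⟨eichler_mdiff, Dn_eichler, eichler_periodic, eichler_bdd⟩

section cusp

variable {N : ℕ} [NeZero N] (n : ℕ)

/-- Separation: the injectivity half of Eichler-Shimura. -/
theorem eq_zero_of_periodFun_eq_zero (hn : 1 ≤ n) (f : CuspForm (Gamma0 N) ((n : ℤ) + 1))
    (h0 : ∀ g ∈ Gamma0 N, periodFun n f g = 0) : f = 0 :=
  Sep.eq_zero_of_periodFun_eq_zero_of Sep.eichlerHyp n hn f h0

end cusp

end Fermat.Agent.S22
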