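import Fermat.Agent.S22.Defs
import Fermat.Agent.S22.PolyFun
import Fermat.Agent.S22.H30_Bol

/-!
# S22, separation (injectivity half of Eichler-Shimura), core

`Sep.eq_zero_of_periodFun_eq_zero_of` proves the Skeleton statement
`eq_zero_of_periodFun_eq_zero` from a black-box interface `Sep.EichlerHyp` to section [C]
(four statements, verbatim the Skeleton ones: `eichler_mdiff`, `Dn_eichler`, `eichler_periodic`,
`eichler_bdd`). Sections [A] (Bol, from `H30_Bol`) and [B] (from `PolyFun`) are imported.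
-/

set_option autoImplicit false

open UpperHalfPlane ModularForm CongruenceSubgroup Matrix.SpecialLinearGroup ModularGroup
open scoped MatrixGroups Manifold Topology

noncomputable section

namespace Fermat.Agent.S22.Sep

local notation "D" => Derivative.normalizedDerivOfComplex

/-- Black-box interface to section [C] of the Skeleton (verbatim statements). -/
structure EichlerHyp : Prop where
  mdiff : ∀ {h : ℝ} (_ : 0 < h) (n : ℕ) {F : ℍ → ℂ} (_ : Function.Periodic (F ∘ ofComplex) h)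
    (_ : MDiff F) (_ : IsZeroAtImInfty F), MDiff (eichler h n F)
  Dn_eichler : ∀ {h : ℝ} (_ : 0 < h) (n : ℕ) {F : ℍ → ℂ}
    (_ : Function.Periodic (F ∘ ofComplex) h) (_ : MDiff F) (_ : IsZeroAtImInfty F),
    Dn n (eichler h n F) = F
  periodic : ∀ {h : ℝ} (_ : 0 < h) (n : ℕ) {F : ℍ → ℂ}
    (_ : Function.Periodic (F ∘ ofComplex) h) (_ : MDiff F) (_ : IsZeroAtImInfty F),
    Function.Periodic (eichler h n F ∘ ofComplex) h
  bdd : ∀ {h : ℝ} (_ : 0 < h) (n : ℕ) {F : ℍ → ℂ} (_ : Function.Periodic (F ∘ ofComplex) h)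
    (_ : MDiff F) (_ : IsZeroAtImInfty F), IsBoundedAtImInfty (eichler h n F)

/-! ### periodicity: `vadd` form versus `∘ ofComplex` form -/

theorem periodic_comp_ofComplex_of_vadd {G : ℍ → ℂ} {h : ℝ}
    (hG : ∀ τ : ℍ, G (h +ᵥ τ) = G τ) : Function.Periodic (G ∘ ofComplex) h := by
  intro w
  by_cases hw : 0 < w.im
  · have hw' : 0 < (w + h).im := by simp [hw]
    simp only [Function.comp_apply, ofComplex_apply_of_im_pos hw', ofComplex_apply_of_im_pos hw]
    convert hG ⟨w, hw⟩ using 2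
    apply UpperHalfPlane.ext
    simp [add_comm]
  · have hw1 : (w + h).im ≤ 0 := by simpa using hw
    have hw0 : w.im ≤ 0 := not_lt.mp hw
    simp only [Function.comp_apply, ofComplex_apply_eq_of_im_nonpos hw1 hw0]

theorem vadd_of_periodic_comp_ofComplex {G : ℍ → ℂ} {h : ℝ}
    (hG : Function.Periodic (G ∘ ofComplex) h) (τ : ℍ) : G (h +ᵥ τ) = G τ := by
  have := hG (τ : ℂ)
  simp only [Function.comp_apply, ofComplex_apply] at this
  rw [← this]
  congr 1
  apply UpperHalfPlane.ext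
  rw [coe_vadd]
  have hpos : 0 < ((τ : ℂ) + (h : ℂ)).im := by simpa using τ.im_pos
  rw [ofComplex_apply_of_im_pos hpos]
  simp [add_comm]

/-! ### translations and conjugates -/

theorem denom_T_zpow (m : ℤ) (z : ℍ) : denom (T ^ m : SL(2, ℤ)) z = 1 := by
  simp [denom, ModularGroup.coe_T_zpow, -map_zpow]

theorem slash_T_zpow_apply (k : ℤ) (X : ℍ → ℂ) (m : ℤ) (z : ℍ) :
    (X ∣[k] (T ^ m)) z = X ((m : ℝ) +ᵥ z) := by
  rw [ModularForm.SL_slash_apply, modular_T_zpow_smul, denom_T_zpow, one_zpow, mul_one]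

theorem Gamma_le_Gamma0 (N : ℕ) : Gamma N ≤ Gamma0 N := by
  intro γ hγ
  rw [Gamma_mem] at hγ
  rw [Gamma0_mem]
  exact hγ.2.2.1

theorem conj_T_pow_mem_Gamma0 (N : ℕ) (s : SL(2, ℤ)) :
    s * T ^ (N : ℤ) * s⁻¹ ∈ Gamma0 N := by
  apply Gamma_le_Gamma0
  have h1 : T ^ (N : ℤ) ∈ Gamma N := ModularGroup_T_pow_mem_Gamma N N dvd_rfl
  exact (Gamma_normal N).conj_mem _ h1 s

/-- If `X` is slash-invariant under `Gamma0 N`, then every translate `X ∣[k] s`, `s ∈ SL(2, ℤ)`,
is `N`-periodic. -/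
theorem periodic_slash_of_invariant {N : ℕ} (k : ℤ) (X : ℍ → ℂ)
    (hinv : ∀ g ∈ Gamma0 N, X ∣[k] g = X) (s : SL(2, ℤ)) :
    Function.Periodic ((X ∣[k] s) ∘ ofComplex) (N : ℝ) := by
  apply periodic_comp_ofComplex_of_vadd
  intro z
  have h1 := slash_T_zpow_apply k (X ∣[k] s) (N : ℤ) z
  rw [← SlashAction.slash_mul] at h1
  have h2 : s * T ^ (N : ℤ) = (s * T ^ (N : ℤ) * s⁻¹) * s := by group
  rw [h2, SlashAction.slash_mul, hinv _ (conj_T_pow_mem_Gamma0 N s)] at h1
  simpa using h1.symm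

/-! ### bridging `H30_Bol` to the `Dn` vocabulary -/

theorem Dn_sub' (n : ℕ) {F G : ℍ → ℂ} (hF : MDiff F) (hG : MDiff G) :
    Dn n (F - G) = Dn n F - Dn n G := H30.iterate_D_sub hF hG n

theorem Dn_const (n : ℕ) (hn : 1 ≤ n) (c : ℂ) : Dn n (Function.const ℍ c) = 0 := by
  obtain ⟨m, rfl⟩ := Nat.exists_eq_add_of_le' hn
  have h1 : D (Function.const ℍ c) = 0 := Derivative.normalizedDerivOfComplex_const c
  show D^[m + 1] (Function.const ℍ c) = 0
  rw [Function.iterate_succ_apply, h1]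
  exact H30.iterate_D_zero m

theorem bol_SL' (n : ℕ) (hn : 1 ≤ n) {F : ℍ → ℂ} (hF : MDiff F) (g : SL(2, ℤ)) :
    Dn n (F ∣[(1 : ℤ) - n] g) = (Dn n F) ∣[(n : ℤ) + 1] g := by
  obtain ⟨m, rfl⟩ := Nat.exists_eq_add_of_le' hn
  have h1 : (1 : ℤ) - ((m + 1 : ℕ) : ℤ) = -(m : ℤ) := by push_cast; ring
  have h2 : (((m + 1 : ℕ) : ℤ)) + 1 = (m : ℤ) + 2 := by push_cast; ring
  rw [h1, h2]
  exact H30.bol_SL hF m g

/-! ### boundedness at all cusps -/

theorem isBoundedAtImInfty_slash (H : EichlerHyp) {N : ℕ} [NeZero N] (n : ℕ) (hn : 1 ≤ n)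
    (f : CuspForm (Gamma0 N) ((n : ℤ) + 1)) (E : ℍ → ℂ) (hE : MDiff E)
    (hD : Dn n E = ⇑f) (hinv : ∀ g ∈ Gamma0 N, E ∣[(1 : ℤ) - n] g = E) (s : SL(2, ℤ)) :
    IsBoundedAtImInfty (E ∣[(1 : ℤ) - n] s) := by
  set Fs : ℍ → ℂ := ⇑f ∣[(n : ℤ) + 1] s with hFs
  have hFs_md : MDiff Fs := (CuspFormClass.holo f).slash _ _
  have hFs_per : Function.Periodic (Fs ∘ ofComplex) (N : ℝ) :=
    periodic_slash_of_invariant _ _ (fun g hg => SlashInvariantForm.slash_action_eqn f
      (g : GL (Fin 2) ℝ) (Subgroup.mem_map_of_mem (mapGL ℝ) hg)) s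
  have hFs_zero : IsZeroAtImInfty Fs := CuspFormClass.zero_at_infty_slash f s
  have hNpos : (0 : ℝ) < (N : ℝ) := Nat.cast_pos.mpr (NeZero.pos N)
  set G : ℍ → ℂ := eichler (N : ℝ) n Fs with hGdef
  have hG : MDiff G := H.mdiff hNpos n hFs_per hFs_md hFs_zero
  have hDG : Dn n G = Fs := H.Dn_eichler hNpos n hFs_per hFs_md hFs_zero
  have hGper : Function.Periodic (G ∘ ofComplex) (N : ℝ) :=
    H.periodic hNpos n hFs_per hFs_md hFs_zero
  have hGbdd : IsBoundedAtImInfty G := H.bdd hNpos n hFs_per hFs_md hFs_zero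
  set X : ℍ → ℂ := E ∣[(1 : ℤ) - n] s with hX
  have hXmd : MDiff X := hE.slash _ _
  have hXper : Function.Periodic (X ∘ ofComplex) (N : ℝ) :=
    periodic_slash_of_invariant _ _ hinv s
  have hDX : Dn n X = Fs := by rw [hX, bol_SL' n hn hE s, hD]
  have hH : Dn n (X - G) = 0 := by rw [Dn_sub' n hXmd hG, hDX, hDG, sub_self]
  obtain ⟨v, hv⟩ := exists_polyFun_of_Dn_eq_zero n (hXmd.sub hG) hH
  have hvper : Function.Periodic (polyFun n v ∘ ofComplex) (N : ℝ) := by
    intro w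
    have h1 := hXper w
    have h2 := hGper w
    simp only [Function.comp_apply] at h1 h2 ⊢
    rw [← hv, Pi.sub_apply, Pi.sub_apply, h1, h2]
  have hvbdd : IsBoundedAtImInfty (polyFun n v) := polyFun_bdd_of_periodic n v hNpos hvper
  have hXeq : X = G + polyFun n v := by rw [← hv]; ring
  rw [hXeq]
  exact hGbdd.add hvbdd

/-! ### vanishing in nonpositive weight -/

/-- Package a slash-invariant holomorphic function bounded at all cusps as a modular form. -/
def mkModularForm {N : ℕ} [NeZero N] (k : ℤ) (E : ℍ → ℂ) (hE : MDiff E)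
    (hinv : ∀ g ∈ Gamma0 N, E ∣[k] g = E)
    (hbdd : ∀ s : SL(2, ℤ), IsBoundedAtImInfty (E ∣[k] s)) :
    ModularForm (Gamma0 N) k where
  toFun := E
  slash_action_eq' := by
    rintro γ ⟨g, hg, rfl⟩
    exact hinv g hg
  holo' := hE
  bdd_at_cusps' := by
    intro c hc
    rw [Subgroup.IsArithmetic.isCusp_iff_isCusp_SL2Z] at hc
    rw [OnePoint.isBoundedAt_iff_forall_SL2Z hc]
    intro γ _
    exact hbdd γ

theorem exists_const_of_nonpos_weight {N : ℕ} [NeZero N] {k : ℤ} (hk : k ≤ 0) (E : ℍ → ℂ)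
    (hE : MDiff E) (hinv : ∀ g ∈ Gamma0 N, E ∣[k] g = E)
    (hbdd : ∀ s : SL(2, ℤ), IsBoundedAtImInfty (E ∣[k] s)) :
    ∃ c : ℂ, E = Function.const ℍ c := by
  rcases hk.lt_or_eq with hk' | hk'
  · have := ModularForm.isZero_of_neg_weight hk' (mkModularForm k E hE hinv hbdd)
    have h2 : ⇑(mkModularForm k E hE hinv hbdd) = E := rfl
    refine ⟨0, ?_⟩
    rw [← h2, this]
    rfl
  · subst hk'
    obtain ⟨c, hc⟩ := ModularForm.eq_const_of_weight_zero (mkModularForm 0 E hE hinv hbdd)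
    exact ⟨c, hc⟩

/-! ### separation -/

theorem cuspForm_periodic' {N : ℕ} (k : ℤ) (f : CuspForm (Gamma0 N) k) :
    Function.Periodic (⇑f ∘ ofComplex) 1 :=
  SlashInvariantFormClass.periodic_comp_ofComplex f (by simp)

/-- Separation (the injectivity half of Eichler-Shimura), modulo the interface `EichlerHyp`
to section [C]. -/
theorem eq_zero_of_periodFun_eq_zero_of (H : EichlerHyp) {N : ℕ} [NeZero N] (n : ℕ)
    (hn : 1 ≤ n) (f : CuspForm (Gamma0 N) ((n : ℤ) + 1))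
    (h0 : ∀ g ∈ Gamma0 N, periodFun n f g = 0) : f = 0 := by
  have hper : Function.Periodic (⇑f ∘ ofComplex) 1 := cuspForm_periodic' _ f
  have hhol : MDiff ⇑f := CuspFormClass.holo f
  have hzero : IsZeroAtImInfty ⇑f := by
    have := CuspFormClass.zero_at_infty_slash f (1 : SL(2, ℤ))
    simpa using this
  set E : ℍ → ℂ := eichler 1 n ⇑f with hEdef
  have hE : MDiff E := H.mdiff one_pos n hper hhol hzero
  have hD : Dn n E = ⇑f := H.Dn_eichler one_pos n hper hhol hzero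
  have hinv : ∀ g ∈ Gamma0 N, E ∣[(1 : ℤ) - n] g = E := by
    intro g hg
    have := h0 g hg
    rw [periodFun] at this
    exact sub_eq_zero.mp this
  have hbdd := fun s => isBoundedAtImInfty_slash H n hn f E hE hD hinv s
  have hk : (1 : ℤ) - n ≤ 0 := by omega
  obtain ⟨c, hc⟩ := exists_const_of_nonpos_weight hk E hE hinv hbdd
  apply DFunLike.coe_injective
  rw [← hD, hc, Dn_const n hn c]
  rfl

end Fermat.Agent.S22.Sep
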